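import Fermat.Agent.CFT.S14Input

/-!
# From cyclic to abelian unramified extensions: the chain argument
-/

set_option autoImplicit false
set_option linter.unusedSectionVars false
set_option linter.style.haveILetI false

open scoped Classical nonZeroDivisors Topology

namespace Fermat.Agent.ZC

open NumberField Filter IsDedekindDomain Module Fermat.Agent.CFT Fermat.Agent.H03

section Bdd

variable (K : Type*) [Field K] [NumberField K]

/-- the sum over the primes satisfying `P` is bounded near `1` -/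
def Bdd1 (P : HeightOneSpectrum (𝓞 K) → Prop) : Prop :=
  ∃ C : ℝ, ∀ᶠ s in 𝓝[>] (1 : ℝ), psum K s P ≤ C

variable {K}

theorem psum_nonneg (s : ℝ) (P : HeightOneSpectrum (𝓞 K) → Prop) : 0 ≤ psum K s P := by
  refine tsum_nonneg fun v => ?_
  split_ifs
  · exact H03.nrm_nonneg K s _
  · exact le_rfl

theorem psum_mono {s : ℝ} (hs : 1 < s) (hs2 : s ≤ 2) {P Q : HeightOneSpectrum (𝓞 K) → Prop}
    (h : ∀ v, P v → Q v) : psum K s P ≤ psum K s Q := by
  refine Summable.tsum_le_tsum (fun v => ?_) (summable_psum K hs hs2 P) (summable_psum K hs hs2 Q)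
  have h0 := H03.nrm_nonneg K s v.asIdeal
  have hv := h v
  by_cases hP : P v <;> by_cases hQ : Q v <;> simp_all

theorem psum_add_le {s : ℝ} (hs : 1 < s) (hs2 : s ≤ 2)
    {P Q R : HeightOneSpectrum (𝓞 K) → Prop} (hPR : ∀ v, P v → R v) (hQR : ∀ v, Q v → R v)
    (hPQ : ∀ v, P v → ¬ Q v) : psum K s P + psum K s Q ≤ psum K s R := by
  rw [psum, psum, psum, ← (summable_psum K hs hs2 P).tsum_add (summable_psum K hs hs2 Q)]
  refine Summable.tsum_le_tsum (fun v => ?_)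
    ((summable_psum K hs hs2 P).add (summable_psum K hs hs2 Q)) (summable_psum K hs hs2 R)
  have h0 := H03.nrm_nonneg K s v.asIdeal
  have h1 := hPR v
  have h2 := hQR v
  have h3 := hPQ v
  by_cases hP : P v <;> by_cases hQ : Q v <;> by_cases hR : R v <;> simp_all

theorem Bdd1.or {P Q R : HeightOneSpectrum (𝓞 K) → Prop} (hP : Bdd1 K P) (hQ : Bdd1 K Q)
    (h : ∀ v, R v → P v ∨ Q v) : Bdd1 K R := by
  obtain ⟨C, hC⟩ := hP
  obtain ⟨C', hC'⟩ := hQ
  refine ⟨C + C', ?_⟩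
  filter_upwards [hC, hC', eventually_Ioc] with s h1 h2 hs
  have := psum_le_add K hs.1 hs.2 h
  linarith

theorem Bdd1.mono {P Q : HeightOneSpectrum (𝓞 K) → Prop} (hP : Bdd1 K P) (h : ∀ v, Q v → P v) :
    Bdd1 K Q := hP.or hP fun v hv => Or.inl (h v hv)

theorem bdd1_false : Bdd1 K fun _ => False := by
  refine ⟨0, Eventually.of_forall fun s => ?_⟩
  simp [psum]

theorem Bdd1.exists_finset {ι : Type*} (S : Finset ι) {P : ι → HeightOneSpectrum (𝓞 K) → Prop}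
    (h : ∀ i ∈ S, Bdd1 K (P i)) : Bdd1 K fun v => ∃ i ∈ S, P i v := by
  induction S using Finset.induction_on with
  | empty => simpa using bdd1_false
  | insert a S ha ih =>
    refine (h a (Finset.mem_insert_self _ _)).or
      (ih fun i hi => h i (Finset.mem_insert_of_mem hi)) ?_
    rintro v ⟨i, hi, hv⟩
    rcases Finset.mem_insert.mp hi with rfl | hi
    · exact Or.inl hv
    · exact Or.inr ⟨i, hi, hv⟩

theorem Bdd1.exists_fintype {ι : Type*} [Finite ι] {P : ι → HeightOneSpectrum (𝓞 K) → Prop}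
    (h : ∀ i, Bdd1 K (P i)) : Bdd1 K fun v => ∃ i, P i v := by
  haveI := Fintype.ofFinite ι
  refine (Bdd1.exists_finset Finset.univ fun i _ => h i).mono ?_
  rintro v ⟨i, hi⟩
  exact ⟨i, Finset.mem_univ i, hi⟩

end Bdd

section classgroup

variable {K : Type*} [Field K] [NumberField K]

/-- the class of a prime -/
noncomputable def clv (v : HeightOneSpectrum (𝓞 K)) : ClassGroup (𝓞 K) :=
  ClassGroup.mk0 ⟨v.asIdeal, mem_nonZeroDivisors_of_ne_zero v.ne_bot⟩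

/-- upper bound for the primes in a subgroup of the class group -/
theorem exists_upper_class (H : Subgroup (ClassGroup (𝓞 K))) :
    ∃ C : ℝ, ∀ᶠ s in 𝓝[>] (1 : ℝ), (H.index : ℝ) * psum K s (fun v => clv v ∈ H) ≤ ell s + C := by
  set A := Additive (ClassGroup (𝓞 K) ⧸ H) with hA
  set ρ : ClassGroup (𝓞 K) →* Multiplicative A := QuotientGroup.mk' H with hρ
  set c := clHom ρ with hc
  have hsurj : ∀ a : A, ∃ I : Ideal (𝓞 K), I ≠ ⊥ ∧ IsCoprime I ⊤ ∧ c.toFun I = a := by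
    intro a
    obtain ⟨x, hx⟩ := QuotientGroup.mk_surjective (s := H) a
    obtain ⟨⟨I, hI⟩, rfl⟩ := ClassGroup.mk0_surjective x
    refine ⟨I, ne_bot_iff_mem.mpr hI, isCoprime_top.symm, ?_⟩
    rw [hc, clHom_apply ρ hI]
    exact hx
  obtain ⟨C, hC⟩ := c.exists_key top_ne_bot hsurj
  refine ⟨C, ?_⟩
  filter_upwards [hC] with s hs
  have h1 : (fun v : HeightOneSpectrum (𝓞 K) => IsCoprime v.asIdeal ⊤ ∧ c.toFun v.asIdeal = 0) =
      fun v => clv v ∈ H := by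
    funext v
    rw [hc, clHom_apply ρ (mem_nonZeroDivisors_of_ne_zero v.ne_bot), clv,
      ← QuotientGroup.eq_one_iff]
    exact propext ⟨fun h => h.2, fun h => ⟨isCoprime_top.symm, h⟩⟩
  rw [h1] at hs
  exact hs

end classgroup

section chain

variable {K : Type*} [Field K] [NumberField K] {G : Type*} [CommGroup G] [Finite G]

/-- a subgroup of a finite abelian group is the intersection of the cocyclic subgroups
containing it -/
theorem exists_cocyclic (Δ : Subgroup G) {x : G} (hx : x ∉ Δ) :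
    ∃ Δ' : Subgroup G, Δ ≤ Δ' ∧ x ∉ Δ' ∧ IsCyclic (G ⧸ Δ') := by
  haveI : Finite (G ⧸ Δ) := inferInstance
  have hx' : (QuotientGroup.mk x : G ⧸ Δ) ≠ 1 := fun h => hx ((QuotientGroup.eq_one_iff x).mp h)
  obtain ⟨φ, hφ⟩ := CommGroup.exists_apply_ne_one_of_hasEnoughRootsOfUnity (G ⧸ Δ) ℂ hx'
  let f : G →* ℂˣ := φ.comp (QuotientGroup.mk' Δ)
  refine ⟨f.ker, ?_, ?_, ?_⟩
  · intro y hy
    rw [MonoidHom.mem_ker]
    change φ (QuotientGroup.mk y) = 1
    rw [(QuotientGroup.eq_one_iff y).mpr hy, map_one]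
  · intro h
    exact hφ h
  · haveI : Finite f.range := Set.finite_range f |>.to_subtype
    haveI : IsCyclic f.range := inferInstance
    exact isCyclic_of_surjective (QuotientGroup.quotientKerEquivRange f).symm
      (QuotientGroup.quotientKerEquivRange f).symm.surjective

variable (p : ℕ) [hp : Fact p.Prime] (D : HeightOneSpectrum (𝓞 K) → Subgroup G)
  (N : Subgroup G → Subgroup (ClassGroup (𝓞 K)))

/-- the intersection of the norm groups -/
noncomputable def HH (Δ : Subgroup G) : Subgroup (ClassGroup (𝓞 K)) :=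
  ⨅ Δ' : {Δ' : Subgroup G // Δ ≤ Δ' ∧ IsCyclic (G ⧸ Δ')}, N Δ'

theorem HH_mono {Δ₁ Δ₂ : Subgroup G} (h : Δ₁ ≤ Δ₂) : HH N Δ₁ ≤ HH N Δ₂ := by
  refine le_iInf fun ⟨Δ', h1, h2⟩ => ?_
  exact iInf_le (fun Δ' : {Δ' : Subgroup G // Δ₁ ≤ Δ' ∧ IsCyclic (G ⧸ Δ')} => N Δ')
    ⟨Δ', h.trans h1, h2⟩

variable (hG : ∃ n, Nat.card G = p ^ n)
  (h1 : ∀ Δ : Subgroup G, IsCyclic (G ⧸ Δ) → (N Δ).index = Δ.index)
  (h2 : ∀ Δ : Subgroup G, IsCyclic (G ⧸ Δ) → ∀ v, D v ≤ Δ → clv v ∈ N Δ)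
  (hU : ∀ Δ : Subgroup G, ∃ C : ℝ, ∀ᶠ s in 𝓝[>] (1 : ℝ),
    (Δ.index : ℝ) * psum K s (fun v => D v ≤ Δ) ≤ ell s + C)
  (hL : ∀ Δ : Subgroup G, ∃ C : ℝ, ∀ᶠ s in 𝓝[>] (1 : ℝ),
    ell s - C ≤ (Δ.index : ℝ) * psum K s (fun v => Deg1 K v ∧ D v ≤ Δ))

include h1 h2 hL in
theorem bdd_cyclic (Δ : Subgroup G) (hΔ : IsCyclic (G ⧸ Δ)) :
    Bdd1 K fun v => clv v ∈ N Δ ∧ ¬ (Deg1 K v ∧ D v ≤ Δ) := by
  obtain ⟨C, hC⟩ := exists_upper_class (N Δ)
  obtain ⟨C', hC'⟩ := hL Δ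
  have hi : (0 : ℝ) < Δ.index := by
    exact_mod_cast Nat.pos_of_ne_zero (Subgroup.index_ne_zero_of_finite (H := Δ))
  refine ⟨(C + C') / Δ.index, ?_⟩
  filter_upwards [hC, hC', eventually_Ioc] with s hs hs' hs1
  rw [h1 Δ hΔ] at hs
  have h3 := psum_add_le hs1.1 hs1.2 (K := K) (P := fun v => Deg1 K v ∧ D v ≤ Δ)
    (Q := fun v => clv v ∈ N Δ ∧ ¬ (Deg1 K v ∧ D v ≤ Δ)) (R := fun v => clv v ∈ N Δ)
    (fun v hv => h2 Δ hΔ v hv.2) (fun v hv => hv.1) (fun v hv hv' => hv'.2 hv)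
  rw [le_div_iff₀ hi]
  nlinarith

include h1 h2 hL in
theorem bdd_HH (Δ : Subgroup G) : Bdd1 K fun v => clv v ∈ HH N Δ ∧ ¬ D v ≤ Δ := by
  refine (Bdd1.exists_fintype (K := K)
    (ι := {Δ' : Subgroup G // Δ ≤ Δ' ∧ IsCyclic (G ⧸ Δ')})
    (P := fun Δ' v => clv v ∈ N Δ' ∧ ¬ (Deg1 K v ∧ D v ≤ Δ'.1))
    fun Δ' => bdd_cyclic D N h1 h2 hL Δ'.1 Δ'.2.2).mono ?_
  rintro v ⟨hv, hD⟩
  obtain ⟨x, hx, hxΔ⟩ := SetLike.not_le_iff_exists.mp hD
  obtain ⟨Δ', h3, h4, h5⟩ := exists_cocyclic Δ hxΔ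
  refine ⟨⟨Δ', h3, h5⟩, ?_, fun h => h4 (h.2 hx)⟩
  exact (Subgroup.mem_iInf.mp hv) ⟨Δ', h3, h5⟩

include h1 h2 hU hL in
theorem HH_strict {Δ₁ Δ₂ : Subgroup G} (h : Δ₁ < Δ₂) : HH N Δ₁ < HH N Δ₂ := by
  refine lt_of_le_of_ne (HH_mono N h.le) fun heq => ?_
  obtain ⟨C, hC⟩ := bdd_HH D N h1 h2 hL Δ₁
  obtain ⟨C1, hC1⟩ := hU Δ₁
  obtain ⟨C2, hC2⟩ := hL Δ₂
  have hle : Δ₁.index ≤ Δ₂.index := by
    refine nat_le_of_eventually (C := Δ₁.index * C2 + Δ₂.index * (C1 + Δ₁.index * C)) ?_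
    filter_upwards [hC, hC1, hC2, eventually_Ioc] with s hs hs1 hs2 hs3
    have h3 := psum_le_add K hs3.1 hs3.2 (P := fun v => Deg1 K v ∧ D v ≤ Δ₂)
      (Q := fun v => D v ≤ Δ₁) (R := fun v => clv v ∈ HH N Δ₁ ∧ ¬ D v ≤ Δ₁) (fun v hv => by
        by_cases h4 : D v ≤ Δ₁
        · exact Or.inl h4
        · refine Or.inr ⟨?_, h4⟩
          rw [heq]
          refine Subgroup.mem_iInf.mpr fun Δ' => ?_
          exact h2 Δ'.1 Δ'.2.2 v (hv.2.trans Δ'.2.1))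
    have h4 : (0 : ℝ) ≤ Δ₁.index := Nat.cast_nonneg _
    have h5 : (0 : ℝ) ≤ Δ₂.index := Nat.cast_nonneg _
    have h6 := mul_le_mul_of_nonneg_left hs2 h4
    have h7 := mul_le_mul_of_nonneg_left h3 (mul_nonneg h4 h5)
    have h8 := mul_le_mul_of_nonneg_left hs1 h5
    have h9 := mul_le_mul_of_nonneg_left hs (mul_nonneg h4 h5)
    nlinarith
  have hlt : Δ₂.index < Δ₁.index := by
    have h3 := Subgroup.relIndex_mul_index h.le
    have h4 : Δ₁.relIndex Δ₂ ≠ 1 := fun h5 => h.not_ge (Subgroup.relIndex_eq_one.mp h5)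
    have h5 : Δ₁.index ≠ 0 := Subgroup.index_ne_zero_of_finite
    have h6 : Δ₂.index ≠ 0 := Subgroup.index_ne_zero_of_finite
    have h7 : Δ₁.relIndex Δ₂ ≠ 0 := by
      intro h8
      rw [h8, zero_mul] at h3
      exact h5 h3.symm
    rw [← h3]
    have h8 : 2 ≤ Δ₁.relIndex Δ₂ := by omega
    have h9 := Nat.mul_le_mul_right Δ₂.index h8
    omega
  omega

include h1 hG in
/-- the quotient is a `p`-group -/
theorem isPGroup_HH (Δ : Subgroup G) (x : ClassGroup (𝓞 K)) :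
    x ^ Nat.card G ∈ HH N Δ := by
  refine Subgroup.mem_iInf.mpr fun Δ' => ?_
  have h3 : (N Δ').index ∣ Nat.card G := by
    rw [h1 Δ'.1 Δ'.2.2]
    exact Subgroup.index_dvd_card _
  obtain ⟨k, hk⟩ := h3
  rw [hk, pow_mul]
  exact Subgroup.pow_mem _ (Subgroup.pow_index_mem (N Δ') x) k

include hG h1 in
theorem index_HH_pow (Δ : Subgroup G) : ∃ m, (HH N Δ).index = p ^ m := by
  obtain ⟨n, hn⟩ := hG
  have h3 : IsPGroup p (ClassGroup (𝓞 K) ⧸ HH N Δ) := by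
    intro x
    obtain ⟨y, rfl⟩ := QuotientGroup.mk_surjective x
    refine ⟨n, ?_⟩
    rw [← hn]
    exact (QuotientGroup.eq_one_iff _).mpr (isPGroup_HH p N ⟨n, hn⟩ h1 Δ y)
  obtain ⟨m, hm⟩ := h3.exists_card_eq
  exact ⟨m, hm⟩

include hG h1 h2 hU hL in
theorem card_le_index (n : ℕ) (hn : Nat.card G = p ^ n) :
    ∀ (j i : ℕ) (_ : i + j = n) (Δ : Subgroup G), Nat.card Δ = p ^ i →
      p ^ j ≤ (HH N Δ).index := by
  intro j
  induction j with
  | zero =>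
    intro i _ Δ _
    rw [pow_zero]
    exact Nat.pos_of_ne_zero Subgroup.index_ne_zero_of_finite
  | succ j ih =>
    intro i hij Δ hΔ
    obtain ⟨Δ₂, hΔ₂, hle⟩ := Sylow.exists_subgroup_card_pow_prime_le p (n := i) (m := i + 1)
      (by rw [hn]; exact pow_dvd_pow p (by omega)) Δ hΔ (by omega)
    have hlt : Δ < Δ₂ := by
      refine lt_of_le_of_ne hle ?_
      rintro rfl
      rw [hΔ] at hΔ₂
      have := Nat.pow_right_injective hp.out.two_le hΔ₂
      omega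
    have h3 := ih (i + 1) (by omega) Δ₂ hΔ₂
    have h4 := HH_strict D N h1 h2 hU hL hlt
    have h5 := Subgroup.relIndex_mul_index h4.le
    obtain ⟨a, ha⟩ := index_HH_pow p N hG h1 Δ
    obtain ⟨b, hb⟩ := index_HH_pow p N hG h1 Δ₂
    have h6 : (HH N Δ).relIndex (HH N Δ₂) ≠ 1 :=
      fun h7 => h4.not_ge (Subgroup.relIndex_eq_one.mp h7)
    have h7 : b < a := by
      by_contra hcon
      push Not at hcon
      have h8 : (HH N Δ).index ≤ (HH N Δ₂).index := by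
        rw [ha, hb]
        exact Nat.pow_le_pow_right hp.out.pos hcon
      have h9 : 0 < (HH N Δ₂).index := Nat.pos_of_ne_zero Subgroup.index_ne_zero_of_finite
      have h10 : 0 < (HH N Δ).relIndex (HH N Δ₂) := by
        rcases Nat.eq_zero_or_pos ((HH N Δ).relIndex (HH N Δ₂)) with h11 | h11
        · rw [h11, zero_mul] at h5
          exact absurd h5.symm Subgroup.index_ne_zero_of_finite
        · exact h11
      have h11 : 2 ≤ (HH N Δ).relIndex (HH N Δ₂) := by omega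
      have h12 := Nat.mul_le_mul_right (HH N Δ₂).index h11
      omega
    calc p ^ (j + 1) = p * p ^ j := by rw [pow_succ']
      _ ≤ p * (HH N Δ₂).index := Nat.mul_le_mul_left _ h3
      _ = p ^ (b + 1) := by rw [hb, pow_succ']
      _ ≤ p ^ a := Nat.pow_le_pow_right hp.out.pos h7
      _ = (HH N Δ).index := ha.symm

include hG h1 h2 hU hL in
/-- **The chain argument** -/
theorem card_dvd : Nat.card G ∣ Nat.card (ClassGroup (𝓞 K)) := by
  obtain ⟨n, hn⟩ := hG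
  have h3 := card_le_index p D N ⟨n, hn⟩ h1 h2 hU hL n hn n 0 (by omega) ⊥ (by
    rw [Subgroup.card_bot, pow_zero])
  obtain ⟨m, hm⟩ := index_HH_pow p N ⟨n, hn⟩ h1 (⊥ : Subgroup G)
  rw [hm] at h3
  have h4 : n ≤ m := (Nat.pow_le_pow_iff_right hp.out.one_lt).mp h3
  rw [hn]
  refine (pow_dvd_pow p h4).trans ?_
  rw [← hm]
  exact Subgroup.index_dvd_card _

end chain

end Fermat.Agent.ZC
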