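import Fermat.Agent.ZC.RayGrp
import Fermat.Agent.ZC.Chain

/-!
# Density of prime ideals in ray classes: what the key inequality gives
-/

set_option autoImplicit false
set_option linter.unusedSectionVars false
set_option linter.style.haveILetI false

open scoped Classical nonZeroDivisors Topology

namespace Fermat.Agent.ZC

open NumberField Filter IsDedekindDomain Module Fermat.Agent.CFT Fermat.Agent.H03

noncomputable section

variable {K : Type*} [Field K] [NumberField K]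

theorem bdd1_of_finite {P : HeightOneSpectrum (𝓞 K) → Prop} (h : {v | P v}.Finite) :
    Bdd1 K P := by
  have h' : {v | P v ∧ ¬ (fun _ : HeightOneSpectrum (𝓞 K) => False) v}.Finite := by
    simpa using h
  obtain ⟨C, hC⟩ := bdd1_false (K := K)
  refine ⟨C + h'.toFinset.card, ?_⟩
  filter_upwards [hC, eventually_Ioc] with s h1 hs
  have := psum_le_add_of_finite K hs.1 hs.2 h'
  linarith

theorem bdd1_dvd {𝔪 : Ideal (𝓞 K)} (h𝔪 : 𝔪 ≠ ⊥) :
    Bdd1 K fun v => ¬ IsCoprime v.asIdeal 𝔪 := by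
  refine bdd1_of_finite ((Ideal.finite_factors h𝔪).subset ?_)
  intro v hv
  by_contra hcon
  apply hv
  rw [Ideal.isCoprime_iff_sup_eq]
  by_contra hne
  have h1 : v.asIdeal = v.asIdeal ⊔ 𝔪 := v.isMaximal.eq_of_le hne le_sup_left
  exact hcon (Ideal.dvd_iff_le.mpr (by rw [h1]; exact le_sup_right))

theorem bdd1_absNorm_dvd {n : ℕ} (hn : n ≠ 0) :
    Bdd1 K fun v => ∃ l : ℕ, l.Prime ∧ l ∣ n ∧ Ideal.absNorm v.asIdeal = l := by
  refine bdd1_of_finite ?_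
  refine Set.Finite.of_finite_image (f := fun v : HeightOneSpectrum (𝓞 K) => v.asIdeal)
    ((Ideal.finite_setOfPred_absNorm_le (S := 𝓞 K) n).subset ?_) (asIdeal_injective K).injOn
  rintro _ ⟨v, ⟨l, -, hl, hv⟩, rfl⟩
  change Ideal.absNorm v.asIdeal ≤ n
  rw [hv]
  exact Nat.le_of_dvd (Nat.pos_of_ne_zero hn) hl

variable {𝔪 : Ideal (𝓞 K)} (h𝔪 : 𝔪 ≠ ⊥)

theorem exists_upper_ray {Q : Type*} [CommGroup Q] [Finite Q] (φ : Ray 𝔪 h𝔪 →* Q)
    (hφ : Function.Surjective φ) : ∃ C : ℝ, ∀ᶠ s in 𝓝[>] (1 : ℝ),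
      (Nat.card Q : ℝ) * psum K s (fun v => IsCoprime v.asIdeal 𝔪 ∧
        φ (rcI h𝔪 v.asIdeal) = 1) ≤ ell s + C := by
  let φ' : Ray 𝔪 h𝔪 →* Multiplicative (Additive Q) :=
    { toFun := fun x => Multiplicative.ofAdd (Additive.ofMul (φ x))
      map_one' := by rw [map_one]; rfl
      map_mul' := fun x y => by rw [map_mul]; rfl }
  have hφ' : Function.Surjective φ' := by
    intro q
    obtain ⟨x, hx⟩ := hφ (Additive.toMul (Multiplicative.toAdd q))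
    refine ⟨x, ?_⟩
    change Multiplicative.ofAdd (Additive.ofMul (φ x)) = q
    rw [hx]
    rfl
  haveI : Finite (Additive Q) := inferInstanceAs (Finite Q)
  obtain ⟨C, hC⟩ := (rayHom h𝔪 φ').exists_key h𝔪 (rayHom_surj h𝔪 φ' hφ')
  refine ⟨C, ?_⟩
  filter_upwards [hC] with s hs
  have e1 : Nat.card (Additive Q) = Nat.card Q := Nat.card_congr Additive.toMul
  rw [e1] at hs
  exact hs

/-- two characters, one of order at least three, are simultaneously nontrivial on many primes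
of degree one -/
theorem exists_good {Q₁ Q₂ : Type*} [CommGroup Q₁] [Finite Q₁] [CommGroup Q₂] [Finite Q₂]
    (φ₁ : Ray 𝔪 h𝔪 →* Q₁) (hφ₁ : Function.Surjective φ₁) (φ₂ : Ray 𝔪 h𝔪 →* Q₂)
    (hφ₂ : Function.Surjective φ₂) (h1 : 3 ≤ Nat.card Q₁) (h2 : 2 ≤ Nat.card Q₂)
    {E : HeightOneSpectrum (𝓞 K) → Prop} (hE : Bdd1 K E) :
    ∃ v : HeightOneSpectrum (𝓞 K), Deg1 K v ∧ ¬ E v ∧ IsCoprime v.asIdeal 𝔪 ∧
      φ₁ (rcI h𝔪 v.asIdeal) ≠ 1 ∧ φ₂ (rcI h𝔪 v.asIdeal) ≠ 1 := by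
  by_contra hcon
  push Not at hcon
  obtain ⟨C1, hC1⟩ := exists_upper_ray h𝔪 φ₁ hφ₁
  obtain ⟨C2, hC2⟩ := exists_upper_ray h𝔪 φ₂ hφ₂
  obtain ⟨C3, hC3⟩ := hE.or (bdd1_dvd h𝔪) (fun v h => h)
  obtain ⟨C4, hC4⟩ := exists_lower K
  have hkey : 6 ≤ 5 := by
    refine nat_le_of_eventually (C := 2 * C1 + 3 * C2 + 6 * C3 + 6 * C4) ?_
    filter_upwards [hC1, hC2, hC3, hC4, eventually_Ioc] with s hs1 hs2 hs3 hs4 hs
    set p1 := psum K s (fun v => IsCoprime v.asIdeal 𝔪 ∧ φ₁ (rcI h𝔪 v.asIdeal) = 1) with hp1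
    set p2 := psum K s (fun v => IsCoprime v.asIdeal 𝔪 ∧ φ₂ (rcI h𝔪 v.asIdeal) = 1) with hp2
    have h3 := psum_le_add K hs.1 hs.2 (P := Deg1 K)
      (Q := fun v => E v ∨ ¬ IsCoprime v.asIdeal 𝔪)
      (R := fun v => (IsCoprime v.asIdeal 𝔪 ∧ φ₁ (rcI h𝔪 v.asIdeal) = 1) ∨
        (IsCoprime v.asIdeal 𝔪 ∧ φ₂ (rcI h𝔪 v.asIdeal) = 1))
      (fun v hv => by
        by_cases hEv : E v
        · exact Or.inl (Or.inl hEv)
        · by_cases hc : IsCoprime v.asIdeal 𝔪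
          · by_cases hf : φ₁ (rcI h𝔪 v.asIdeal) = 1
            · exact Or.inr (Or.inl ⟨hc, hf⟩)
            · exact Or.inr (Or.inr ⟨hc, hcon v hv hEv hc hf⟩)
          · exact Or.inl (Or.inr hc))
    have h4 := psum_le_add K hs.1 hs.2
      (P := fun v => (IsCoprime v.asIdeal 𝔪 ∧ φ₁ (rcI h𝔪 v.asIdeal) = 1) ∨
        (IsCoprime v.asIdeal 𝔪 ∧ φ₂ (rcI h𝔪 v.asIdeal) = 1))
      (Q := fun v => IsCoprime v.asIdeal 𝔪 ∧ φ₁ (rcI h𝔪 v.asIdeal) = 1)
      (R := fun v => IsCoprime v.asIdeal 𝔪 ∧ φ₂ (rcI h𝔪 v.asIdeal) = 1) (fun v hv => hv)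
    have hp1' : 0 ≤ p1 := psum_nonneg s _
    have hp2' : 0 ≤ p2 := psum_nonneg s _
    have h5 : (3 : ℝ) * p1 ≤ ell s + C1 := by
      refine le_trans ?_ hs1
      exact mul_le_mul_of_nonneg_right (by exact_mod_cast h1) hp1'
    have h6 : (2 : ℝ) * p2 ≤ ell s + C2 := by
      refine le_trans ?_ hs2
      exact mul_le_mul_of_nonneg_right (by exact_mod_cast h2) hp2'
    rw [← hp1, ← hp2] at h4
    push_cast
    linarith
  omega

end

end Fermat.Agent.ZC
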