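import Fermat.Agent.H25.Density
import Fermat.Agent.ZC.RayDens

/-!
# Frobenius density theorem outside a set of primes with bounded Dirichlet sum
-/

set_option autoImplicit false
set_option linter.style.haveILetI false

open scoped Classical nonZeroDivisors Topology

namespace Fermat.Agent.ZC

open NumberField Ideal Filter Topology Asymptotics MulAction Fermat.Agent.H25
open scoped ArithmeticFunction.Moebius Pointwise

/-- sum over the primes in `T` -/
noncomputable def qsum (T : Set ℕ) (s : ℝ) : ℝ :=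
  ∑' p : Nat.Primes, if (p : ℕ) ∈ T then 1 / ((p : ℕ) : ℝ) ^ s else 0

/-- a set of primes with bounded Dirichlet sum -/
def BddQ (T : Set ℕ) : Prop := ∃ C : ℝ, ∀ᶠ s in 𝓝[>] (1 : ℝ), qsum T s ≤ C

theorem summable_primes {s : ℝ} (hs : 1 < s) :
    Summable fun p : Nat.Primes => 1 / ((p : ℕ) : ℝ) ^ s := by
  have h := (Real.summable_one_div_nat_rpow.mpr hs).comp_injective Nat.Primes.coe_nat_injective
  exact h

theorem summable_qsum (T : Set ℕ) {s : ℝ} (hs : 1 < s) :
    Summable fun p : Nat.Primes => if (p : ℕ) ∈ T then 1 / ((p : ℕ) : ℝ) ^ s else 0 := by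
  refine Summable.of_nonneg_of_le (fun p => ?_) (fun p => ?_) (summable_primes hs)
  · split_ifs
    · positivity
    · exact le_rfl
  · split_ifs
    · exact le_rfl
    · positivity

theorem qsum_union_le (T T' : Set ℕ) {s : ℝ} (hs : 1 < s) :
    qsum (T ∪ T') s ≤ qsum T s + qsum T' s := by
  rw [qsum, qsum, qsum, ← (summable_qsum T hs).tsum_add (summable_qsum T' hs)]
  refine Summable.tsum_le_tsum (fun p => ?_) (summable_qsum _ hs)
    ((summable_qsum T hs).add (summable_qsum T' hs))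
  have h0 : 0 ≤ 1 / ((p : ℕ) : ℝ) ^ s := by positivity
  by_cases h1 : (p : ℕ) ∈ T
  · rw [if_pos (Set.mem_union_left _ h1), if_pos h1]
    refine le_add_of_nonneg_right ?_
    split_ifs
    · exact h0
    · exact le_rfl
  · rw [if_neg h1, zero_add]
    by_cases h2 : (p : ℕ) ∈ T'
    · rw [if_pos (Set.mem_union_right _ h2), if_pos h2]
    · rw [if_neg h2, if_neg fun h => h.elim h1 h2]

theorem BddQ.union {T T' : Set ℕ} (h : BddQ T) (h' : BddQ T') : BddQ (T ∪ T') := by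
  obtain ⟨C, hC⟩ := h
  obtain ⟨C', hC'⟩ := h'
  refine ⟨C + C', ?_⟩
  filter_upwards [hC, hC', self_mem_nhdsWithin] with s h1 h2 hs
  exact (qsum_union_le T T' hs).trans (add_le_add h1 h2)

theorem bddQ_finite {T : Set ℕ} (hT : T.Finite) : BddQ T := by
  let T'' : Finset Nat.Primes := hT.toFinset.preimage (fun p : Nat.Primes => (p : ℕ))
      Nat.Primes.coe_nat_injective.injOn
  refine ⟨T''.card, ?_⟩
  filter_upwards [self_mem_nhdsWithin] with s hs
  have hs' : 1 < s := hs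
  rw [qsum, tsum_eq_sum (s := T'')]
  · refine (Finset.sum_le_card_nsmul _ _ 1 fun p _ => ?_).trans (by simp)
    split_ifs
    · rw [div_le_one (by have := p.2.pos; positivity)]
      exact Real.one_le_rpow (by exact_mod_cast p.2.one_lt.le) (by linarith)
    · exact zero_le_one
  · intro p hp
    rw [if_neg]
    intro h
    exact hp (Finset.mem_preimage.mpr (hT.mem_toFinset.mpr h))

theorem BddQ.mono {T T' : Set ℕ} (h : BddQ T) (hT : T' ⊆ T) : BddQ T' := by
  obtain ⟨C, hC⟩ := h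
  refine ⟨C, ?_⟩
  filter_upwards [hC, self_mem_nhdsWithin] with s h1 hs
  refine le_trans ?_ h1
  refine Summable.tsum_le_tsum (fun p => ?_) (summable_qsum _ hs) (summable_qsum _ hs)
  have h0 : 0 ≤ 1 / ((p : ℕ) : ℝ) ^ s := by positivity
  by_cases h1 : (p : ℕ) ∈ T'
  · rw [if_pos h1, if_pos (hT h1)]
  · rw [if_neg h1]
    split_ifs
    · exact h0
    · exact le_rfl

variable {L : Type*} [Field L] [NumberField L] [IsGalois ℚ L]

omit [IsGalois ℚ L] in
theorem exists_bcoef_bound (σ : Gal(L/ℚ)) : ∃ C : ℝ, 0 ≤ C ∧ ∀ p : ℕ, p.Prime →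
    |(bcoef σ p : ℝ)| ≤ C := by
  refine ⟨∑ d ∈ (orderOf σ).divisors, |((μ d : ℤ) : ℝ)| * ((orderOf σ / d : ℕ) : ℝ) *
    (2 : ℝ) ^ Module.finrank ℚ (fixF L (Subgroup.zpowers (σ ^ d))), ?_, ?_⟩
  · exact Finset.sum_nonneg fun d _ => by positivity
  · intro p hp
    rw [bcoef]
    simp only [Int.cast_sum, Int.cast_mul, Int.cast_natCast]
    refine (Finset.abs_sum_le_sum_abs _ _).trans (Finset.sum_le_sum fun d _ => ?_)
    rw [abs_mul, abs_mul, Nat.abs_cast, Nat.abs_cast]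
    have h := idealCount_prime_pow_le (fixF L (Subgroup.zpowers (σ ^ d))) hp 1
    rw [pow_one] at h
    gcongr
    exact_mod_cast h

theorem exists_frobenius_finite_bdd (σ : Gal(L/ℚ)) {T : Set ℕ} (hT : BddQ T) :
    ∃ p : ℕ, p.Prime ∧ p ∉ T ∧ Algebra.IsUnramifiedIn (𝓞 L) (span {(p : ℤ)}) ∧
    ∃ (P : Ideal (𝓞 L)) (φ : Gal(L/ℚ)), P.IsPrime ∧ P.LiesOver (span {(p : ℤ)}) ∧
      IsArithFrobAt ℤ φ P ∧ Subgroup.zpowers φ = Subgroup.zpowers σ := by
  by_contra hcon
  set n := orderOf σ with hn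
  have hnpos : 0 < n := orderOf_pos σ
  obtain ⟨T', hT'eq⟩ : ∃ T' : Set ℕ, T' = T ∪ ↑(discr L).natAbs.divisors := ⟨_, rfl⟩
  have hT' : BddQ T' := by
    rw [hT'eq]; exact hT.union (bddQ_finite (Finset.finite_toSet _))
  have hzero : ∀ p : ℕ, p.Prime → p ∉ T' → bcoef σ p = 0 := by
    intro p hp hpT
    rw [hT'eq, Set.mem_union, not_or] at hpT
    have hdisc : ¬ (p : ℤ) ∣ discr L := by
      intro h
      apply hpT.2
      rw [Finset.mem_coe, Nat.mem_divisors]
      exact ⟨Int.natCast_dvd.mp h, Int.natAbs_ne_zero.mpr (discr_ne_zero L)⟩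
    have hur : Algebra.IsUnramifiedIn (𝓞 L) (span {(p : ℤ)}) :=
      (not_dvd_discr_iff_isUnramifiedIn L (𝓞 L) (Nat.prime_iff_prime_int.mp hp)).mp hdisc
    by_contra hb
    exact hcon ⟨p, hp, hpT.1, hur, exists_frob_of_bcoef_ne_zero σ hp hur hb⟩
  let c : ℕ → ℝ := fun d => ((μ d : ℤ) : ℝ) * ((n / d : ℕ) : ℝ)
  let B : ℝ → ℝ := fun s => ∑ d ∈ n.divisors, c d * Pr (fixF L (Subgroup.zpowers (σ ^ d))) s
  have hB1 : Tendsto (fun s : ℝ => B s / Real.log (1 / (s - 1))) (𝓝[>] 1)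
      (𝓝 (Nat.totient n : ℝ)) := by
    have h1 : Tendsto (fun s : ℝ => ∑ d ∈ n.divisors,
        c d * (Pr (fixF L (Subgroup.zpowers (σ ^ d))) s / Real.log (1 / (s - 1)))) (𝓝[>] 1)
        (𝓝 (∑ d ∈ n.divisors, c d * 1)) :=
      tendsto_finsetSum _ fun d _ => (tendsto_Pr_div _).const_mul (c d)
    have h2 : ∑ d ∈ n.divisors, c d * 1 = (Nat.totient n : ℝ) := by
      have := congrArg (fun z : ℤ => (z : ℝ)) (sum_moebius_mul_div n hnpos)
      simp only [mul_one, c]
      simp only [Int.cast_sum, Int.cast_mul, Int.cast_natCast] at this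
      exact this
    rw [h2] at h1
    refine h1.congr fun s => ?_
    simp only [B]
    rw [Finset.sum_div]
    exact Finset.sum_congr rfl fun d _ => by ring
  obtain ⟨Cb, hCb0, hCb⟩ := exists_bcoef_bound σ
  have hB2 : ∀ s : ℝ, 1 < s → |B s| ≤ Cb * qsum T' s := by
    intro s hs
    have h1 : HasSum (fun p : Nat.Primes => ∑ d ∈ n.divisors,
        c d * zterm (fixF L (Subgroup.zpowers (σ ^ d))) s (p : ℕ)) (B s) :=
      hasSum_sum fun d _ => ((summable_zterm_primes _ hs).hasSum).mul_left (c d)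
    have h2 : ∀ p : Nat.Primes, ∑ d ∈ n.divisors,
        c d * zterm (fixF L (Subgroup.zpowers (σ ^ d))) s (p : ℕ) =
          (bcoef σ p : ℝ) / ((p : ℕ) : ℝ) ^ s := by
      intro p
      rw [bcoef]
      simp only [Int.cast_sum, Int.cast_mul, Int.cast_natCast]
      rw [Finset.sum_div]
      refine Finset.sum_congr rfl fun d _ => ?_
      rw [zterm, if_neg p.2.ne_zero]
      simp only [c]
      ring
    simp_rw [h2] at h1
    rw [← h1.tsum_eq, qsum, ← tsum_mul_left]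
    have hle : ∀ p : Nat.Primes, ‖(bcoef σ p : ℝ) / ((p : ℕ) : ℝ) ^ s‖ ≤
        Cb * (if (p : ℕ) ∈ T' then 1 / ((p : ℕ) : ℝ) ^ s else 0) := by
      intro p
      have hp0 : (0 : ℝ) < ((p : ℕ) : ℝ) ^ s := Real.rpow_pos_of_pos (by exact_mod_cast p.2.pos) s
      split_ifs with h
      · rw [Real.norm_eq_abs, abs_div, abs_of_pos hp0, mul_one_div]
        gcongr
        exact hCb p p.2
      · rw [hzero p p.2 h]
        simp
    have := norm_tsum_le_tsum_norm (f := fun p : Nat.Primes => (bcoef σ p : ℝ) / ((p : ℕ) : ℝ) ^ s)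
      (Summable.of_nonneg_of_le (fun _ => norm_nonneg _) hle ((summable_qsum T' hs).mul_left Cb))
    rw [Real.norm_eq_abs] at this
    refine this.trans (Summable.tsum_le_tsum hle ?_ ((summable_qsum T' hs).mul_left Cb))
    exact Summable.of_nonneg_of_le (fun _ => norm_nonneg _) hle ((summable_qsum T' hs).mul_left Cb)
  obtain ⟨CT, hCT⟩ := hT'
  have hB3 : Tendsto (fun s : ℝ => B s / Real.log (1 / (s - 1))) (𝓝[>] 1) (𝓝 0) := by
    have h4 : Tendsto (fun s : ℝ => (Cb * CT) / Real.log (1 / (s - 1)))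
        (𝓝[>] 1) (𝓝 0) := tendsto_const_nhds.div_atTop tendsto_log_one_div
    refine squeeze_zero_norm' ?_ h4
    filter_upwards [hCT, self_mem_nhdsWithin, tendsto_log_one_div.eventually_gt_atTop 0] with
      s hs1 hs hs2
    rw [Real.norm_eq_abs, abs_div, abs_of_pos hs2]
    have := (hB2 s hs).trans (mul_le_mul_of_nonneg_left hs1 hCb0)
    gcongr
  have h6 := tendsto_nhds_unique hB1 hB3
  have h7 : (0 : ℝ) < (Nat.totient n : ℝ) := by exact_mod_cast Nat.totient_pos.mpr hnpos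
  linarith

section General

variable {L : Type*} [Field L] [CharZero L]

theorem exists_frobenius_aux_bdd [IsGalois ℚ L] (E : IntermediateField ℚ L) [Normal ℚ E]
    [FiniteDimensional ℚ E] {T : Set ℕ} (hT : BddQ T) (σ : L ≃ₐ[ℚ] L) :
    ∃ (ℓ : ℕ) (_ : ℓ.Prime) (_ : ℓ ∉ T) (A : ValuationSubring L)
      (_ : A.LiesOverPrime ℓ) (φ : L ≃ₐ[ℚ] L) (_ : A.IsFrobeniusAt φ ℓ) (m n : ℕ),
      (∀ x ∈ E, φ x = (σ ^ m) x) ∧ (∀ x ∈ E, σ x = (φ ^ n) x) := by
  have hEg : IsGalois ℚ E := ⟨⟩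
  have hEN : NumberField E := { to_charZero := inferInstance, to_finiteDimensional := inferInstance }
  obtain ⟨p, hp, hpT, hur, P, φE, hPp, hPo, hφE, hgen⟩ :=
    exists_frobenius_finite_bdd (AlgEquiv.restrictNormalHom E σ) hT
  obtain ⟨A0, hA0⟩ := Fermat.Agent.H05.exists_liesOverPrime L hp
  obtain ⟨g, hg⟩ := Algebra.IsInvariant.exists_smul_of_under_eq ℤ (𝓞 E) Gal(E/ℚ)
    (placeUnder E A0) P
    (by rw [placeUnder_under E hp hA0, ← Ideal.over_def P (span {(p : ℤ)})])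
  obtain ⟨g', rfl⟩ := AlgEquiv.restrictNormalHom_surjective (F := ℚ) (K₁ := E) L g
  obtain ⟨A, rfl⟩ : ∃ A, A = g' • A0 := ⟨_, rfl⟩
  have hA : (g' • A0).LiesOverPrime p :=
    (Fermat.Agent.H05.liesOverPrime_smul_iff g' A0 p).mpr hA0
  rw [← placeUnder_smul] at hg
  subst hg
  obtain ⟨φ, hφ⟩ := Fermat.Agent.H05.exists_isFrobeniusAt hp hA
  have hφP := isArithFrobAt_placeUnder E hp hA hφ
  have heq : AlgEquiv.restrictNormalHom E φ = φE := by
    have h1 := hφP.mul_inv_mem_inertia hφE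
    rw [inertia_eq_bot hp hur (placeUnder E (g' • A0)), Subgroup.mem_bot, mul_inv_eq_one] at h1
    exact h1
  have h1 : φE ∈ Subgroup.zpowers (AlgEquiv.restrictNormalHom E σ) := by
    rw [← hgen]; exact Subgroup.mem_zpowers _
  have h2 : AlgEquiv.restrictNormalHom E σ ∈ Subgroup.zpowers φE := by
    rw [hgen]; exact Subgroup.mem_zpowers _
  rw [(isOfFinOrder_of_finite _).mem_zpowers_iff_mem_range_orderOf] at h1 h2
  obtain ⟨m, -, hm⟩ := Finset.mem_image.mp h1
  obtain ⟨n, -, hn⟩ := Finset.mem_image.mp h2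
  refine ⟨p, hp, hpT, g' • A0, hA, φ, hφ, m, n, ?_, ?_⟩
  · intro x hx
    have h3 : AlgEquiv.restrictNormalHom E φ = AlgEquiv.restrictNormalHom E (σ ^ m) := by
      rw [heq, map_pow]; exact hm.symm
    have h4 := AlgEquiv.restrictNormal_commutes φ E ⟨x, hx⟩
    have h5 := AlgEquiv.restrictNormal_commutes (σ ^ m) E ⟨x, hx⟩
    have h6 : φ.restrictNormal E = (σ ^ m).restrictNormal E := h3
    rw [h6] at h4
    exact h4.symm.trans h5
  · intro x hx
    have h3 : AlgEquiv.restrictNormalHom E σ = AlgEquiv.restrictNormalHom E (φ ^ n) := by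
      rw [map_pow, heq]; exact hn.symm
    have h4 := AlgEquiv.restrictNormal_commutes σ E ⟨x, hx⟩
    have h5 := AlgEquiv.restrictNormal_commutes (φ ^ n) E ⟨x, hx⟩
    have h6 : σ.restrictNormal E = (φ ^ n).restrictNormal E := h3
    rw [h6] at h4
    exact h4.symm.trans h5

end General

/-- **Frobenius density theorem** outside a set of primes with bounded Dirichlet sum. -/
theorem exists_frobenius_bdd (F : IntermediateField ℚ (AlgebraicClosure ℚ)) [FiniteDimensional ℚ F]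
    {T : Set ℕ} (hT : BddQ T) (σ : AlgebraicClosure ℚ ≃ₐ[ℚ] AlgebraicClosure ℚ) :
    ∃ (ℓ : ℕ) (_ : ℓ.Prime) (_ : ℓ ∉ T) (A : ValuationSubring (AlgebraicClosure ℚ))
      (_ : A.LiesOverPrime ℓ) (φ : AlgebraicClosure ℚ ≃ₐ[ℚ] AlgebraicClosure ℚ)
      (_ : A.IsFrobeniusAt φ ℓ) (m n : ℕ),
      (∀ x ∈ F, φ x = (σ ^ m) x) ∧ (∀ x ∈ F, σ x = (φ ^ n) x) := by
  have hnc : Normal ℚ (AlgebraicClosure ℚ) := IsAlgClosure.normal ℚ (AlgebraicClosure ℚ)
  have hg : IsGalois ℚ (AlgebraicClosure ℚ) := ⟨⟩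
  let E : IntermediateField ℚ (AlgebraicClosure ℚ) :=
    IntermediateField.normalClosure ℚ F (AlgebraicClosure ℚ)
  have hFE : F ≤ E := F.le_normalClosure
  have hEn : Normal ℚ E := normalClosure.normal ℚ F (AlgebraicClosure ℚ)
  have hEf : FiniteDimensional ℚ E :=
    normalClosure.is_finiteDimensional ℚ F (AlgebraicClosure ℚ)
  obtain ⟨ℓ, h1, h2, A, h3, φ, h4, m, n, h5, h6⟩ := exists_frobenius_aux_bdd E hT σ
  exact ⟨ℓ, h1, h2, A, h3, φ, h4, m, n, fun x hx => h5 x (hFE hx), fun x hx => h6 x (hFE hx)⟩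

/-- norms of a set of primes of a number field with bounded Dirichlet sum -/
theorem bddQ_of_bdd1 {K : Type*} [Field K] [NumberField K]
    {E : IsDedekindDomain.HeightOneSpectrum (𝓞 K) → Prop} (hE : Bdd1 K E) :
    BddQ {p | ∃ v, E v ∧ absNorm v.asIdeal = p} := by
  obtain ⟨C, hC⟩ := hE
  refine ⟨C, ?_⟩
  filter_upwards [hC, Fermat.Agent.H03.eventually_Ioc] with s h1 hs
  refine le_trans ?_ h1
  set T : Set ℕ := {p | ∃ v, E v ∧ absNorm v.asIdeal = p} with hT
  let T' : Set Nat.Primes := {p | (p : ℕ) ∈ T}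
  choose g hg using fun p : T' => p.2
  have hinj : Function.Injective g := by
    intro p q hpq
    have h2 := (hg p).2
    have h3 := (hg q).2
    rw [hpq] at h2
    exact Subtype.ext (Subtype.ext (h2.symm.trans h3))
  have e1 : qsum T s = ∑' p : T', 1 / (((p : Nat.Primes) : ℕ) : ℝ) ^ s := by
    rw [qsum]
    refine Eq.trans ?_ (tsum_subtype T' (fun p : Nat.Primes => 1 / ((p : ℕ) : ℝ) ^ s)).symm
    refine tsum_congr fun p => ?_
    by_cases hp : (p : ℕ) ∈ T
    · rw [if_pos hp, Set.indicator_of_mem (show p ∈ T' from hp)]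
    · rw [if_neg hp, Set.indicator_of_notMem (show p ∉ T' from hp)]
  rw [e1, CFT.psum]
  refine Summable.tsum_le_tsum_of_inj g hinj ?_ ?_ ?_ (CFT.summable_psum K hs.1 hs.2 E)
  · intro v _
    split_ifs
    · exact H03.nrm_nonneg K s _
    · exact le_rfl
  · intro p
    rw [if_pos (hg p).1, H03.nrm, (hg p).2, Real.rpow_neg (Nat.cast_nonneg _), one_div]
  · exact (summable_primes hs.1).subtype T'

end Fermat.Agent.ZC
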