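import Fermat.Agent.ZC.GalForm
import Fermat.Agent.H27.Z3Span2
import Fermat.Agent.CC.GQ

/-!
# The class field theory input of PROGRAM Z
-/

set_option autoImplicit false
set_option linter.unusedSectionVars false
set_option linter.style.haveILetI false

open scoped nonZeroDivisors Topology Pointwise

namespace Fermat.Agent.ZC

open NumberField IsDedekindDomain Module

local notation "Ω" => AlgebraicClosure ℚ
local notation "GQ" => (AlgebraicClosure ℚ ≃ₐ[ℚ] AlgebraicClosure ℚ)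

theorem normal_HH {G : Type*} [Group G] (ρ0 : G →* Z34.M2 (ZMod 2)) : (Z34.HH ρ0).Normal := by
  refine ⟨fun w hw g => ?_⟩
  by_cases hg : g ∈ Z34.HH ρ0
  · exact (Z34.HH ρ0).mul_mem ((Z34.HH ρ0).mul_mem hg hw) ((Z34.HH ρ0).inv_mem hg)
  · exact Z34.mul_mem_HH_of_not (Z34.mul_notMem_left hg hw) (fun h => hg (by
      simpa using (Z34.HH ρ0).inv_mem h))

theorem isOpen_of_levS {S : Finset Nat.Primes} {U : Subgroup GQ} (h : (CC.levS S).isOpen U) :
    IsOpen (U : Set GQ) := by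
  obtain ⟨F, hF, hFU⟩ := h
  haveI := hF.1
  have h1 : IsOpen (F.fixingSubgroup : Set GQ) := F.fixingSubgroup_isOpen
  exact Subgroup.isOpen_mono hFU h1

/-- a field containing the square root of a negative rational number is totally complex -/
theorem isComplex_of_sq_neg {K : Type*} [Field K] [NumberField K] {δ : K} {d : ℚ} (hd : d < 0)
    (h : δ ^ 2 = algebraMap ℚ K d) (w : InfinitePlace K) : w.IsComplex := by
  rw [← InfinitePlace.not_isReal_iff_isComplex]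
  intro hr
  have h1 := congrArg (InfinitePlace.embedding_of_isReal hr) h
  rw [map_pow, eq_ratCast, map_ratCast] at h1
  have h2 : (0 : ℝ) ≤ (InfinitePlace.embedding_of_isReal hr δ) ^ 2 := sq_nonneg _
  rw [h1] at h2
  have h3 : (d : ℝ) < 0 := by exact_mod_cast hd
  linarith

/-- **`CFT(h)` of PROGRAM Z**, with `h` the order of the `2`-part of the class group. -/
theorem cft_form {S : Finset Nat.Primes} {ρ0 : GQ →* Z34.M2 (ZMod 2)} {V : Type*}
    (I : V → Subgroup GQ)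
    (hIV : ∀ q : Nat.Primes, q ∈ S → ∃ v, ∃ A : ValuationSubring Ω, A.LiesOverPrime (q : ℕ) ∧
      A.inertiaSubgroupIn ℚ ≤ I v)
    (K : IntermediateField ℚ Ω) [NumberField K] (hK : Z34.HH ρ0 = K.fixingSubgroup)
    (hKc : ∀ w : InfinitePlace K, w.IsComplex) :
    Z34.CFT (CC.levS S) ρ0 I (2 ^ padicValNat 2 (Nat.card (ClassGroup (𝓞 K)))) := by
  intro W hWn hWH hWo hIW hc hpw
  haveI := hWn
  haveI : Fact (Nat.Prime 2) := ⟨Nat.prime_two⟩
  have hHn := normal_HH ρ0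
  have hin : ∀ ℓ : ℕ, ℓ.Prime → ∀ A : ValuationSubring Ω, A.LiesOverPrime ℓ →
      A.inertiaSubgroupIn ℚ ⊓ K.fixingSubgroup ≤ W := by
    intro ℓ hℓ A hA
    by_cases hS : (⟨ℓ, hℓ⟩ : Nat.Primes) ∈ S
    · obtain ⟨v, A₀, hA₀, hv⟩ := hIV ⟨ℓ, hℓ⟩ hS
      haveI := H51.isGalois_Qbar
      obtain ⟨g, rfl⟩ := H05.exists_smul_eq hℓ hA₀ hA
      rintro σ ⟨h1, h2⟩
      have h3 := hv (H09.inertia_conj h1)
      have h4 : g⁻¹ * σ * g ∈ Z34.HH ρ0 := by
        rw [hK] at hHn ⊢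
        have := hHn.conj_mem σ h2 g⁻¹
        rwa [inv_inv] at this
      have h5 := hIW v ⟨h3, h4⟩
      have h6 := hWn.conj_mem _ h5 g
      have h7 : g * (g⁻¹ * σ * g) * g⁻¹ = σ := by group
      rwa [h7] at h6
    · obtain ⟨F, hF, hFW⟩ := hWo
      rintro σ ⟨h1, -⟩
      exact hFW (hF.2 ⟨ℓ, hℓ⟩ hS A hA h1)
  rw [hK] at hWH hc hpw ⊢
  obtain ⟨n, hn, hdvd⟩ := relIndex_dvd K W (isOpen_of_levS hWo) hWH hKc hin hc 2 hpw
  rw [hn]
  refine Nat.pow_le_pow_right (by norm_num) ?_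
  have h0 : Nat.card (ClassGroup (𝓞 K)) ≠ 0 := Nat.card_pos.ne'
  exact (padicValNat_dvd_iff_le h0).mp hdvd

end Fermat.Agent.ZC
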