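import Fermat.Agent.H29W.BSet

/-!
# Ring class data (interface between `ZC` and package U)
-/

set_option autoImplicit false
set_option linter.unusedSectionVars false

open scoped Classical nonZeroDivisors

namespace Fermat.Agent.ZC

open NumberField Fermat.Agent.H29Z

noncomputable section

/-- the residue of a complex number (zero if it is not integral) -/
def resA (A : ValuationSubring ℂ) (z : ℂ) : IsLocalRing.ResidueField A :=
  if h : z ∈ A then IsLocalRing.residue A ⟨z, h⟩ else 0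

theorem resA_of_mem {A : ValuationSubring ℂ} {z : ℂ} (h : z ∈ A) :
    resA A z = IsLocalRing.residue A ⟨z, h⟩ := dif_pos h

/-- the ideals of norm `n` -/
def idn (K : Type*) [Field K] [NumberField K] (n : ℕ) : Finset (Ideal (𝓞 K)) :=
  (Ideal.finite_setOfPred_absNorm_eq (S := 𝓞 K) n).toFinset

theorem mem_idn {K : Type*} [Field K] [NumberField K] {n : ℕ} {b : Ideal (𝓞 K)} :
    b ∈ idn K n ↔ Ideal.absNorm b = n := by
  rw [idn, Set.Finite.mem_toFinset]; rfl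

/-- the theta element `∑_{Nb = n} X(b) [cls b]` reduced to the residue field -/
def thG {K : Type*} [Field K] [NumberField K] {G : Type*} (A : ValuationSubring ℂ)
    (cls : Ideal (𝓞 K) → G) (X : Ideal (𝓞 K) → ℂ) (n : ℕ) :
    MonoidAlgebra (IsLocalRing.ResidueField A) G :=
  ∑ b ∈ idn K n, MonoidAlgebra.single (cls b) (resA A (X b))

theorem coeff_thG {K : Type*} [Field K] [NumberField K] {G : Type*} (A : ValuationSubring ℂ)
    (cls : Ideal (𝓞 K) → G) (X : Ideal (𝓞 K) → ℂ) (n : ℕ) (g : G) :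
    (thG A cls X n).coeff g = ∑ b ∈ idn K n, if cls b = g then resA A (X b) else 0 := by
  rw [thG, MonoidAlgebra.coeff_sum, Finset.sum_apply']
  refine Finset.sum_congr rfl fun b _ => ?_
  rw [MonoidAlgebra.coeff_single, Finsupp.single_apply]

/-- the residual eigenvalue -/
def aL {K : Type*} [Field K] [NumberField K] (A : ValuationSubring ℂ)
    (X : Ideal (𝓞 K) → ℂ) (n : ℕ) : IsLocalRing.ResidueField A :=
  ∑ b ∈ idn K n, resA A (X b)

/-- reduction of an integer of `K` modulo an inert prime of `B` -/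
def rdB {K : Type*} [Field K] [NumberField K] {d : ℤ} (e : 𝓞 K ≃+* QI ℤ d) {B : Finset ℕ}
    (i : B) : 𝓞 K →+* QI (ZMod (i : ℕ)) d :=
  (qmap (Int.castRingHom (ZMod (i : ℕ))) d).comp (e : 𝓞 K →+* QI ℤ d)

/-- **Ring class data**: the family `X · θ(cls)` (`θ` a character of the finite 2-group `G`) of
characters of ideals prime to `f = fB B`. -/
structure RC {K : Type} [Field K] [NumberField K] {d : ℤ} (e : 𝓞 K ≃+* QI ℤ d)
    (B : Finset ℕ) [PB B] [IB d B] (ξ : (i : B) → MulChar (QI (ZMod (i : ℕ)) d) ℂ)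
    (ψ : ClassGroup (𝓞 K) →* ℂˣ) where
  /-- the 2-group -/
  G : Type
  [instG : CommGroup G]
  [instF : Fintype G]
  /-- the class of an ideal -/
  cls : Ideal (𝓞 K) → G
  /-- the base character -/
  X : Ideal (𝓞 K) → ℂ
  /-- exponent bound -/
  r : ℕ
  X_mul : ∀ a b, X (a * b) = X a * X b
  X_top : X ⊤ = 1
  X_ne : ∀ b, X b ≠ 0 ↔ b ≠ ⊥ ∧ IsCoprime b (Ideal.span {((fB B : ℕ) : 𝓞 K)})
  X_pow : ∀ b, X b ≠ 0 → X b ^ (3 * 2 ^ r) = 1
  cls_mul : ∀ a b, X a ≠ 0 → X b ≠ 0 → cls (a * b) = cls a * cls b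
  res_X : ∀ A : ValuationSubring ℂ, (2 : ℂ) ∈ A.nonunits → ∀ b (hb : b ∈ (Ideal (𝓞 K))⁰),
    X b ≠ 0 → resA A (X b) = resA A ((ψ (ClassGroup.mk0 ⟨b, hb⟩) : ℂˣ) : ℂ)
  isP : IsPGroup 2 G
  card : Fintype.card G = 2 ^ B.card * 2 ^ padicValNat 2 (Nat.card (ClassGroup (𝓞 K)))
  char_eq : B.Nonempty → ∀ θ : G →* ℂˣ, ∃ ξ' : (i : B) → MulChar (QI (ZMod (i : ℕ)) d) ℂ,
    (∀ i, ξ' i = ξ i ∨ ξ' i = (ξ i)⁻¹) ∧
    ∀ y : 𝓞 K, X (Ideal.span {y}) * θ (cls (Ideal.span {y})) = ∏ i, ξ' i (rdB e i y)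
  th_one : ∀ A : ValuationSubring ℂ, (2 : ℂ) ∈ A.nonunits → thG A cls X 1 = 1
  th_four : ∀ A : ValuationSubring ℂ, (2 : ℂ) ∈ A.nonunits → ∀ n,
    thG A cls X (4 * n) = thG A cls X n
  th_hecke : ∀ A : ValuationSubring ℂ, (2 : ℂ) ∈ A.nonunits → ∀ ℓ : ℕ, ℓ.Prime →
    ¬ (ℓ : ℤ) ∣ 2 * d * (fB B : ℕ) → ∀ n,
    thG A cls X (ℓ * n) + (if ℓ ∣ n then thG A cls X (n / ℓ) else 0) =
      thG A cls X ℓ * thG A cls X n
  th_nil : ∀ A : ValuationSubring ℂ, (2 : ℂ) ∈ A.nonunits → ∀ ℓ : ℕ, ℓ.Prime →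
    ¬ (ℓ : ℤ) ∣ 2 * d * (fB B : ℕ) →
    ∃ N : ℕ, (thG A cls X ℓ - algebraMap _ _ (aL A X ℓ)) ^ N = 0
  th_span : ψ ≠ 1 → ∀ A : ValuationSubring ℂ, (2 : ℂ) ∈ A.nonunits →
    ∀ c : G → IsLocalRing.ResidueField A,
    (∀ n : ℕ, 0 < n → n.Coprime (fB B) → ∑ g, c g * (thG A cls X n).coeff g = 0) → c = 0

attribute [instance] RC.instG RC.instF

end

end Fermat.Agent.ZC
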