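import Fermat.Agent.ZC.RCSpan

/-!
# Existence of the ring class data
-/

set_option autoImplicit false
set_option linter.unusedSectionVars false
set_option linter.style.haveILetI false

open scoped Classical nonZeroDivisors Topology

namespace Fermat.Agent.ZC

open NumberField Fermat.Agent.H29Z QuadraticAlgebra IsDedekindDomain Fermat.Agent.CFT

noncomputable section

/-- **Existence of the ring class data** for `𝓞 K = ℤ[√d]`, `d` even, `d < -1`. -/
theorem exists_RC {K : Type} [Field K] [NumberField K] {d : ℤ} (e : 𝓞 K ≃+* QI ℤ d)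
    (hd : d < -1) (hd2 : 2 ∣ d) (B : Finset ℕ) [PB B] [IB d B]
    (ξ : (i : B) → MulChar (QI (ZMod (i : ℕ)) d) ℂ)
    (h1 : ∀ i : B, ∀ a : ZMod (i : ℕ), a ≠ 0 → ξ i (algebraMap _ _ a) = 1)
    (h4 : ∀ i : B, ∀ x ≠ 0, ξ i x ^ 4 = 1) (hne : ∀ i : B, ∃ x ≠ 0, ξ i x ^ 2 ≠ 1)
    (ψ : ClassGroup (𝓞 K) →* ℂˣ) (hψ : ∀ c, ψ c ^ 3 = 1) : Nonempty (RC e B ξ ψ) := by
  obtain ⟨χ0, r, hχ, hr⟩ := exists_ext_two (fromU (mB_ne_bot (K := K) B)) (xiBar e B ξ)
    (ker_le_xiBar e B hd h1) (xiBar_pow e B h4)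
  set X0 : RG K B →* ℂˣ := ψ.comp (toCl (mB_ne_bot B)) * χ0 with hX0
  have hX : ∀ u, X0 (fromU (mB_ne_bot B) u) = xiBar e B ξ u := by
    intro u
    rw [hX0, MonoidHom.mul_apply, MonoidHom.comp_apply, toCl_fromU, map_one, one_mul, ← hχ]
    rfl
  have hn : (3 * 2 ^ r) ≠ 0 := by positivity
  have hXn : ∀ c, X0 c ^ (3 * 2 ^ r) = 1 := by
    intro c
    rw [hX0, MonoidHom.mul_apply, mul_pow, mul_comm 3, pow_mul (χ0 c), hr, one_pow, mul_one,
      mul_comm (2 ^ r), pow_mul, MonoidHom.comp_apply, hψ, one_pow]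
  have hsplit : ∀ ℓ : ℕ, ¬ (ℓ : ℤ) ∣ 2 * d * (fB B : ℕ) →
      ¬ (ℓ : ℤ) ∣ 2 * d ∧ ¬ ℓ ∣ fB B := by
    intro ℓ h
    exact ⟨fun h' => h (h'.mul_right _), fun h' =>
      h ((Int.natCast_dvd_natCast.mpr h').mul_left _)⟩
  have hhecke : ∀ A : ValuationSubring ℂ, (2 : ℂ) ∈ A.nonunits → ∀ ℓ : ℕ, ℓ.Prime →
      ¬ (ℓ : ℤ) ∣ 2 * d * (fB B : ℕ) → ∀ n,
      thG A (clsB B) (XI B X0) (ℓ * n) +
        (if ℓ ∣ n then thG A (clsB B) (XI B X0) (n / ℓ) else 0) =
      thG A (clsB B) (XI B X0) ℓ * thG A (clsB B) (XI B X0) n := by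
    intro A h2 ℓ hℓ hnd n
    obtain ⟨ha, hb⟩ := hsplit ℓ hnd
    haveI := charP_res h2
    haveI := charP_alg (k := IsLocalRing.ResidueField A) (G := GB K B)
    have h := hecke_two e (PhiA B X0 hn hXn A) hℓ ha CharTwo.two_eq_zero
      (PhiA_nat e B hn hXn h1 hX hℓ hb) n
    simpa only [Ssum_PhiA] using h
  have hone : ∀ A : ValuationSubring ℂ, thG A (clsB B) (XI B X0) 1 = 1 := by
    intro A
    rw [← Ssum_PhiA B X0 hn hXn A, Ssum_one]
  have hodd : ¬ 2 ∣ fB B := by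
    intro h
    rw [fB_eq] at h
    obtain ⟨q, hq, h'⟩ := (Nat.prime_two.prime.dvd_finsetProd_iff _).mp h
    have hqo := odd_of_mem d B ⟨q, hq⟩
    exact (Nat.not_even_iff_odd.mpr hqo) (even_iff_two_dvd.mpr h')
  letI : Fintype (GB K B) := Fintype.ofFinite _
  exact ⟨{
    G := GB K B
    instG := inferInstance
    instF := inferInstance
    cls := clsB B
    X := XI B X0
    r := r
    X_mul := XI_mul B X0
    X_top := XI_top B X0
    X_ne := fun b => XI_ne B X0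
    X_pow := fun b hb => XI_pow B X0 hXn hb
    cls_mul := fun a b ha hb => clsB_mul B ((XI_ne B X0).mp ha) ((XI_ne B X0).mp hb)
    res_X := fun A h2 b hb hX => by
      have hmem := (XI_ne B X0).mp hX
      rw [XI_of_mem B X0 hmem, hX0, MonoidHom.mul_apply, Units.val_mul, MonoidHom.comp_apply,
        rcI_of_mem _ hmem, toCl_rc]
      have hψ3 : ((ψ (ClassGroup.mk0 ⟨b, hb⟩) : ℂˣ) : ℂ) ^ 3 = 1 := by
        rw [← Units.val_pow_eq_pow_val, hψ, Units.val_one]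
      have hχ' : ((χ0 (rc (mB_ne_bot B) ⟨b, hmem⟩) : ℂˣ) : ℂ) ^ 2 ^ r = 1 := by
        rw [← Units.val_pow_eq_pow_val, hr, Units.val_one]
      rw [resA_mul (mem_of_pow_eq_one (by norm_num) hψ3)
        (mem_of_pow_eq_one (by positivity) hχ'), resA_eq_one h2 hχ', mul_one]
    isP := isPGroup_GB B
    card := by
      rw [← Nat.card_eq_fintype_card, card_GB e B hd]
    char_eq := fun hB θ => char_eq_aux e B h4 hne hX hB θ
    th_one := fun A _ => hone A
    th_four := fun A _ n => by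
      have h := Ssum_four e (PhiA B X0 hn hXn A) hd2
        (PhiA_nat e B hn hXn h1 hX Nat.prime_two hodd) n
      simpa only [Ssum_PhiA] using h
    th_hecke := hhecke
    th_nil := fun A h2 ℓ _ _ => th_nil_aux B h2 ℓ
    th_span := fun hψ1 A h2 c hc => th_span_aux e B (by omega) h2 h1 hX0 hr hψ hψ1 hX
      (hhecke A h2) (hone A) c hc }⟩

end

end Fermat.Agent.ZC

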