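import Fermat.Agent.ZC.Match

/-!
# The cubic character of `ρ0`
-/

set_option autoImplicit false
set_option linter.unusedSectionVars false
set_option linter.style.haveILetI false

open scoped Classical nonZeroDivisors Topology Pointwise

namespace Fermat.Agent.ZC

open NumberField IsDedekindDomain Module Fermat.Agent.CFT Fermat.Agent.H29Z QuadraticAlgebra

local notation "Ω" => AlgebraicClosure ℚ
local notation "GQ" => (AlgebraicClosure ℚ ≃ₐ[ℚ] AlgebraicClosure ℚ)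

theorem cayley_two : ∀ a b c d : ZMod 2,
    (!![a, b; c, d] : Matrix (Fin 2) (Fin 2) (ZMod 2)).trace = 1 →
    (!![a, b; c, d] : Matrix (Fin 2) (Fin 2) (ZMod 2)).det = 1 →
    ((!![a, b; c, d] : Matrix (Fin 2) (Fin 2) (ZMod 2)) ^ 2).trace = 1 ∧
    (!![a, b; c, d] : Matrix (Fin 2) (Fin 2) (ZMod 2)) ^ 2 ≠ !![a, b; c, d] ∧
    (!![a, b; c, d] : Matrix (Fin 2) (Fin 2) (ZMod 2)) ^ 3 = 1 ∧
    (!![a, b; c, d] : Matrix (Fin 2) (Fin 2) (ZMod 2)) ≠ 1 := by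
  decide

theorem two_cases : ∀ a b c d : ZMod 2,
    (!![a, b; c, d] : Matrix (Fin 2) (Fin 2) (ZMod 2)).trace = 1 →
    (!![a, b; c, d] : Matrix (Fin 2) (Fin 2) (ZMod 2)).det = 1 →
    (!![a, b; c, d] : Matrix (Fin 2) (Fin 2) (ZMod 2)) = !![0, 1; 1, 1] ∨
    (!![a, b; c, d] : Matrix (Fin 2) (Fin 2) (ZMod 2)) = !![1, 1; 1, 0] := by
  decide

theorem two_cases' {M : Matrix (Fin 2) (Fin 2) (ZMod 2)} (h : M.trace = 1) (hd : M.det = 1) :
    M = !![0, 1; 1, 1] ∨ M = !![1, 1; 1, 0] := by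
  rw [Matrix.eta_fin_two M] at h hd ⊢
  exact two_cases _ _ _ _ h hd

variable {K : IntermediateField ℚ Ω} {ρ0 : GQ →* Matrix (Fin 2) (Fin 2) (ZMod 2)}

theorem relIndex_eq_three
    (hK : ∀ g, g ∈ K.fixingSubgroup ↔ (ρ0 g = 1 ∨ (ρ0 g).trace = 1))
    {g₀ : GQ} (hg : (ρ0 g₀).trace = 1) : ρ0.ker.relIndex K.fixingSubgroup = 3 := by
  set H := K.fixingSubgroup with hH
  have hg₀ : g₀ ∈ H := (hK g₀).mpr (Or.inr hg)
  obtain ⟨h1, h2, h3, h4⟩ : ((ρ0 g₀) ^ 2).trace = 1 ∧ (ρ0 g₀) ^ 2 ≠ ρ0 g₀ ∧ (ρ0 g₀) ^ 3 = 1 ∧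
      ρ0 g₀ ≠ 1 := by
    have hdet := det_eq_one_zmod ρ0 g₀
    rw [Matrix.eta_fin_two (ρ0 g₀)] at hg hdet ⊢
    exact cayley_two _ _ _ _ hg hdet
  have hcases : ∀ g ∈ H, ρ0 g = 1 ∨ ρ0 g = ρ0 g₀ ∨ ρ0 g = ρ0 g₀ ^ 2 := by
    intro g hgH
    rcases (hK g).mp hgH with h | h
    · exact Or.inl h
    · right
      rcases two_cases' h (det_eq_one_zmod ρ0 g) with h5 | h5 <;>
        rcases two_cases' hg (det_eq_one_zmod ρ0 g₀) with h6 | h6 <;>
        rw [h5, h6] <;> decide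
  rw [Subgroup.relIndex, Subgroup.index]
  have hmem : ∀ σ τ : H, (QuotientGroup.mk σ : H ⧸ ρ0.ker.subgroupOf H) = QuotientGroup.mk τ ↔
      ρ0 σ.1 = ρ0 τ.1 := by
    intro σ τ
    rw [QuotientGroup.eq, Subgroup.mem_subgroupOf, MonoidHom.mem_ker]
    change ρ0 (σ.1⁻¹ * τ.1) = 1 ↔ _
    constructor
    · intro h
      have : τ.1 = σ.1 * (σ.1⁻¹ * τ.1) := by rw [mul_inv_cancel_left]
      rw [this, map_mul, h, mul_one]
    · intro h
      rw [map_mul, ← h, ← map_mul, inv_mul_cancel, map_one]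
  have hf : Function.Bijective (fun i : Fin 3 =>
      (QuotientGroup.mk ((⟨g₀, hg₀⟩ : H) ^ (i : ℕ)) : H ⧸ ρ0.ker.subgroupOf H)) := by
    constructor
    · intro i j hij
      have hij' := (hmem _ _).mp hij
      change ρ0 (g₀ ^ (i : ℕ)) = ρ0 (g₀ ^ (j : ℕ)) at hij'
      rw [map_pow, map_pow] at hij'
      fin_cases i <;> fin_cases j <;> first | rfl | skip
      · exact absurd (by simpa using hij'.symm) h4
      · exfalso
        have h5 : ρ0 g₀ ^ 2 = 1 := by simpa using hij'.symm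
        have h6 := h3
        rw [pow_succ, h5, one_mul] at h6
        exact h4 h6
      · exact absurd (by simpa using hij') h4
      · exact absurd (by simpa using hij'.symm) h2
      · exfalso
        have h5 : ρ0 g₀ ^ 2 = 1 := by simpa using hij'
        have h6 := h3
        rw [pow_succ, h5, one_mul] at h6
        exact h4 h6
      · exact absurd (by simpa using hij') h2
    · intro Q
      obtain ⟨g, rfl⟩ := QuotientGroup.mk_surjective Q
      rcases hcases g.1 g.2 with h | h | h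
      · refine ⟨0, (hmem _ _).mpr ?_⟩
        change ρ0 (g₀ ^ 0) = ρ0 g.1
        rw [pow_zero, map_one, h]
      · refine ⟨1, (hmem _ _).mpr ?_⟩
        change ρ0 (g₀ ^ 1) = ρ0 g.1
        rw [pow_one, h]
      · refine ⟨2, (hmem _ _).mpr ?_⟩
        change ρ0 (g₀ ^ 2) = ρ0 g.1
        rw [map_pow, h]
  rw [← Nat.card_congr (Equiv.ofBijective _ hf), Nat.card_eq_fintype_card, Fintype.card_fin]

/-- **The cubic character attached to `ρ0`** -/
theorem exists_cubChar_ker (K : IntermediateField ℚ Ω) [NumberField K]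
    (hKc : ∀ w : InfinitePlace K, w.IsComplex) (ρ0 : GQ →* Matrix (Fin 2) (Fin 2) (ZMod 2))
    (hK : ∀ g, g ∈ K.fixingSubgroup ↔ (ρ0 g = 1 ∨ (ρ0 g).trace = 1))
    (F' : IntermediateField ℚ Ω) [FiniteDimensional ℚ F'] (hF' : ∀ σ ∈ F'.fixingSubgroup, ρ0 σ = 1)
    (hg : ∃ g, (ρ0 g).trace = 1)
    (hin : ∀ ℓ : ℕ, ℓ.Prime → ∀ A : ValuationSubring Ω, A.LiesOverPrime ℓ →
      ∀ σ ∈ A.inertiaSubgroupIn ℚ, (ρ0 σ).trace = 0) : Nonempty (CubChar K ρ0.ker) := by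
  obtain ⟨g₀, hg₀⟩ := hg
  refine exists_cubChar K hKc ρ0.ker ?_ ?_ ?_ (relIndex_eq_three hK hg₀)
  · have h1 : IsOpen (F'.fixingSubgroup : Set GQ) := F'.fixingSubgroup_isOpen
    exact Subgroup.isOpen_mono (fun σ hσ => hF' σ hσ) h1
  · intro σ hσ
    exact (hK σ).mpr (Or.inl hσ)
  · rintro ℓ hℓ A hA σ ⟨h1, h2⟩
    rcases (hK σ).mp h2 with h | h
    · exact h
    · rw [hin ℓ hℓ A hA σ h1] at h
      exact absurd h (by decide)

end Fermat.Agent.ZC
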