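import Fermat.Agent.ZC.Cubic

/-!
# Frobenius elements and splitting
-/

set_option autoImplicit false
set_option linter.unusedSectionVars false
set_option linter.style.haveILetI false

open scoped Classical nonZeroDivisors Topology Pointwise

namespace Fermat.Agent.ZC

open NumberField IsDedekindDomain Module Fermat.Agent.CFT

local notation "Ω" => AlgebraicClosure ℚ
local notation "GQ" => (AlgebraicClosure ℚ ≃ₐ[ℚ] AlgebraicClosure ℚ)

theorem frob_sub {A : ValuationSubring Ω} {q : ℕ} {φ : GQ} (hφ : A.IsFrobeniusAt φ q) (x : Ω)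
    (hx : x ∈ A) : φ x - x ^ q ∈ A.nonunits := by
  obtain ⟨h1, h2⟩ := hφ
  have h3 := h2 (IsLocalRing.residue A ⟨x, hx⟩)
  have hσx : φ x ∈ A := by
    have h5 : φ • A = A := h1
    rw [← h5]
    exact ValuationSubring.smul_mem_pointwise_smul φ x A hx
  have h4 : IsLocalRing.residue A ⟨φ x, hσx⟩ = IsLocalRing.residue A (⟨x, hx⟩ ^ q) := by
    rw [map_pow]
    exact h3
  rw [← sub_eq_zero, ← map_sub, IsLocalRing.residue_eq_zero_iff,
    ← ValuationSubring.coe_mem_nonunits_iff] at h4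
  exact h4

section plc

variable {F : Type*} [Field F] [NumberField F] (ι : F →+* Ω) {A : ValuationSubring Ω} {ℓ : ℕ}

/-- the map on integers -/
noncomputable def iO : 𝓞 F →+* Ω := ι.comp (algebraMap (𝓞 F) F)

theorem iO_apply (x : 𝓞 F) : iO ι x = ι (x : F) := rfl

theorem int_mem (A : ValuationSubring Ω) (x : 𝓞 F) : iO ι x ∈ A :=
  H05.mem_of_isIntegral A ((x.isIntegral_coe).map (ι : F →+* Ω).toIntAlgHom)

theorem nonunits_sub {x y : Ω} (hx : x ∈ A.nonunits) (hy : y ∈ A.nonunits) :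
    x - y ∈ A.nonunits := by
  rw [ValuationSubring.mem_nonunits_iff] at *
  exact (Valuation.map_sub _ _ _).trans_lt (max_lt hx hy)

theorem nonunits_add {x y : Ω} (hx : x ∈ A.nonunits) (hy : y ∈ A.nonunits) :
    x + y ∈ A.nonunits := by
  rw [ValuationSubring.mem_nonunits_iff] at *
  exact (Valuation.map_add _ _ _).trans_lt (max_lt hx hy)

theorem nonunits_mul {x y : Ω} (hx : x ∈ A) (hy : y ∈ A.nonunits) :
    x * y ∈ A.nonunits := by
  rw [ValuationSubring.mem_nonunits_iff] at *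
  rw [map_mul]
  have h1 := (ValuationSubring.valuation_le_one_iff A x).mpr hx
  exact (mul_le_mul_left h1 _).trans_lt (by rwa [one_mul])

theorem nonunits_zero : (0 : Ω) ∈ A.nonunits := by
  rw [ValuationSubring.mem_nonunits_iff, map_zero]
  exact zero_lt_one

/-- the prime of a number field below a place of `Ω` -/
noncomputable def plc (hℓ : ℓ.Prime) (hA : A.LiesOverPrime ℓ) : HeightOneSpectrum (𝓞 F) where
  asIdeal :=
    { carrier := {x | iO ι x ∈ A.nonunits}
      add_mem' := fun {x y} hx hy => by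
        change iO ι (x + y) ∈ A.nonunits
        rw [map_add]
        exact nonunits_add hx hy
      zero_mem' := by
        change iO ι 0 ∈ A.nonunits
        rw [map_zero]
        exact nonunits_zero
      smul_mem' := fun c x hx => by
        change iO ι (c * x) ∈ A.nonunits
        rw [map_mul]
        exact nonunits_mul (int_mem ι A c) hx }
  isPrime := by
    constructor
    · rw [Ne, Ideal.eq_top_iff_one]
      intro h
      change iO ι 1 ∈ A.nonunits at h
      rw [map_one, ValuationSubring.mem_nonunits_iff, map_one] at h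
      exact lt_irrefl _ h
    · intro x y hxy
      change iO ι (x * y) ∈ A.nonunits at hxy
      rw [map_mul, ValuationSubring.mem_nonunits_iff, map_mul] at hxy
      by_contra hcon
      rw [not_or] at hcon
      have h1 : A.valuation (iO ι x) = 1 := by
        refine le_antisymm ((ValuationSubring.valuation_le_one_iff A _).mpr (int_mem ι A x)) ?_
        by_contra h
        exact hcon.1 ((ValuationSubring.mem_nonunits_iff _).mpr (not_le.mp h))
      have h2 : A.valuation (iO ι y) = 1 := by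
        refine le_antisymm ((ValuationSubring.valuation_le_one_iff A _).mpr (int_mem ι A y)) ?_
        by_contra h
        exact hcon.2 ((ValuationSubring.mem_nonunits_iff _).mpr (not_le.mp h))
      rw [h1, h2, one_mul] at hxy
      exact lt_irrefl _ hxy
  ne_bot := by
    intro h
    have h1 : (ℓ : 𝓞 F) ∈ (⊥ : Ideal (𝓞 F)) := by
      rw [← h]
      change iO ι (ℓ : 𝓞 F) ∈ A.nonunits
      rw [map_natCast]
      exact hA
    rw [Ideal.mem_bot, Nat.cast_eq_zero] at h1
    exact hℓ.ne_zero h1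

variable (hℓ : ℓ.Prime) (hA : A.LiesOverPrime ℓ)

theorem mem_plc {x : 𝓞 F} : x ∈ (plc ι hℓ hA).asIdeal ↔ iO ι x ∈ A.nonunits := Iff.rfl

theorem nat_mem_plc : (ℓ : 𝓞 F) ∈ (plc ι hℓ hA).asIdeal := by
  rw [mem_plc, map_natCast]
  exact hA

/-- the norm is a power of `ℓ` -/
theorem exists_norm_pow : ∃ n, 0 < n ∧ Ideal.absNorm (plc ι hℓ hA).asIdeal = ℓ ^ n := by
  haveI := (plc ι hℓ hA).isMaximal
  obtain ⟨p, n, hn, hp, hpp, h⟩ := Ideal.exists_prime_and_absNorm_eq_pow (plc ι hℓ hA).asIdeal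
  refine ⟨n, hn, ?_⟩
  have hpl : p = ℓ := by
    by_contra hne
    have hc : IsCoprime (p : ℤ) (ℓ : ℤ) := Nat.isCoprime_iff_coprime.mpr
      ((Nat.coprime_primes hpp hℓ).mpr hne)
    obtain ⟨a, b, hab⟩ := hc
    apply (plc ι hℓ hA).isPrime.ne_top
    rw [Ideal.eq_top_iff_one]
    have h1 : (1 : 𝓞 F) = (a : 𝓞 F) * (p : 𝓞 F) + (b : 𝓞 F) * (ℓ : 𝓞 F) := by
      have := congrArg (fun z : ℤ => (z : 𝓞 F)) hab
      push_cast at this
      exact this.symm
    rw [h1]
    exact add_mem (Ideal.mul_mem_left _ _ hp) (Ideal.mul_mem_left _ _ (nat_mem_plc ι hℓ hA))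
  rw [h, hpl]

/-- degree one -/
theorem norm_eq_iff : Ideal.absNorm (plc ι hℓ hA).asIdeal = ℓ ↔
    ∀ x : 𝓞 F, x ^ ℓ - x ∈ (plc ι hℓ hA).asIdeal := by
  set P := plc ι hℓ hA with hP
  haveI := P.isMaximal
  letI : Field (𝓞 F ⧸ P.asIdeal) := Ideal.Quotient.field P.asIdeal
  haveI : Finite (𝓞 F ⧸ P.asIdeal) := Ideal.finiteQuotientOfFreeOfNeBot _ P.ne_bot
  haveI := Fintype.ofFinite (𝓞 F ⧸ P.asIdeal)
  have hcard : Fintype.card (𝓞 F ⧸ P.asIdeal) = Ideal.absNorm P.asIdeal := by
    rw [← Nat.card_eq_fintype_card]; rfl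
  constructor
  · intro h x
    rw [← Ideal.Quotient.eq, map_pow]
    have h1 := FiniteField.pow_card (Ideal.Quotient.mk P.asIdeal x)
    rwa [hcard, h] at h1
  · intro h
    obtain ⟨n, hn, hN⟩ := exists_norm_pow ι hℓ hA
    rw [← hP] at hN
    have h1 : ∀ y : 𝓞 F ⧸ P.asIdeal, y ^ ℓ = y := by
      intro y
      obtain ⟨x, rfl⟩ := Ideal.Quotient.mk_surjective y
      rw [← map_pow, Ideal.Quotient.eq]
      exact h x
    have h2 : Fintype.card (𝓞 F ⧸ P.asIdeal) ≤ ℓ := by
      have hne := FiniteField.X_pow_card_sub_X_ne_zero (𝓞 F ⧸ P.asIdeal) hℓ.one_lt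
      have hdeg := FiniteField.X_pow_card_sub_X_natDegree_eq (𝓞 F ⧸ P.asIdeal) hℓ.one_lt
      have h3 : (Finset.univ : Finset (𝓞 F ⧸ P.asIdeal)).val ≤
          (Polynomial.X ^ ℓ - Polynomial.X : Polynomial (𝓞 F ⧸ P.asIdeal)).roots := by
        rw [Multiset.le_iff_subset Finset.univ.nodup]
        intro y _
        rw [Polynomial.mem_roots hne, Polynomial.IsRoot.def]
        simp [h1 y]
      have h4 := (Multiset.card_le_card h3).trans (Polynomial.card_roots' _)
      rw [hdeg] at h4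
      exact h4
    rw [hcard, hN] at h2
    rw [hN]
    have h5 : n ≤ 1 := by
      by_contra hcon
      push Not at hcon
      have h6 : ℓ ^ 1 < ℓ ^ n := Nat.pow_lt_pow_right hℓ.one_lt hcon
      rw [pow_one] at h6
      omega
    have h6 : n = 1 := by omega
    rw [h6, pow_one]

end plc

section main

variable {K : IntermediateField ℚ Ω} [NumberField K] {A : ValuationSubring Ω} {ℓ : ℕ}
  (hℓ : ℓ.Prime) (hA : A.LiesOverPrime ℓ)

/-- the prime of `K` below `A` -/
noncomputable abbrev vK (K : IntermediateField ℚ Ω) [NumberField K] (hℓ : ℓ.Prime)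
    (hA : A.LiesOverPrime ℓ) : HeightOneSpectrum (𝓞 K) := plc (algebraMap K Ω) hℓ hA

/-- if a Frobenius element fixes `K` then the degree is one -/
theorem norm_vK {φ : GQ} (hφ : A.IsFrobeniusAt φ ℓ) (hφK : φ ∈ K.fixingSubgroup) :
    Ideal.absNorm (vK K hℓ hA).asIdeal = ℓ := by
  rw [norm_eq_iff]
  intro x
  rw [mem_plc]
  have h1 := frob_sub hφ _ (int_mem (algebraMap K Ω) A x)
  have h2 : φ (iO (algebraMap K Ω) x) = iO (algebraMap K Ω) x :=
    (IntermediateField.mem_fixingSubgroup_iff _ _).mp hφK _ (x : K).2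
  rw [h2] at h1
  have h3 : iO (algebraMap K Ω) (x ^ ℓ - x) =
      0 - (iO (algebraMap K Ω) x - iO (algebraMap K Ω) x ^ ℓ) := by
    rw [map_sub, map_pow]; ring
  rw [h3]
  exact nonunits_sub nonunits_zero h1

variable {W : Subgroup GQ} (C : Cut K W)

attribute [local instance] Cut.fieldF Cut.nfF Cut.algF Cut.galF

/-- the prime of `F` below `A` -/
noncomputable abbrev vF (hℓ : ℓ.Prime) (hA : A.LiesOverPrime ℓ) : HeightOneSpectrum (𝓞 C.F) :=
  plc C.ι hℓ hA

theorem under_vF : under K C.F (vF C hℓ hA) = vK K hℓ hA := by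
  apply HeightOneSpectrum.ext
  ext x
  rw [under_asIdeal, Ideal.under, Ideal.mem_comap, mem_plc, mem_plc]
  have : iO C.ι (algebraMap (𝓞 K) (𝓞 C.F) x) = iO (algebraMap K Ω) x := by
    have h1 : ((algebraMap (𝓞 K) (𝓞 C.F) x : 𝓞 C.F) : C.F) = algebraMap K C.F (x : K) := rfl
    rw [iO_apply, h1, C.ι_alg]
    rfl
  rw [this]

theorem inertia_trivial (P : HeightOneSpectrum (𝓞 C.F)) {τ : C.F ≃ₐ[K] C.F}
    (hτ : ∀ x : 𝓞 C.F, τ • x - x ∈ P.asIdeal) : τ = 1 := by
  have h1 := C.unram P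
  rw [ramE_eq_card_inertia, Nat.card_eq_one_iff_unique] at h1
  have h2 : τ ∈ P.asIdeal.inertia Gal(C.F/K) := fun x => hτ x
  have h3 := @Subsingleton.elim _ h1.1 (⟨τ, h2⟩ : P.asIdeal.inertia Gal(C.F/K)) 1
  exact congrArg Subtype.val h3

/-- **Splitting criterion** -/
theorem spl_iff_frob {φ : GQ} (hφ : A.IsFrobeniusAt φ ℓ) (hφK : φ ∈ K.fixingSubgroup) :
    Spl K C.F (vK K hℓ hA) ↔ φ ∈ W := by
  have hN := norm_vK hℓ hA hφ hφK
  have hr : ∀ x : 𝓞 C.F, iO C.ι (C.r ⟨φ, hφK⟩ • x) = φ (iO C.ι x) := by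
    intro x
    have h1 : ((C.r ⟨φ, hφK⟩ • x : 𝓞 C.F) : C.F) = C.r ⟨φ, hφK⟩ (x : C.F) := rfl
    rw [iO_apply, h1, C.r_apply]
    rfl
  rw [← C.r_ker ⟨φ, hφK⟩, ← under_vF hℓ hA C]
  constructor
  · intro h
    have h1 := absNorm_eq_of_spl h (vF C hℓ hA).asIdeal
    rw [under_vF, hN, norm_eq_iff] at h1
    refine inertia_trivial C (vF C hℓ hA) fun x => ?_
    rw [mem_plc]
    have h2 := h1 x
    rw [mem_plc] at h2
    have h3 := frob_sub hφ _ (int_mem C.ι A x)
    have h4 : iO C.ι (C.r ⟨φ, hφK⟩ • x - x) =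
        (φ (iO C.ι x) - iO C.ι x ^ ℓ) + iO C.ι (x ^ ℓ - x) := by
      rw [map_sub, hr, map_sub, map_pow]; ring
    rw [h4]
    exact nonunits_add h3 h2
  · intro h
    have hNF : Ideal.absNorm (vF C hℓ hA).asIdeal = ℓ := by
      rw [norm_eq_iff]
      intro x
      rw [mem_plc]
      have h1 := frob_sub hφ _ (int_mem C.ι A x)
      rw [← hr, h, one_smul] at h1
      have h3 : iO C.ι (x ^ ℓ - x) = 0 - (iO C.ι x - iO C.ι x ^ ℓ) := by
        rw [map_sub, map_pow]; ring
      rw [h3]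
      exact nonunits_sub nonunits_zero h1
    set w := vF C hℓ hA with hw
    have hmax : (under K C.F w).asIdeal.IsMaximal := (under K C.F w).isMaximal
    have hmaxw : w.asIdeal.IsMaximal := w.isMaximal
    have h1 : Ideal.absNorm w.asIdeal = Ideal.absNorm (under K C.F w).asIdeal ^
        ((under K C.F w).asIdeal.inertiaDeg' w.asIdeal) :=
      Ideal.absNorm_eq_pow_inertiaDeg'_of_liesOver w.asIdeal (under K C.F w).asIdeal
        (under K C.F w).isPrime (under K C.F w).ne_bot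
    have hf : (under K C.F w).asIdeal.inertiaDeg' w.asIdeal = 1 := by
      rw [hNF] at h1
      have h2 : (Ideal.absNorm (under K C.F w).asIdeal ^
        ((under K C.F w).asIdeal.inertiaDeg' w.asIdeal)).Prime := by rw [← h1]; exact hℓ
      exact h2.eq_one_of_pow
    have he : (under K C.F w).asIdeal.ramificationIdx' w.asIdeal = 1 := C.unram w
    haveI : Finite (𝓞 K ⧸ (under K C.F w).asIdeal) :=
      Ideal.finiteQuotientOfFreeOfNeBot _ (under K C.F w).ne_bot
    have hmain := Ideal.ncard_primesOver_mul_ramificationIdxIn_mul_inertiaDegIn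
      (under K C.F w).asIdeal (𝓞 C.F) Gal(C.F/K)
    rw [Ideal.ramificationIdxIn_eq_ramificationIdx (under K C.F w).asIdeal w.asIdeal Gal(C.F/K),
      ← Ideal.ramificationIdx'_eq_ramificationIdx (under K C.F w).asIdeal w.asIdeal
        (under K C.F w).ne_bot, he,
      Ideal.inertiaDegIn_eq_inertiaDeg (under K C.F w).asIdeal w.asIdeal Gal(C.F/K),
      ← Ideal.inertiaDeg'_eq_inertiaDeg (under K C.F w).asIdeal w.asIdeal, hf, mul_one, mul_one,
      IsGalois.card_aut_eq_finrank] at hmain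
    exact hmain

end main

end Fermat.Agent.ZC
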