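import Fermat.Agent.CFT.OrdGal

/-!
# Completely split primes in the intermediate fields of an abelian extension
-/

set_option autoImplicit false
set_option linter.unusedSectionVars false
set_option linter.style.haveILetI false

open scoped Classical nonZeroDivisors Pointwise

namespace Fermat.Agent.ZC

open Module NumberField IsDedekindDomain Fermat.Agent.CFT

section

variable (K E F : Type*) [Field K] [NumberField K] [Field E] [NumberField E] [Field F]
  [NumberField F] [Algebra K E] [Algebra E F] [Algebra K F] [IsScalarTower K E F]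

theorem under_under (P : HeightOneSpectrum (𝓞 F)) : under K E (under E F P) = under K F P := by
  apply HeightOneSpectrum.ext
  change (P.asIdeal.under (𝓞 E)).under (𝓞 K) = P.asIdeal.under (𝓞 K)
  exact Ideal.under_under (A := 𝓞 K) (B := 𝓞 E) P.asIdeal

/-- automorphisms over `K` which are trivial on `E` -/
def fixE : Subgroup (F ≃ₐ[K] F) where
  carrier := {σ | ∀ x : E, σ (algebraMap E F x) = algebraMap E F x}
  one_mem' := fun _ => rfl
  mul_mem' := by
    intro σ τ hσ hτ x
    rw [AlgEquiv.mul_apply, hτ x, hσ x]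
  inv_mem' := by
    intro σ hσ x
    have h := congrArg (fun y => σ.symm y) (hσ x)
    simp only [AlgEquiv.symm_apply_apply] at h
    exact h.symm

variable {E} in
/-- an automorphism trivial on `E` as an automorphism over `E` -/
def toE (σ : F ≃ₐ[K] F) (hσ : σ ∈ fixE K E F) : F ≃ₐ[E] F :=
  { σ.toRingEquiv with commutes' := hσ }

/-- `fixE` is the Galois group of `F/E` -/
noncomputable def fixEquiv : fixE K E F ≃ (F ≃ₐ[E] F) where
  toFun σ := toE K F σ.1 σ.2
  invFun τ := ⟨τ.restrictScalars K, fun x => τ.commutes x⟩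
  left_inv σ := by
    apply Subtype.ext
    ext x
    rfl
  right_inv τ := by
    ext x
    rfl

theorem act_restrict (τ : F ≃ₐ[E] F) (P : HeightOneSpectrum (𝓞 F)) :
    act (τ.restrictScalars K) P = act τ P := by
  apply HeightOneSpectrum.ext
  change (τ.restrictScalars K) • P.asIdeal = τ • P.asIdeal
  ext x
  rw [Ideal.mem_pointwise_smul_iff_inv_smul_mem, Ideal.mem_pointwise_smul_iff_inv_smul_mem]
  have : (τ.restrictScalars K)⁻¹ • x = τ⁻¹ • x := by
    apply RingOfIntegers.ext
    rfl
  rw [this]

/-- decomposition group -/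
def dec (P : HeightOneSpectrum (𝓞 F)) : Subgroup (F ≃ₐ[K] F) where
  carrier := {σ | act σ P = P}
  one_mem' := act_one P
  mul_mem' := by
    intro σ τ hσ hτ
    change act (σ * τ) P = P
    rw [act_mul, show act τ P = P from hτ, show act σ P = P from hσ]
  inv_mem' := by
    intro σ hσ
    change act σ⁻¹ P = P
    have h : act σ P = P := hσ
    conv_lhs => rw [← h]
    rw [← act_mul, inv_mul_cancel, act_one]

theorem mem_dec {P : HeightOneSpectrum (𝓞 F)} {σ : F ≃ₐ[K] F} :
    σ ∈ dec K F P ↔ act σ P = P := Iff.rfl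

variable [IsGalois K F]

include K in
theorem isGalois_top' : IsGalois E F := IsGalois.tower_top_of_isGalois K E F

/-- **Splitting in an intermediate field** -/
theorem spl_iff (hcomm : ∀ σ τ : F ≃ₐ[K] F, σ * τ = τ * σ) (P : HeightOneSpectrum (𝓞 F)) :
    Spl K E (under K F P) ↔ dec K F P ≤ fixE K E F := by
  haveI := isGalois_top' K E F
  set Δ := fixE K E F with hΔ
  set D := dec K F P with hD
  have hnorm : ∀ H : Subgroup (F ≃ₐ[K] F), H.Normal := fun H =>
    ⟨fun n hn g => by rw [hcomm g n, mul_assoc, mul_inv_cancel, mul_one]; exact hn⟩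
  haveI := hnorm Δ
  haveI := hnorm D
  -- the map to the fibre
  let φ : (F ≃ₐ[K] F) → (under K E ⁻¹' {under K F P}) := fun σ =>
    ⟨under E F (act σ P), by
      rw [Set.mem_preimage, Set.mem_singleton_iff, under_under, under_act]⟩
  have hsurj : Function.Surjective φ := by
    rintro ⟨Q, hQ⟩
    rw [Set.mem_preimage, Set.mem_singleton_iff] at hQ
    obtain ⟨P', rfl⟩ := under_surjective (K := E) (F := F) Q
    rw [under_under] at hQ
    obtain ⟨σ, hσ⟩ := exists_act P P' hQ.symm
    exact ⟨σ, Subtype.ext (congrArg (under E F) hσ)⟩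
  have hφ : ∀ σ τ, φ σ = φ τ ↔ σ⁻¹ * τ ∈ Δ ⊔ D := by
    intro σ τ
    rw [Subgroup.mem_sup_of_normal_right]
    constructor
    · intro h
      have h1 : under E F (act σ P) = under E F (act τ P) := congrArg Subtype.val h
      obtain ⟨δ, hδ⟩ := exists_act (act σ P) (act τ P) h1
      refine ⟨δ.restrictScalars K, fun x => δ.commutes x, (δ.restrictScalars K)⁻¹ * (σ⁻¹ * τ),
        ?_, by rw [mul_inv_cancel_left]⟩
      rw [hD, mem_dec, act_mul, act_mul, ← hδ, ← act_restrict K E F, ← act_mul, ← act_mul, ← act_mul]
      rw [show (δ.restrictScalars K)⁻¹ * σ⁻¹ * δ.restrictScalars K * σ = 1 by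
        rw [mul_assoc, hcomm (δ.restrictScalars K) σ]; group, act_one]
    · rintro ⟨δ, hδ, d, hd, h⟩
      apply Subtype.ext
      change under E F (act σ P) = under E F (act τ P)
      have h1 : τ = δ * σ * d := by
        have : τ = σ * (δ * d) := by rw [h, mul_inv_cancel_left]
        rw [this, ← mul_assoc, hcomm σ δ]
      have h2 : δ = (toE K F δ hδ).restrictScalars K := by
        ext x
        rfl
      rw [h1, act_mul, show act d P = P from hd, act_mul, h2, act_restrict, under_act]
  have hcard : Nat.card (under K E ⁻¹' {under K F P}) = (Δ ⊔ D).index := by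
    rw [Subgroup.index]
    refine (Nat.card_congr ?_).symm
    refine Equiv.ofBijective (Quotient.lift φ ?_) ⟨?_, ?_⟩
    · intro σ τ h
      exact (hφ σ τ).mpr (QuotientGroup.leftRel_apply.mp h)
    · intro a b
      induction a using Quotient.inductionOn
      induction b using Quotient.inductionOn
      rename_i σ τ
      intro h
      exact Quotient.sound (QuotientGroup.leftRel_apply.mpr ((hφ σ τ).mp h))
    · intro Q
      obtain ⟨σ, hσ⟩ := hsurj Q
      exact ⟨Quotient.mk _ σ, hσ⟩
  have hfin : finrank K E = Δ.index := by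
    have h1 : finrank K E * finrank E F = finrank K F := finrank_mul_finrank K E F
    have h2 : Nat.card Δ = finrank E F := by
      rw [← IsGalois.card_aut_eq_finrank E F]
      exact Nat.card_congr (fixEquiv K E F)
    have h3 : Nat.card (F ≃ₐ[K] F) = finrank K F := IsGalois.card_aut_eq_finrank K F
    have h4 := Δ.card_mul_index
    rw [h2, h3, ← h1, mul_comm] at h4
    exact (Nat.eq_of_mul_eq_mul_right finrank_pos h4).symm
  rw [Spl, ← Nat.card_coe_set_eq, ← Nat.card_congr (fiberEquiv K E (under K F P)), hcard, hfin]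
  constructor
  · intro h
    have h1 : Δ ≤ Δ ⊔ D := le_sup_left
    have h2 : Δ.relIndex (Δ ⊔ D) = 1 := by
      have h3 := Subgroup.relIndex_mul_index h1
      rw [h] at h3
      have h4 : Δ.index ≠ 0 := Subgroup.index_ne_zero_of_finite
      exact Nat.eq_of_mul_eq_mul_right (Nat.pos_of_ne_zero h4) (by rw [h3, one_mul])
    rw [Subgroup.relIndex_eq_one] at h2
    exact le_sup_right.trans h2
  · intro h
    rw [sup_eq_left.mpr h]

end

end Fermat.Agent.ZC
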