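import Fermat.Agent.CFT.FirstIneq2
import Fermat.Agent.ZC.SplTower
import Fermat.Agent.ZC.Chain

/-!
# The degree of an unramified abelian extension of prime power degree divides the class number
-/

set_option autoImplicit false
set_option linter.unusedSectionVars false
set_option linter.style.haveILetI false

open scoped Classical nonZeroDivisors Topology

namespace Fermat.Agent.ZC

open NumberField Filter IsDedekindDomain Module Fermat.Agent.CFT Fermat.Agent.H03

section tower

variable {K E F : Type*} [Field K] [NumberField K] [Field E] [NumberField E] [Field F]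
  [NumberField F] [Algebra K E] [Algebra E F] [Algebra K F] [IsScalarTower K E F]

theorem exists_ordv_eq_one (v : HeightOneSpectrum (𝓞 K)) : ∃ x : Kˣ, ordv v x = 1 := by
  obtain ⟨π, hπ⟩ := v.intValuation_exists_uniformizer
  have hπ0 : (π : K) ≠ 0 := by
    intro h
    have : π = 0 := RingOfIntegers.ext h
    rw [this, map_zero] at hπ
    exact WithZero.exp_ne_zero hπ.symm
  refine ⟨Units.mk0 (π : K) hπ0, ?_⟩
  have h1 := valuation_eq v (Units.mk0 (π : K) hπ0)
  have h2 : v.valuation K ((Units.mk0 (π : K) hπ0 : Kˣ) : K) = v.intValuation π :=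
    v.valuation_of_algebraMap π
  rw [h2, hπ, WithZero.exp_inj] at h1
  omega

theorem ramE_tower (P : HeightOneSpectrum (𝓞 F)) :
    ramE K P = ramE E P * ramE K (under E F P) := by
  obtain ⟨x, hx⟩ := exists_ordv_eq_one (under K F P)
  have h1 := ordv_incl (K := K) P x
  have h2 := ordv_incl (K := E) P (incl K E x)
  have h3 := ordv_incl (K := K) (under E F P) x
  have h4 : incl E F (incl K E x) = incl K F x := by
    apply Units.ext
    rw [incl_coe, incl_coe, incl_coe, ← IsScalarTower.algebraMap_apply]
  rw [h4, h1, h3, under_under, hx, mul_one, mul_one] at h2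
  exact_mod_cast h2

theorem ramE_bot {P : HeightOneSpectrum (𝓞 F)} (h : ramE K P = 1) :
    ramE K (under E F P) = 1 := by
  rw [ramE_tower (E := E)] at h
  exact Nat.eq_one_of_mul_eq_one_left h

end tower

section main

variable {K F : Type} [Field K] [NumberField K] [Field F] [NumberField F] [Algebra K F]
  [IsGalois K F]

theorem fixE_fixedField (Δ : Subgroup (F ≃ₐ[K] F)) :
    fixE K (IntermediateField.fixedField Δ) F = Δ := by
  conv_rhs => rw [← IntermediateField.fixingSubgroup_fixedField Δ]
  ext σ
  rw [IntermediateField.mem_fixingSubgroup_iff]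
  constructor
  · intro h x hx
    exact h ⟨x, hx⟩
  · intro h x
    exact h x x.2

theorem finrank_fixedField' (Δ : Subgroup (F ≃ₐ[K] F)) :
    finrank K (IntermediateField.fixedField Δ) = Δ.index := by
  have h1 : finrank K (IntermediateField.fixedField Δ) * finrank (IntermediateField.fixedField Δ) F =
      finrank K F := finrank_mul_finrank K _ F
  have h2 : Nat.card Δ = finrank (IntermediateField.fixedField Δ) F :=
    (IntermediateField.finrank_fixedField_eq_card Δ).symm
  have h3 : Nat.card (F ≃ₐ[K] F) = finrank K F := IsGalois.card_aut_eq_finrank K F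
  have h4 := Δ.card_mul_index
  rw [h2, h3, ← h1, mul_comm] at h4
  exact (Nat.eq_of_mul_eq_mul_right finrank_pos h4).symm

variable [IsUnramifiedAtInfinitePlaces K F]

/-- **Unramified abelian extensions of prime power degree**: the degree divides the class
number. -/
theorem finrank_dvd_card_class (hcomm : ∀ σ τ : F ≃ₐ[K] F, σ * τ = τ * σ) (p n : ℕ)
    [hp : Fact p.Prime] (hn : finrank K F = p ^ n)
    (hunr : ∀ P : HeightOneSpectrum (𝓞 F), ramE K P = 1) :
    finrank K F ∣ Nat.card (ClassGroup (𝓞 K)) := by
  letI : CommGroup (F ≃ₐ[K] F) := { (inferInstance : Group (F ≃ₐ[K] F)) with mul_comm := hcomm }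
  have hcard : Nat.card (F ≃ₐ[K] F) = finrank K F := IsGalois.card_aut_eq_finrank K F
  rw [← hcard]
  choose P hP using fun v : HeightOneSpectrum (𝓞 K) => under_surjective (K := K) (F := F) v
  have hspl : ∀ (Δ : Subgroup (F ≃ₐ[K] F)) (v : HeightOneSpectrum (𝓞 K)),
      Spl K (IntermediateField.fixedField Δ) v ↔ dec K F (P v) ≤ Δ := by
    intro Δ v
    have h := spl_iff K (IntermediateField.fixedField Δ) F hcomm (P v)
    rwa [hP v, fixE_fixedField] at h
  refine card_dvd p (fun v => dec K F (P v)) (fun Δ => NCl K (IntermediateField.fixedField Δ))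
    ⟨n, by rw [hcard, hn]⟩ ?_ ?_ ?_ ?_
  · intro Δ hΔ
    set E := IntermediateField.fixedField Δ with hE
    haveI : IsUnramifiedAtInfinitePlaces K E := IsUnramifiedAtInfinitePlaces.bot K E F
    haveI : Δ.Normal := inferInstance
    haveI : IsGalois K E := IsGalois.of_fixedField_normal_subgroup Δ
    have hcyc : IsCyclic (E ≃ₐ[K] E) := isCyclic_of_surjective
      (IsGalois.normalAutEquivQuotient Δ) (IsGalois.normalAutEquivQuotient Δ).surjective
    obtain ⟨σ, hσ⟩ := hcyc.exists_generator
    have hfin : finrank K E = Δ.index := finrank_fixedField' Δ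
    obtain ⟨r, -, hr⟩ := (Nat.dvd_prime_pow hp.out).mp
      (show finrank K E ∣ p ^ n by
        rw [hfin, ← hn, ← hcard]
        exact Subgroup.index_dvd_card Δ)
    have h1 := index_NCl (F := E) σ hσ p r hr (by
      intro Q
      obtain ⟨P', rfl⟩ := under_surjective (K := E) (F := F) Q
      exact ramE_bot (hunr P'))
    rw [h1, hfin]
  · intro Δ hΔ v hv
    exact mem_NCl_of_spl v ((hspl Δ v).mpr hv)
  · intro Δ
    obtain ⟨C, hC⟩ := exists_upper (IntermediateField.fixedField Δ)
    refine ⟨C, ?_⟩
    filter_upwards [hC, eventually_Ioc] with s hs hs1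
    have h1 := split_le K (IntermediateField.fixedField Δ) hs1.1 hs1.2
    rw [finrank_fixedField'] at h1
    have h2 : (fun v => dec K F (P v) ≤ Δ) = Spl K (IntermediateField.fixedField Δ) := by
      funext v
      exact propext (hspl Δ v).symm
    rw [h2]
    linarith
  · intro Δ
    haveI : Δ.Normal := inferInstance
    haveI : IsGalois K (IntermediateField.fixedField Δ) := IsGalois.of_fixedField_normal_subgroup Δ
    obtain ⟨C, hC⟩ := exists_split_lower K (IntermediateField.fixedField Δ)
    refine ⟨C, ?_⟩
    filter_upwards [hC] with s hs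
    rw [finrank_fixedField'] at hs
    have h2 : (fun v => Deg1 K v ∧ dec K F (P v) ≤ Δ) =
        fun v => Deg1 K v ∧ Spl K (IntermediateField.fixedField Δ) v := by
      funext v
      rw [hspl Δ v]
    rw [h2]
    exact hs

end main

end Fermat.Agent.ZC
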