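import Fermat.Agent.ZC.GalForm
import Fermat.Agent.ZC.RayDens

/-!
# The cubic character of an unramified cyclic cubic extension
-/

set_option autoImplicit false
set_option linter.unusedSectionVars false
set_option linter.style.haveILetI false

open scoped Classical nonZeroDivisors Topology Pointwise

namespace Fermat.Agent.ZC

open NumberField IsDedekindDomain Module Fermat.Agent.CFT Fermat.Agent.S14Lib Fermat.Agent.H05
open Fermat.Agent.H09

local notation "Ω" => AlgebraicClosure ℚ
local notation "GQ" => (AlgebraicClosure ℚ ≃ₐ[ℚ] AlgebraicClosure ℚ)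

section gal

variable (K : IntermediateField ℚ Ω) [NumberField K]

/-- the field cut out by a normal subgroup `W` of `GQ` contained in `Gal(K)` -/
structure Cut (W : Subgroup GQ) where
  /-- the field -/
  F : Type
  [fieldF : Field F]
  [nfF : NumberField F]
  [algF : Algebra K F]
  [galF : IsGalois K F]
  /-- the inclusion -/
  ι : F →+* Ω
  ι_alg : ∀ x : K, ι (algebraMap K F x) = (x : Ω)
  /-- restriction -/
  r : K.fixingSubgroup →* (F ≃ₐ[K] F)
  r_apply : ∀ σ x, ι (r σ x) = σ.1 (ι x)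
  r_surj : Function.Surjective r
  r_ker : ∀ σ, r σ = 1 ↔ σ.1 ∈ W
  card : Nat.card (F ≃ₐ[K] F) = W.relIndex K.fixingSubgroup
  unram : ∀ P : HeightOneSpectrum (𝓞 F), ramE K P = 1
  exists_place : ∀ (P : Ideal (𝓞 F)) [P.IsPrime] {ℓ : ℕ}, ℓ.Prime → (ℓ : 𝓞 F) ∈ P →
    ∃ A : ValuationSubring Ω, A.LiesOverPrime ℓ ∧ ∀ x : 𝓞 F, x ∈ P ↔ ι (x : F) ∈ A.nonunits

theorem exists_cut (W : Subgroup GQ) [W.Normal] (hWo : IsOpen (W : Set GQ))
    (hWK : W ≤ K.fixingSubgroup)
    (hI : ∀ ℓ : ℕ, ℓ.Prime → ∀ A : ValuationSubring Ω, A.LiesOverPrime ℓ →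
      A.inertiaSubgroupIn ℚ ⊓ K.fixingSubgroup ≤ W) : Nonempty (Cut K W) := by
  obtain ⟨hnf, hgal, hmem⟩ := fixedField_facts W hWo
  set F : IntermediateField ℚ Ω := IntermediateField.fixedField W with hF
  haveI := hnf
  haveI := hgal
  have hKF : K ≤ F := by
    intro x hx
    rw [hF, IntermediateField.mem_fixedField_iff]
    intro g hg
    exact (IntermediateField.mem_fixingSubgroup_iff _ _).mp (hWK hg) x hx
  letI : Algebra K F := (IntermediateField.inclusion hKF).toAlgebra
  haveI : IsScalarTower ℚ K F := IsScalarTower.of_algebraMap_eq fun x => rfl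
  haveI : IsGalois K F := IsGalois.tower_top_of_isGalois ℚ K F
  have halg : ∀ x : K, ((algebraMap K F x : F) : Ω) = (x : Ω) := fun x => rfl
  -- restriction
  have hres : ∀ σ : K.fixingSubgroup, ∃ τ : F ≃ₐ[K] F, ∀ x : F, ((τ x : F) : Ω) = σ.1 (x : Ω) := by
    intro σ
    obtain ⟨τ, hτ⟩ := exists_restrict F σ.1
    refine ⟨{ τ.toRingEquiv with commutes' := fun x => ?_ }, hτ⟩
    apply Subtype.ext
    refine (hτ (algebraMap K F x)).trans ?_
    rw [halg]
    exact (IntermediateField.mem_fixingSubgroup_iff _ _).mp σ.2 x x.2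
  choose r hr using hres
  have hlift : ∀ τ : F ≃ₐ[K] F, ∃ σ : K.fixingSubgroup, ∀ x : F, σ.1 (x : Ω) = ((τ x : F) : Ω) := by
    intro τ
    obtain ⟨σ, hσ⟩ := S14Lib.exists_lift F (τ.restrictScalars ℚ)
    refine ⟨⟨σ, ?_⟩, hσ⟩
    rw [IntermediateField.mem_fixingSubgroup_iff]
    intro x hx
    have h1 := hσ (algebraMap K F ⟨x, hx⟩)
    rw [halg] at h1
    rw [h1]
    change ((τ (algebraMap K F ⟨x, hx⟩) : F) : Ω) = x
    rw [τ.commutes, halg]
  have hsurj : Function.Surjective r := by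
    intro τ
    obtain ⟨σ, hσ⟩ := hlift τ
    refine ⟨σ, ?_⟩
    ext x
    rw [hr, hσ]
  have hrW : ∀ σ τ : K.fixingSubgroup, r σ = r τ ↔ σ.1⁻¹ * τ.1 ∈ W := by
    intro σ τ
    rw [hmem]
    constructor
    · intro h x hx
      have h1 := hr σ ⟨x, hx⟩
      have h2 := hr τ ⟨x, hx⟩
      rw [h, h2] at h1
      change σ.1.symm (τ.1 x) = x
      rw [show τ.1 x = σ.1 x from h1, AlgEquiv.symm_apply_apply]
    · intro h
      ext x
      rw [hr, hr]
      have h1 := h x x.2
      change σ.1.symm (τ.1 x) = x at h1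
      have h2 := congrArg σ.1 h1
      rw [AlgEquiv.apply_symm_apply] at h2
      exact h2.symm
  have hcard : Nat.card (F ≃ₐ[K] F) = W.relIndex K.fixingSubgroup := by
    rw [Subgroup.relIndex, Subgroup.index]
    refine (Nat.card_congr ?_).symm
    refine Equiv.ofBijective (Quotient.lift r ?_) ⟨?_, ?_⟩
    · intro σ τ h
      have h' : σ⁻¹ * τ ∈ W.subgroupOf K.fixingSubgroup := QuotientGroup.leftRel_apply.mp h
      exact (hrW σ τ).mpr h'
    · intro a b
      induction a using Quotient.inductionOn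
      induction b using Quotient.inductionOn
      rename_i σ τ
      intro h
      have h' : σ⁻¹ * τ ∈ W.subgroupOf K.fixingSubgroup := (hrW σ τ).mp h
      exact Quotient.sound (QuotientGroup.leftRel_apply.mpr h')
    · intro Q
      obtain ⟨σ, hσ⟩ := hsurj Q
      exact ⟨Quotient.mk _ σ, hσ⟩
  have hr_mul : ∀ σ τ : K.fixingSubgroup, r (σ * τ) = r σ * r τ := by
    intro σ τ
    ext x
    rw [hr]
    change σ.1 (τ.1 x) = ((r σ (r τ x) : F) : Ω)
    rw [hr, hr]
  have hr_one : r 1 = 1 := by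
    ext x
    rw [hr]
    rfl
  have hunr : ∀ P : HeightOneSpectrum (𝓞 F), ramE K P = 1 := by
    intro P
    rw [ramE_eq_card_inertia]
    haveI := P.isPrime
    -- the rational prime below
    obtain ⟨ℓ, hℓ, hℓP⟩ : ∃ ℓ : ℕ, ℓ.Prime ∧ (ℓ : 𝓞 F) ∈ P.asIdeal := by
      have h1 : Ideal.absNorm P.asIdeal ≠ 0 := by
        rw [Ne, Ideal.absNorm_eq_zero_iff]
        exact P.ne_bot
      have h2 : ((Ideal.absNorm P.asIdeal : ℕ) : 𝓞 F) ∈ P.asIdeal := Ideal.absNorm_mem _
      have h3 : Ideal.absNorm P.asIdeal ≠ 1 := by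
        rw [Ne, Ideal.absNorm_eq_one_iff]
        exact P.isPrime.ne_top
      clear h3
      generalize Ideal.absNorm P.asIdeal = m at h1 h2
      induction m using Nat.recOnMul with
      | zero => exact absurd rfl h1
      | one =>
        rw [Nat.cast_one] at h2
        exact absurd ((Ideal.eq_top_iff_one _).mpr h2) P.isPrime.ne_top
      | prime ℓ hℓ => exact ⟨ℓ, hℓ, h2⟩
      | mul a b iha ihb =>
        rw [Nat.cast_mul] at h2
        rcases P.isPrime.mem_or_mem h2 with h | h
        · exact iha (left_ne_zero_of_mul h1) h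
        · exact ihb (right_ne_zero_of_mul h1) h
    obtain ⟨A, hA, hAP⟩ := exists_place F P.asIdeal hℓ hℓP
    rw [Nat.card_eq_one_iff_unique]
    refine ⟨⟨fun a b => ?_⟩, ⟨1⟩⟩
    have key : ∀ τ : P.asIdeal.inertia Gal(F/K), τ = 1 := by
      rintro ⟨τ, hτ⟩
      apply Subtype.ext
      change τ = 1
      obtain ⟨σ, hσ⟩ := hlift τ
      obtain ⟨h, hh, hi⟩ := lift_inertia W hWo hℓ hA σ.1 (by
        intro x y hxy
        have h1 : y = τ • x := by
          apply RingOfIntegers.ext
          apply Subtype.ext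
          change ((y : F) : Ω) = ((τ (x : F) : F) : Ω)
          rw [hxy, hσ]
        have h2 : y - x ∈ P.asIdeal := by
          rw [h1]
          exact hτ x
        rw [← hAP] at h2
        exact h2)
      have h1 : h * σ.1 ∈ K.fixingSubgroup := K.fixingSubgroup.mul_mem (hWK hh) σ.2
      have h2 := hI ℓ hℓ A hA ⟨hi, h1⟩
      have h3 : σ.1 ∈ W := by
        have := W.mul_mem (W.inv_mem hh) h2
        rwa [inv_mul_cancel_left] at this
      ext x
      rw [← hσ]
      exact (hmem σ.1).mp h3 x x.2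
    rw [key a, key b]
  exact ⟨{
    F := F
    ι := algebraMap F Ω
    ι_alg := fun x => rfl
    r := { toFun := r, map_one' := hr_one, map_mul' := hr_mul }
    r_apply := hr
    r_surj := hsurj
    r_ker := fun σ => by
      have h1 := hrW σ 1
      change r σ = 1 ↔ _
      rw [hr_one] at h1
      rw [h1]
      simp
    card := hcard
    unram := hunr
    exists_place := fun P _ ℓ hℓ hℓP => by
      obtain ⟨A, hA, hAP⟩ := S14Lib.exists_place F P hℓ hℓP
      refine ⟨A, hA, fun x => ?_⟩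
      rw [← hAP, Ideal.mem_comap, H05.mem_center_iff]
      rfl }⟩

end gal

end Fermat.Agent.ZC
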