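import Fermat.Agent.ZC.PlaceSpl
import Fermat.Agent.ZC.ChebBdd
import Fermat.Agent.ZC.AbelBound

/-!
# The cubic class group character
-/

set_option autoImplicit false
set_option linter.unusedSectionVars false
set_option linter.style.haveILetI false

open scoped Classical nonZeroDivisors Topology Pointwise

namespace Fermat.Agent.ZC

open NumberField IsDedekindDomain Module Fermat.Agent.CFT Filter Fermat.Agent.H03

local notation "Ω" => AlgebraicClosure ℚ
local notation "GQ" => (AlgebraicClosure ℚ ≃ₐ[ℚ] AlgebraicClosure ℚ)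

/-- the class group character attached to `W` -/
structure CubChar (K : IntermediateField ℚ Ω) [NumberField K] (W : Subgroup GQ) where
  /-- the character -/
  ψ : ClassGroup (𝓞 K) →* ℂˣ
  ψ_pow : ∀ c, ψ c ^ 3 = 1
  ψ_ne : ψ ≠ 1
  /-- the exceptional set -/
  T : Set ℕ
  bdd : BddQ T
  frob : ∀ {ℓ : ℕ} (hℓ : ℓ.Prime), ℓ ∉ T → ∀ {A : ValuationSubring Ω} (hA : A.LiesOverPrime ℓ)
    {φ : GQ}, A.IsFrobeniusAt φ ℓ → φ ∈ K.fixingSubgroup →
      (ψ (clv (vK K hℓ hA)) = 1 ↔ φ ∈ W)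

/-- a character of order three with given kernel -/
theorem exists_char_of_index_three {G : Type*} [CommGroup G] [Finite G] (N : Subgroup G)
    (hN : N.index = 3) : ∃ ψ : G →* ℂˣ, (∀ c, ψ c ^ 3 = 1) ∧ ψ ≠ 1 ∧ ∀ c, ψ c = 1 ↔ c ∈ N := by
  have hcard : Nat.card (G ⧸ N) = 3 := hN
  haveI : Fact (Nat.Prime 3) := ⟨Nat.prime_three⟩
  haveI : Finite (G ⧸ N) := inferInstance
  haveI : Nontrivial (G ⧸ N) := Finite.one_lt_card_iff_nontrivial.mp (by rw [hcard]; norm_num)
  obtain ⟨x, hx⟩ := exists_ne (1 : G ⧸ N)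
  obtain ⟨φ, hφ⟩ := CommGroup.exists_apply_ne_one_of_hasEnoughRootsOfUnity (G ⧸ N) ℂ hx
  have hbot : φ.ker = ⊥ := by
    haveI := isSimpleGroup_of_prime_card hcard
    haveI : φ.ker.Normal := inferInstance
    rcases Subgroup.Normal.eq_bot_or_eq_top (H := φ.ker) inferInstance with h | h
    · exact h
    · exact absurd (show x ∈ φ.ker by rw [h]; trivial) hφ
  refine ⟨φ.comp (QuotientGroup.mk' N), ?_, ?_, ?_⟩
  · intro c
    change φ (QuotientGroup.mk' N c) ^ 3 = 1
    rw [← map_pow, ← hcard, pow_card_eq_one', map_one]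
  · intro h
    obtain ⟨y, rfl⟩ := QuotientGroup.mk'_surjective N x
    exact hφ (DFunLike.congr_fun h y)
  · intro c
    change φ (QuotientGroup.mk' N c) = 1 ↔ _
    rw [← MonoidHom.mem_ker, hbot, Subgroup.mem_bot]
    exact QuotientGroup.eq_one_iff c

section gen

variable {K F : Type} [Field K] [NumberField K] [Field F] [NumberField F] [Algebra K F]
  [IsGalois K F]

/-- primes of the norm group split, up to a set with bounded Dirichlet sum -/
theorem bdd_NCl (hidx : (NCl K F).index = finrank K F) :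
    Bdd1 K fun v => clv v ∈ NCl K F ∧ ¬ (Deg1 K v ∧ Spl K F v) := by
  obtain ⟨C, hC⟩ := exists_upper_class (NCl K F)
  obtain ⟨C', hC'⟩ := exists_split_lower K F
  have hi : (0 : ℝ) < finrank K F := by exact_mod_cast finrank_pos
  refine ⟨(C + C') / finrank K F, ?_⟩
  filter_upwards [hC, hC', eventually_Ioc] with s hs hs' hs1
  rw [hidx] at hs
  have h3 := psum_add_le hs1.1 hs1.2 (K := K) (P := fun v => Deg1 K v ∧ Spl K F v)
    (Q := fun v => clv v ∈ NCl K F ∧ ¬ (Deg1 K v ∧ Spl K F v)) (R := fun v => clv v ∈ NCl K F)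
    (fun v hv => mem_NCl_of_spl v hv.2) (fun v hv => hv.1) (fun v hv hv' => hv'.2 hv)
  rw [le_div_iff₀ hi]
  nlinarith

end gen

attribute [local instance] Cut.fieldF Cut.nfF Cut.algF Cut.galF

/-- **The cubic character** -/
theorem exists_cubChar (K : IntermediateField ℚ Ω) [NumberField K]
    (hK : ∀ w : InfinitePlace K, w.IsComplex) (W : Subgroup GQ) [W.Normal]
    (hWo : IsOpen (W : Set GQ)) (hWK : W ≤ K.fixingSubgroup)
    (hI : ∀ ℓ : ℕ, ℓ.Prime → ∀ A : ValuationSubring Ω, A.LiesOverPrime ℓ →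
      A.inertiaSubgroupIn ℚ ⊓ K.fixingSubgroup ≤ W)
    (h3 : W.relIndex K.fixingSubgroup = 3) : Nonempty (CubChar K W) := by
  obtain ⟨C⟩ := exists_cut K W hWo hWK hI
  haveI : IsUnramifiedAtInfinitePlaces K C.F := isUnramifiedAtInfinitePlaces_of_complex K C.F hK
  haveI : Fact (Nat.Prime 3) := ⟨Nat.prime_three⟩
  have hcard : Nat.card (C.F ≃ₐ[K] C.F) = 3 := C.card.trans h3
  have hfin : finrank K C.F = 3 := by rw [← IsGalois.card_aut_eq_finrank, hcard]
  haveI hcyc : IsCyclic (C.F ≃ₐ[K] C.F) := isCyclic_of_prime_card hcard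
  obtain ⟨σ, hσ⟩ := hcyc.exists_generator
  have hidx := index_NCl (F := C.F) σ hσ 3 1 (by rw [hfin, pow_one]) C.unram
  obtain ⟨ψ, h1, h2, h4⟩ := exists_char_of_index_three (NCl K C.F) (hidx.trans hfin)
  refine ⟨⟨ψ, h1, h2, _, bddQ_of_bdd1 (bdd_NCl hidx), ?_⟩⟩
  intro ℓ hℓ hℓT A hA φ hφ hφK
  rw [h4, ← spl_iff_frob hℓ hA C hφ hφK]
  constructor
  · intro h
    by_contra hcon
    exact hℓT ⟨vK K hℓ hA, ⟨h, fun h' => hcon h'.2⟩, norm_vK hℓ hA hφ hφK⟩
  · intro h
    exact mem_NCl_of_spl _ h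

end Fermat.Agent.ZC
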