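import Mathlib

/-!
# Finite abelian groups: odd closure, squares, extension of characters
-/

set_option autoImplicit false
set_option linter.unusedSectionVars false
set_option linter.style.haveILetI false

namespace Fermat.Agent.ZC

section

variable {Γ : Type*} [CommGroup Γ]

/-- elements having an odd power in `A` -/
def oddCl (A : Subgroup Γ) : Subgroup Γ where
  carrier := {c | ∃ m : ℕ, Odd m ∧ c ^ m ∈ A}
  one_mem' := ⟨1, odd_one, by rw [one_pow]; exact A.one_mem⟩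
  mul_mem' := by
    rintro a b ⟨m, hm, ha⟩ ⟨n, hn, hb⟩
    refine ⟨m * n, hm.mul hn, ?_⟩
    rw [mul_pow, pow_mul, mul_comm m n, pow_mul]
    exact A.mul_mem (A.pow_mem ha _) (A.pow_mem hb _)
  inv_mem' := by
    rintro a ⟨m, hm, ha⟩
    exact ⟨m, hm, by rw [inv_pow]; exact A.inv_mem ha⟩

theorem mem_oddCl {A : Subgroup Γ} {c : Γ} : c ∈ oddCl A ↔ ∃ m : ℕ, Odd m ∧ c ^ m ∈ A := Iff.rfl

theorem le_oddCl (A : Subgroup Γ) : A ≤ oddCl A := fun a ha => ⟨1, odd_one, by rwa [pow_one]⟩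

variable [Finite Γ]

theorem isPGroup_quot_oddCl (A : Subgroup Γ) : IsPGroup 2 (Γ ⧸ oddCl A) := by
  intro c
  obtain ⟨c, rfl⟩ := QuotientGroup.mk_surjective c
  obtain ⟨r, m, hm, h⟩ := Nat.exists_eq_two_pow_mul_odd (n := Nat.card Γ) Nat.card_pos.ne'
  refine ⟨r, ?_⟩
  rw [← QuotientGroup.mk_pow, QuotientGroup.eq_one_iff]
  refine ⟨m, hm, ?_⟩
  rw [← pow_mul, ← h, pow_card_eq_one']
  exact A.one_mem

theorem odd_relIndex_oddCl (A : Subgroup Γ) : Odd (A.relIndex (oddCl A)) := by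
  rw [← Nat.not_even_iff_odd, even_iff_two_dvd]
  intro h
  haveI : Fact (Nat.Prime 2) := ⟨Nat.prime_two⟩
  rw [Subgroup.relIndex, Subgroup.index_eq_card] at h
  obtain ⟨x, hx⟩ := exists_prime_orderOf_dvd_card' (G := (oddCl A) ⧸ A.subgroupOf (oddCl A)) 2 h
  obtain ⟨⟨c, m, hm, hc⟩, rfl⟩ := QuotientGroup.mk_surjective x
  have h1 : ((QuotientGroup.mk (⟨c, m, hm, hc⟩ : oddCl A) :
      (oddCl A) ⧸ A.subgroupOf (oddCl A))) ^ m = 1 := by
    rw [← QuotientGroup.mk_pow, QuotientGroup.eq_one_iff, Subgroup.mem_subgroupOf]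
    exact hc
  have h2 := orderOf_dvd_of_pow_eq_one h1
  rw [hx] at h2
  exact (Nat.not_even_iff_odd.mpr hm) (even_iff_two_dvd.mpr h2)

/-- the index of the odd closure is the two-part of the index -/
theorem index_oddCl (A : Subgroup Γ) : (oddCl A).index = 2 ^ padicValNat 2 A.index := by
  haveI : Fact (Nat.Prime 2) := ⟨Nat.prime_two⟩
  obtain ⟨s, hs⟩ := IsPGroup.iff_card.mp (isPGroup_quot_oddCl A)
  rw [← Subgroup.index_eq_card] at hs
  have h1 := Subgroup.relIndex_mul_index (le_oddCl A)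
  have h2 := odd_relIndex_oddCl A
  rw [← h1, hs, padicValNat.mul h2.pos.ne' (by positivity), padicValNat.prime_pow,
    padicValNat.eq_zero_of_not_dvd, zero_add]
  intro h
  exact (Nat.not_even_iff_odd.mpr h2) (even_iff_two_dvd.mpr h)

/-- the squares -/
def Sq (U : Type*) [CommGroup U] : Subgroup U := (powMonoidHom 2 : U →* U).range

theorem mem_Sq {U : Type*} [CommGroup U] {u : U} : u ∈ Sq U ↔ ∃ v, v ^ 2 = u := Iff.rfl

theorem index_Sq (U : Type*) [CommGroup U] [Finite U] :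
    (Sq U).index = Nat.card {u : U // u ^ 2 = 1} := by
  have h1 : Nat.card {u : U // u ^ 2 = 1} = Nat.card (powMonoidHom 2 : U →* U).ker := rfl
  rw [h1]
  have h2 := (powMonoidHom 2 : U →* U).ker.card_mul_index
  have h3 := (Sq U).card_mul_index
  have h4 : (powMonoidHom 2 : U →* U).ker.index = Nat.card (Sq U) := by
    rw [Subgroup.index_ker]; rfl
  rw [h4] at h2
  have h5 : 0 < Nat.card (Sq U) := Nat.card_pos
  apply Nat.eq_of_mul_eq_mul_left h5
  rw [h3, ← h2, mul_comm]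

end

section ext

variable {U Γ : Type*} [CommGroup U] [CommGroup Γ] [Finite Γ]

/-- extension of characters along a homomorphism -/
theorem exists_ext (α : U →* Γ) (ξ : U →* ℂˣ) (h : α.ker ≤ ξ.ker) :
    ∃ χ : Γ →* ℂˣ, χ.comp α = ξ := by
  have hsurj : Function.Surjective α.rangeRestrict := α.rangeRestrict_surjective
  have hk : α.rangeRestrict.ker ≤ ξ.ker := by
    rw [MonoidHom.ker_rangeRestrict]; exact h
  let φ : α.range →* ℂˣ := α.rangeRestrict.liftOfSurjective hsurj ⟨ξ, hk⟩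
  obtain ⟨χ, hχ⟩ := MonoidHom.domRestrict_surjective (G := Γ) (M := ℂ) α.range φ
  refine ⟨χ, ?_⟩
  ext u : 1
  have h1 : χ (α u) = φ ⟨α u, u, rfl⟩ := by
    rw [← hχ]; rfl
  rw [MonoidHom.comp_apply, h1]
  exact MonoidHom.liftOfRightInverse_comp_apply α.rangeRestrict _
    (Function.rightInverse_surjInv hsurj) ⟨ξ, hk⟩ u

/-- extension of a character of order four to a character of two-power order -/
theorem exists_ext_two (α : U →* Γ) (ξ : U →* ℂˣ) (h : α.ker ≤ ξ.ker) (h4 : ∀ u, ξ u ^ 4 = 1) :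
    ∃ (χ : Γ →* ℂˣ) (r : ℕ), χ.comp α = ξ ∧ ∀ c, χ c ^ (2 ^ r) = 1 := by
  obtain ⟨χ, hχ⟩ := exists_ext α ξ h
  obtain ⟨r, m, hm, hc⟩ := Nat.exists_eq_two_pow_mul_odd (n := Nat.card Γ) Nat.card_pos.ne'
  refine ⟨χ ^ (m * m), r, ?_, fun c => ?_⟩
  · ext u : 1
    have h1 : (χ ^ (m * m)) (α u) = ξ u ^ (m * m) := by
      rw [MonoidHom.pow_apply, ← hχ]; rfl
    rw [MonoidHom.comp_apply, h1]
    obtain ⟨k, hk⟩ := hm
    have h2 : m * m = 4 * (k * k + k) + 1 := by rw [hk]; ring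
    rw [h2, pow_succ, pow_mul, h4, one_pow, one_mul]
  · rw [MonoidHom.pow_apply, ← pow_mul, mul_assoc, mul_comm m (2 ^ r), ← hc, mul_comm, pow_mul,
      ← map_pow, pow_card_eq_one', map_one, one_pow]

end ext

section field

variable {F : Type*} [Field F] [Finite F]

/-- a quadratic character of the units of a finite field is trivial or equal to any given
nontrivial quadratic character -/
theorem quad_char (ε η : Fˣ →* ℂˣ) (hε : ∀ u, ε u ^ 2 = 1) (hη : ∀ u, η u ^ 2 = 1)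
    (hη1 : η ≠ 1) : ε = 1 ∨ ε = η := by
  obtain ⟨g, hg⟩ := IsCyclic.exists_generator (α := Fˣ)
  have hval : ∀ z : ℂˣ, z ^ 2 = 1 → z = 1 ∨ z = -1 := by
    intro z hz
    have h1 : (z : ℂ) ^ 2 = 1 := by rw [← Units.val_pow_eq_pow_val, hz, Units.val_one]
    rcases sq_eq_one_iff.mp h1 with h | h
    · exact Or.inl (Units.ext h)
    · exact Or.inr (Units.ext (by rw [h]; rfl))
  have hext : ∀ a b : Fˣ →* ℂˣ, a g = b g → a = b := by
    intro a b hab
    ext u : 1
    obtain ⟨n, rfl⟩ := hg u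
    simp only [map_zpow, hab]
  have hηg : η g = -1 := by
    rcases hval _ (hη g) with h | h
    · exact absurd (hext η 1 (by rw [h]; rfl)) hη1
    · exact h
  rcases hval _ (hε g) with h | h
  · exact Or.inl (hext ε 1 (by rw [h]; rfl))
  · exact Or.inr (hext ε η (by rw [h, hηg]))

end field

end Fermat.Agent.ZC
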