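import Fermat.Agent.ZC.AbelBound
import Fermat.Agent.S14Lib.Bridge3

/-!
# Unramified abelian `p`-extensions in terms of the absolute Galois group
-/

set_option autoImplicit false
set_option linter.unusedSectionVars false
set_option linter.style.haveILetI false

open scoped Classical nonZeroDivisors Topology Pointwise

namespace Fermat.Agent.ZC

open NumberField IsDedekindDomain Module Fermat.Agent.CFT Fermat.Agent.S14Lib Fermat.Agent.H05
open Fermat.Agent.H09

section inert

variable {K F : Type} [Field K] [NumberField K] [Field F] [NumberField F] [Algebra K F]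
  [IsGalois K F]

/-- the ramification index is the order of the inertia group -/
theorem ramE_eq_card_inertia (P : HeightOneSpectrum (𝓞 F)) :
    ramE K P = Nat.card (P.asIdeal.inertia Gal(F/K)) := by
  haveI : (under K F P).asIdeal.IsMaximal := (under K F P).isMaximal
  haveI : P.asIdeal.IsMaximal := P.isMaximal
  haveI := P.isPrime
  haveI : Finite (𝓞 K ⧸ (under K F P).asIdeal) :=
    Ideal.finiteQuotientOfFreeOfNeBot _ (under K F P).ne_bot
  haveI : Finite (under K F P).asIdeal.ResidueField :=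
    Finite.of_surjective (algebraMap (𝓞 K ⧸ (under K F P).asIdeal) _)
      (IsFractionRing.surjective_iff_isField.mpr
        ((Ideal.Quotient.maximal_ideal_iff_isField_quotient _).mp inferInstance))
  rw [Ideal.card_inertia_eq_ramificationIdxIn (G := Gal(F/K)) (under K F P).asIdeal P.asIdeal,
    Ideal.ramificationIdxIn_eq_ramificationIdx (under K F P).asIdeal P.asIdeal Gal(F/K), ramE,
    Ideal.ramificationIdx'_eq_ramificationIdx (under K F P).asIdeal P.asIdeal
      (under K F P).ne_bot]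

end inert

local notation "Ω" => AlgebraicClosure ℚ
local notation "GQ" => (AlgebraicClosure ℚ ≃ₐ[ℚ] AlgebraicClosure ℚ)

/-- a totally complex field has unramified infinite places in all extensions -/
theorem isUnramifiedAtInfinitePlaces_of_complex (K F : Type*) [Field K] [Field F] [Algebra K F]
    [NumberField K] (h : ∀ w : InfinitePlace K, w.IsComplex) : IsUnramifiedAtInfinitePlaces K F where
  isUnramified w := InfinitePlace.isUnramified_iff.mpr (Or.inr (h _))

section gal

variable (K : IntermediateField ℚ Ω) [NumberField K]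


/-- **The Galois form.** `K ≤ F` number fields, `F` Galois over `ℚ`, abelian over `K`, of prime
power degree, unramified. -/
theorem relIndex_dvd (W : Subgroup GQ) [W.Normal] (hWo : IsOpen (W : Set GQ))
    (hWK : W ≤ K.fixingSubgroup) (hK : ∀ w : InfinitePlace K, w.IsComplex)
    (hI : ∀ ℓ : ℕ, ℓ.Prime → ∀ A : ValuationSubring Ω, A.LiesOverPrime ℓ →
      A.inertiaSubgroupIn ℚ ⊓ K.fixingSubgroup ≤ W)
    (hc : ∀ a ∈ K.fixingSubgroup, ∀ b ∈ K.fixingSubgroup, a * b * a⁻¹ * b⁻¹ ∈ W)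
    (p : ℕ) [hp : Fact p.Prime]
    (hpw : ∀ a ∈ K.fixingSubgroup, ∃ n : ℕ, a ^ (p ^ n) ∈ W) :
    ∃ n, W.relIndex K.fixingSubgroup = p ^ n ∧ p ^ n ∣ Nat.card (ClassGroup (𝓞 K)) := by
  obtain ⟨hnf, hgal, hmem⟩ := fixedField_facts W hWo
  set F : IntermediateField ℚ Ω := IntermediateField.fixedField W with hF
  haveI := hnf
  haveI := hgal
  have hKF : K ≤ F := by
    intro x hx
    rw [hF, IntermediateField.mem_fixedField_iff]
    intro g hg
    exact (IntermediateField.mem_fixingSubgroup_iff _ _).mp (hWK hg) x hx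
  letI : Algebra K F := (IntermediateField.inclusion hKF).toAlgebra
  haveI : IsScalarTower ℚ K F := IsScalarTower.of_algebraMap_eq fun x => rfl
  haveI : IsGalois K F := IsGalois.tower_top_of_isGalois ℚ K F
  haveI : IsUnramifiedAtInfinitePlaces K F := isUnramifiedAtInfinitePlaces_of_complex K F hK
  have halg : ∀ x : K, ((algebraMap K F x : F) : Ω) = (x : Ω) := fun x => rfl
  -- restriction
  have hres : ∀ σ : K.fixingSubgroup, ∃ τ : F ≃ₐ[K] F, ∀ x : F, ((τ x : F) : Ω) = σ.1 (x : Ω) := by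
    intro σ
    obtain ⟨τ, hτ⟩ := exists_restrict F σ.1
    refine ⟨{ τ.toRingEquiv with commutes' := fun x => ?_ }, hτ⟩
    apply Subtype.ext
    refine (hτ (algebraMap K F x)).trans ?_
    rw [halg]
    exact (IntermediateField.mem_fixingSubgroup_iff _ _).mp σ.2 x x.2
  choose r hr using hres
  have hlift : ∀ τ : F ≃ₐ[K] F, ∃ σ : K.fixingSubgroup, ∀ x : F, σ.1 (x : Ω) = ((τ x : F) : Ω) := by
    intro τ
    obtain ⟨σ, hσ⟩ := exists_lift F (τ.restrictScalars ℚ)
    refine ⟨⟨σ, ?_⟩, hσ⟩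
    rw [IntermediateField.mem_fixingSubgroup_iff]
    intro x hx
    have h1 := hσ (algebraMap K F ⟨x, hx⟩)
    rw [halg] at h1
    rw [h1]
    change ((τ (algebraMap K F ⟨x, hx⟩) : F) : Ω) = x
    rw [τ.commutes, halg]
  have hsurj : Function.Surjective r := by
    intro τ
    obtain ⟨σ, hσ⟩ := hlift τ
    refine ⟨σ, ?_⟩
    ext x
    rw [hr, hσ]
  have hrW : ∀ σ τ : K.fixingSubgroup, r σ = r τ ↔ σ.1⁻¹ * τ.1 ∈ W := by
    intro σ τ
    rw [hmem]
    constructor
    · intro h x hx
      have h1 := hr σ ⟨x, hx⟩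
      have h2 := hr τ ⟨x, hx⟩
      rw [h, h2] at h1
      change σ.1.symm (τ.1 x) = x
      rw [show τ.1 x = σ.1 x from h1, AlgEquiv.symm_apply_apply]
    · intro h
      ext x
      rw [hr, hr]
      have h1 := h x x.2
      change σ.1.symm (τ.1 x) = x at h1
      have h2 := congrArg σ.1 h1
      rw [AlgEquiv.apply_symm_apply] at h2
      exact h2.symm
  have hcard : Nat.card (F ≃ₐ[K] F) = W.relIndex K.fixingSubgroup := by
    rw [Subgroup.relIndex, Subgroup.index]
    refine (Nat.card_congr ?_).symm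
    refine Equiv.ofBijective (Quotient.lift r ?_) ⟨?_, ?_⟩
    · intro σ τ h
      have h' : σ⁻¹ * τ ∈ W.subgroupOf K.fixingSubgroup := QuotientGroup.leftRel_apply.mp h
      exact (hrW σ τ).mpr h'
    · intro a b
      induction a using Quotient.inductionOn
      induction b using Quotient.inductionOn
      rename_i σ τ
      intro h
      have h' : σ⁻¹ * τ ∈ W.subgroupOf K.fixingSubgroup := (hrW σ τ).mp h
      exact Quotient.sound (QuotientGroup.leftRel_apply.mpr h')
    · intro Q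
      obtain ⟨σ, hσ⟩ := hsurj Q
      exact ⟨Quotient.mk _ σ, hσ⟩
  have hr_mul : ∀ σ τ : K.fixingSubgroup, r (σ * τ) = r σ * r τ := by
    intro σ τ
    ext x
    rw [hr]
    change σ.1 (τ.1 x) = ((r σ (r τ x) : F) : Ω)
    rw [hr, hr]
  have hr_one : r 1 = 1 := by
    ext x
    rw [hr]
    rfl
  have hcomm : ∀ σ τ : F ≃ₐ[K] F, σ * τ = τ * σ := by
    intro σ τ
    obtain ⟨a, rfl⟩ := hsurj σ
    obtain ⟨b, rfl⟩ := hsurj τ
    rw [← hr_mul, ← hr_mul, hrW]
    have h1 := hc _ (b⁻¹).2 _ (a⁻¹).2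
    have h2 : (a * b).1⁻¹ * (b * a).1 = (b⁻¹).1 * (a⁻¹).1 * (b⁻¹).1⁻¹ * (a⁻¹).1⁻¹ := by
      simp only [Subgroup.coe_mul, InvMemClass.coe_inv]
      group
    rw [h2]
    exact h1
  have hr_pow : ∀ (σ : K.fixingSubgroup) (n : ℕ), r (σ ^ n) = r σ ^ n := by
    intro σ n
    induction n with
    | zero => rw [pow_zero, pow_zero, hr_one]
    | succ n ih => rw [pow_succ, pow_succ, hr_mul, ih]
  have hpg : IsPGroup p (F ≃ₐ[K] F) := by
    intro τ
    obtain ⟨a, rfl⟩ := hsurj τ
    obtain ⟨n, hn⟩ := hpw a.1 a.2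
    refine ⟨n, ?_⟩
    rw [← hr_pow, ← hr_one, hrW]
    have : (a ^ p ^ n).1⁻¹ * (1 : K.fixingSubgroup).1 = (a.1 ^ p ^ n)⁻¹ := by
      simp
    rw [this]
    exact W.inv_mem hn
  obtain ⟨n, hn⟩ := hpg.exists_card_eq
  refine ⟨n, by rw [← hcard, hn], ?_⟩
  have hfin : finrank K F = p ^ n := by rw [← hn, IsGalois.card_aut_eq_finrank K F]
  rw [← hfin]
  refine finrank_dvd_card_class hcomm p n hfin fun P => ?_
  rw [ramE_eq_card_inertia]
  haveI := P.isPrime
  -- the rational prime below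
  obtain ⟨ℓ, hℓ, hℓP⟩ : ∃ ℓ : ℕ, ℓ.Prime ∧ (ℓ : 𝓞 F) ∈ P.asIdeal := by
    have h1 : Ideal.absNorm P.asIdeal ≠ 0 := by
      rw [Ne, Ideal.absNorm_eq_zero_iff]
      exact P.ne_bot
    have h2 : ((Ideal.absNorm P.asIdeal : ℕ) : 𝓞 F) ∈ P.asIdeal := Ideal.absNorm_mem _
    have h3 : Ideal.absNorm P.asIdeal ≠ 1 := by
      rw [Ne, Ideal.absNorm_eq_one_iff]
      exact P.isPrime.ne_top
    clear h3
    generalize Ideal.absNorm P.asIdeal = m at h1 h2
    induction m using Nat.recOnMul with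
    | zero => exact absurd rfl h1
    | one =>
      rw [Nat.cast_one] at h2
      exact absurd ((Ideal.eq_top_iff_one _).mpr h2) P.isPrime.ne_top
    | prime ℓ hℓ => exact ⟨ℓ, hℓ, h2⟩
    | mul a b iha ihb =>
      rw [Nat.cast_mul] at h2
      rcases P.isPrime.mem_or_mem h2 with h | h
      · exact iha (left_ne_zero_of_mul h1) h
      · exact ihb (right_ne_zero_of_mul h1) h
  obtain ⟨A, hA, hAP⟩ := exists_place F P.asIdeal hℓ hℓP
  rw [Nat.card_eq_one_iff_unique]
  refine ⟨⟨fun a b => ?_⟩, ⟨1⟩⟩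
  have key : ∀ τ : P.asIdeal.inertia Gal(F/K), τ = 1 := by
    rintro ⟨τ, hτ⟩
    apply Subtype.ext
    change τ = 1
    obtain ⟨σ, hσ⟩ := hlift τ
    obtain ⟨h, hh, hi⟩ := lift_inertia W hWo hℓ hA σ.1 (by
      intro x y hxy
      have h1 : y = τ • x := by
        apply RingOfIntegers.ext
        apply Subtype.ext
        change ((y : F) : Ω) = ((τ (x : F) : F) : Ω)
        rw [hxy, hσ]
      have h2 : y - x ∈ P.asIdeal := by
        rw [h1]
        exact hτ x
      rw [← hAP] at h2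
      exact h2)
    have h1 : h * σ.1 ∈ K.fixingSubgroup := K.fixingSubgroup.mul_mem (hWK hh) σ.2
    have h2 := hI ℓ hℓ A hA ⟨hi, h1⟩
    have h3 : σ.1 ∈ W := by
      have := W.mul_mem (W.inv_mem hh) h2
      rwa [inv_mul_cancel_left] at this
    ext x
    rw [← hσ]
    exact (hmem σ.1).mp h3 x x.2
  rw [key a, key b]

end gal

end Fermat.Agent.ZC
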