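import Fermat.Agent.ZC.RCStruct

/-!
# Sums over the ideals of given norm in a quadratic field
-/

set_option autoImplicit false
set_option linter.unusedSectionVars false
set_option linter.style.haveILetI false

open scoped Classical nonZeroDivisors

namespace Fermat.Agent.ZC

open NumberField Fermat.Agent.H29Z QuadraticAlgebra

noncomputable section

variable {K : Type*} [Field K] [NumberField K] {d : ℤ} (e : 𝓞 K ≃+* QI ℤ d) {R : Type*}
  [CommRing R] (Φ : Ideal (𝓞 K) →* R)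

/-- sum over the ideals of norm `n` -/
def Ssum (n : ℕ) : R := ∑ b ∈ idn K n, Φ b

theorem sum_dvd {P : Ideal (𝓞 K)} (hP : P ≠ ⊥) (n : ℕ) :
    ∑ c ∈ (idn K (Ideal.absNorm P * n)).filter (P ∣ ·), Φ c = Φ P * Ssum Φ n := by
  have hN : Ideal.absNorm P ≠ 0 := Ideal.absNorm_ne_zero_iff_mem_nonZeroDivisors.mpr
    (mem_nonZeroDivisors_of_ne_zero hP)
  have h1 : (idn K (Ideal.absNorm P * n)).filter (P ∣ ·) = (idn K n).image (P * ·) := by
    ext c
    rw [Finset.mem_filter, Finset.mem_image, mem_idn]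
    constructor
    · rintro ⟨h, b, rfl⟩
      refine ⟨b, ?_, rfl⟩
      rw [map_mul] at h
      exact mem_idn.mpr (Nat.eq_of_mul_eq_mul_left (Nat.pos_of_ne_zero hN) h)
    · rintro ⟨b, hb, rfl⟩
      rw [mem_idn] at hb
      exact ⟨by rw [map_mul, hb], dvd_mul_right _ _⟩
  rw [h1, Finset.sum_image fun a _ b _ h => mul_left_cancel₀ hP h, Ssum, Finset.mul_sum]
  exact Finset.sum_congr rfl fun b _ => map_mul Φ P b

include e in
theorem finrank_int : Module.finrank ℤ (𝓞 K) = 2 := by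
  have h : Module.finrank ℤ (𝓞 K) = Module.finrank ℤ (QI ℤ d) :=
    LinearEquiv.finrank_eq (e.toAddEquiv.toIntLinearEquiv)
  rw [h]
  exact QuadraticAlgebra.finrank_eq_two _ _

include e in
theorem absNorm_span_nat (l : ℕ) : Ideal.absNorm (Ideal.span {(l : 𝓞 K)}) = l ^ 2 := by
  rw [Ideal.absNorm_span_singleton]
  have h : ((l : ℕ) : 𝓞 K) = algebraMap ℤ (𝓞 K) l := by simp
  rw [h, Algebra.norm_algebraMap, finrank_int e, Int.natAbs_pow, Int.natAbs_natCast]

theorem exists_over {l : ℕ} (hl : l.Prime) {c : Ideal (𝓞 K)} (h : l ∣ Ideal.absNorm c) :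
    ∃ P : Ideal (𝓞 K), P.IsPrime ∧ P ≠ ⊥ ∧ P ∣ Ideal.span {(l : 𝓞 K)} ∧ P ∣ c := by
  obtain ⟨P, hP, hPl, hPc⟩ := Ideal.exists_isMaximal_dvd_of_dvd_absNorm' hl c h
  refine ⟨P, hP.isPrime, ?_, ?_, hPc⟩
  · exact Ideal.IsMaximal.ne_bot_of_isIntegral_int P
  · rw [Ideal.dvd_span_singleton]
    have h1 : ((l : ℕ) : ℤ) ∈ P.under ℤ := by rw [hPl]; exact Ideal.mem_span_singleton_self _
    rw [Ideal.under, Ideal.mem_comap] at h1
    simpa using h1

include e in
/-- decomposition of a rational prime -/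
theorem cases_prime {l : ℕ} (hl : l.Prime) :
    ((Ideal.span {(l : 𝓞 K)}).IsPrime ∧
      ∀ c : Ideal (𝓞 K), l ∣ Ideal.absNorm c → Ideal.span {(l : 𝓞 K)} ∣ c) ∨
    ∃ P Q : Ideal (𝓞 K), P.IsPrime ∧ Q.IsPrime ∧ Ideal.absNorm P = l ∧ Ideal.absNorm Q = l ∧
      P * Q = Ideal.span {(l : 𝓞 K)} := by
  have hN := absNorm_span_nat e l
  have hl0 : (l : 𝓞 K) ≠ 0 := Nat.cast_ne_zero.mpr hl.ne_zero
  have hs0 : Ideal.span {(l : 𝓞 K)} ≠ ⊥ := by rwa [Ne, Ideal.span_singleton_eq_bot]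
  obtain ⟨P, hP, hP0, ⟨Q, hQ⟩, -⟩ := exists_over (K := K) hl
    (c := Ideal.span {(l : 𝓞 K)}) (by rw [hN]; exact dvd_pow_self l two_ne_zero)
  have hPQ : Ideal.absNorm P * Ideal.absNorm Q = l ^ 2 := by rw [← map_mul, ← hQ, hN]
  have hPd : Ideal.absNorm P ∣ l ^ 2 := Dvd.intro _ hPQ
  obtain ⟨j, hj, hPj⟩ := (Nat.dvd_prime_pow hl).mp hPd
  have hl1 := hl.pos
  interval_cases j
  · exfalso
    rw [pow_zero, Ideal.absNorm_eq_one_iff] at hPj
    exact hP.ne_top hPj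
  · right
    rw [pow_one] at hPj
    have hQl : Ideal.absNorm Q = l := by
      rw [hPj, pow_two] at hPQ
      exact Nat.eq_of_mul_eq_mul_left hl1 hPQ
    exact ⟨P, Q, hP, Ideal.isPrime_of_irreducible_absNorm (by rw [hQl]; exact hl), hPj, hQl,
      hQ.symm⟩
  · left
    have hQ1 : Ideal.absNorm Q = 1 := by
      rw [hPj] at hPQ
      exact Nat.eq_of_mul_eq_mul_left (pow_pos hl1 2) (by rw [hPQ, mul_one])
    rw [Ideal.absNorm_eq_one_iff] at hQ1
    have hPs : Ideal.span {(l : 𝓞 K)} = P := by rw [hQ, hQ1, Ideal.mul_top]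
    refine ⟨hPs ▸ hP, fun c hc => ?_⟩
    obtain ⟨P', hP', hP0', h1, h2⟩ := exists_over (K := K) hl hc
    have h3 : Ideal.span {(l : 𝓞 K)} = P' := by
      haveI : (Ideal.span {(l : 𝓞 K)}).IsMaximal := by
        rw [hPs]; exact hP.isMaximal hP0
      exact Ideal.IsMaximal.eq_of_le inferInstance hP'.ne_top (Ideal.le_of_dvd h1)
    rw [h3]
    exact h2

include e in
/-- primes not dividing `2d` are unramified -/
theorem ne_of_unram {l : ℕ} (hl : l.Prime) (hunr : ¬ (l : ℤ) ∣ 2 * d) {P : Ideal (𝓞 K)}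
    (hP : P * P = Ideal.span {(l : 𝓞 K)}) (hN : Ideal.absNorm P = l) : False := by
  have hlp : Prime (l : ℤ) := Nat.prime_iff_prime_int.mp hl
  have hne : P ≠ Ideal.span {(l : 𝓞 K)} := by
    intro h
    rw [h, absNorm_span_nat e] at hN
    have := hl.one_lt
    nlinarith
  have hle : Ideal.span {(l : 𝓞 K)} ≤ P := by rw [← hP]; exact Ideal.mul_le_left
  obtain ⟨x, hxP, hx⟩ := SetLike.exists_of_lt (lt_of_le_of_ne hle (Ne.symm hne))
  apply hx
  have hx2 : x * x ∈ Ideal.span {(l : 𝓞 K)} := by rw [← hP]; exact Ideal.mul_mem_mul hxP hxP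
  rw [Ideal.mem_span_singleton] at hx2
  obtain ⟨y, hy⟩ := hx2
  set a := (e x).re with ha
  set b := (e x).im with hb
  have hxy : e x * e x = (l : ℤ) • e y := by
    rw [← map_mul, hy, map_mul, map_natCast, zsmul_eq_mul, Int.cast_natCast]
  have hre := congrArg QuadraticAlgebra.re hxy
  have him := congrArg QuadraticAlgebra.im hxy
  rw [re_mul, re_smul] at hre
  rw [im_mul, im_smul] at him
  simp only [zero_mul, add_zero, Int.cast_id, smul_eq_mul, ← ha, ← hb] at hre him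
  have h1 : (l : ℤ) ∣ 2 * (a * b) := ⟨(e y).im, by linarith⟩
  have h2 : (l : ℤ) ∣ a * a + d * b * b := ⟨(e y).re, by linarith⟩
  have hnd2 : ¬ (l : ℤ) ∣ 2 := fun h => hunr (dvd_mul_of_dvd_left h d)
  have hndd : ¬ (l : ℤ) ∣ d := fun h => hunr (dvd_mul_of_dvd_right h 2)
  have h3 : (l : ℤ) ∣ a ∨ (l : ℤ) ∣ b := hlp.dvd_or_dvd ((hlp.dvd_or_dvd h1).resolve_left hnd2)
  have hab : (l : ℤ) ∣ a ∧ (l : ℤ) ∣ b := by
    rcases h3 with h | h
    · refine ⟨h, ?_⟩
      have h4 : (l : ℤ) ∣ d * b * b := by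
        have := dvd_sub h2 (dvd_mul_of_dvd_left h a)
        simpa using this
      rcases hlp.dvd_or_dvd h4 with h5 | h5
      · exact (hlp.dvd_or_dvd h5).resolve_left hndd
      · exact h5
    · refine ⟨?_, h⟩
      have h4 : (l : ℤ) ∣ a * a := by
        have := dvd_sub h2 (dvd_mul_of_dvd_right h (d * b))
        simpa using this
      rcases hlp.dvd_or_dvd h4 with h5 | h5 <;> exact h5
  obtain ⟨⟨a', ha'⟩, ⟨b', hb'⟩⟩ := hab
  rw [Ideal.mem_span_singleton]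
  refine ⟨e.symm ⟨a', b'⟩, ?_⟩
  apply e.injective
  rw [map_mul, RingEquiv.apply_symm_apply, map_natCast]
  have h6 : ((l : ℕ) : QI ℤ d) = ((l : ℕ) : ℤ) • (1 : QI ℤ d) := by
    rw [zsmul_eq_mul, mul_one, Int.cast_natCast]
  rw [h6, smul_mul_assoc, one_mul]
  ext
  · rw [re_smul, ← ha, ha']; rfl
  · rw [im_smul, ← hb, hb']; rfl

include e in
theorem sum_span {l : ℕ} (hl : l.Prime) (hΦ : Φ (Ideal.span {(l : 𝓞 K)}) = 1) (n : ℕ) :
    ∑ c ∈ (idn K (l * n)).filter (Ideal.span {(l : 𝓞 K)} ∣ ·), Φ c =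
      if l ∣ n then Ssum Φ (n / l) else 0 := by
  have hl0 : (l : 𝓞 K) ≠ 0 := Nat.cast_ne_zero.mpr hl.ne_zero
  have hs0 : Ideal.span {(l : 𝓞 K)} ≠ ⊥ := by rwa [Ne, Ideal.span_singleton_eq_bot]
  split_ifs with h
  · obtain ⟨m, rfl⟩ := h
    rw [Nat.mul_div_cancel_left m hl.pos]
    have h1 := sum_dvd Φ hs0 m
    rw [absNorm_span_nat e, hΦ, one_mul, pow_two, mul_assoc] at h1
    exact h1
  · refine Finset.sum_eq_zero fun c hc => ?_
    exfalso
    rw [Finset.mem_filter, mem_idn] at hc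
    obtain ⟨hc, b, rfl⟩ := hc
    rw [map_mul, absNorm_span_nat e, pow_two, mul_assoc] at hc
    exact h ⟨_, (Nat.eq_of_mul_eq_mul_left hl.pos hc).symm⟩

include e in
theorem hecke_split {l : ℕ} (hl : l.Prime) (hΦ : Φ (Ideal.span {(l : 𝓞 K)}) = 1)
    {P Q : Ideal (𝓞 K)} (hP : P.IsPrime) (hQ : Q.IsPrime) (hPN : Ideal.absNorm P = l)
    (hQN : Ideal.absNorm Q = l) (hPQ : P * Q = Ideal.span {(l : 𝓞 K)}) (hne : P ≠ Q) (n : ℕ) :
    Ssum Φ (l * n) + (if l ∣ n then Ssum Φ (n / l) else 0) = (Φ P + Φ Q) * Ssum Φ n := by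
  have hl0 : (l : 𝓞 K) ≠ 0 := Nat.cast_ne_zero.mpr hl.ne_zero
  have hs0 : Ideal.span {(l : 𝓞 K)} ≠ ⊥ := by rwa [Ne, Ideal.span_singleton_eq_bot]
  have hP0 : P ≠ ⊥ := by rintro rfl; rw [Ideal.bot_mul] at hPQ; exact hs0 hPQ.symm
  have hQ0 : Q ≠ ⊥ := by rintro rfl; rw [Ideal.mul_bot] at hPQ; exact hs0 hPQ.symm
  have hPm := hP.isMaximal hP0
  have hQm := hQ.isMaximal hQ0
  have hpr : Prime Q := Ideal.prime_of_isPrime hQ0 hQ
  have hpr' : Prime P := Ideal.prime_of_isPrime hP0 hP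
  rw [← sum_span e Φ hl hΦ n]
  have h1 := sum_dvd Φ hP0 n
  have h2 := sum_dvd Φ hQ0 n
  rw [hPN] at h1
  rw [hQN] at h2
  rw [add_mul, ← h1, ← h2]
  have h3 : Ssum Φ (l * n) =
      ∑ c ∈ (idn K (l * n)).filter (P ∣ ·) ∪ (idn K (l * n)).filter (Q ∣ ·), Φ c := by
    rw [Ssum]
    congr 1
    rw [← Finset.filter_or]
    symm
    rw [Finset.filter_eq_self]
    intro c hc
    rw [mem_idn] at hc
    obtain ⟨P', hP', hP0', h4, h5⟩ := exists_over (K := K) hl (c := c) (by rw [hc]; exact dvd_mul_right l n)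
    rw [← hPQ] at h4
    have hpr'' : Prime P' := Ideal.prime_of_isPrime hP0' hP'
    have hPm' := hP'.isMaximal hP0'
    rcases hpr''.dvd_or_dvd h4 with h | h
    · left
      have : P = P' := Ideal.IsMaximal.eq_of_le hPm hP'.ne_top (Ideal.le_of_dvd h)
      rw [this]; exact h5
    · right
      have : Q = P' := Ideal.IsMaximal.eq_of_le hQm hP'.ne_top (Ideal.le_of_dvd h)
      rw [this]; exact h5
  have h4 : (idn K (l * n)).filter (Ideal.span {(l : 𝓞 K)} ∣ ·) =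
      (idn K (l * n)).filter (P ∣ ·) ∩ (idn K (l * n)).filter (Q ∣ ·) := by
    rw [← Finset.filter_and]
    apply Finset.filter_congr
    intro c _
    rw [← hPQ]
    constructor
    · intro h
      exact ⟨(dvd_mul_right P Q).trans h, (dvd_mul_left Q P).trans h⟩
    · rintro ⟨⟨c', rfl⟩, h⟩
      apply mul_dvd_mul_left
      rcases hpr.dvd_or_dvd h with h | h
      · exact absurd (Ideal.IsMaximal.eq_of_le hPm hQ.ne_top (Ideal.le_of_dvd h)) hne
      · exact h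
  rw [h3, h4, Finset.sum_union_inter]

theorem idn_one : idn K 1 = {(⊤ : Ideal (𝓞 K))} := by
  ext b
  rw [mem_idn, Ideal.absNorm_eq_one_iff, Finset.mem_singleton]

theorem Ssum_one : Ssum Φ 1 = 1 := by
  rw [Ssum, idn_one, Finset.sum_singleton, ← Ideal.one_eq_top, map_one]

include e in
/-- the Hecke identity in characteristic two -/
theorem hecke_two {l : ℕ} (hl : l.Prime) (hunr : ¬ (l : ℤ) ∣ 2 * d) (h2 : (2 : R) = 0)
    (hΦ : Φ (Ideal.span {(l : 𝓞 K)}) = 1) (n : ℕ) :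
    Ssum Φ (l * n) + (if l ∣ n then Ssum Φ (n / l) else 0) = Ssum Φ l * Ssum Φ n := by
  rcases cases_prime e hl with ⟨-, h⟩ | ⟨P, Q, hP, hQ, hPN, hQN, hPQ⟩
  · have h1 : ∀ m, Ssum Φ (l * m) = if l ∣ m then Ssum Φ (m / l) else 0 := by
      intro m
      rw [← sum_span e Φ hl hΦ m, Ssum]
      congr 1
      symm
      rw [Finset.filter_eq_self]
      intro c hc
      rw [mem_idn] at hc
      exact h c (by rw [hc]; exact dvd_mul_right l m)
    have h3 : Ssum Φ l = 0 := by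
      have := h1 1
      rwa [mul_one, if_neg (by rw [Nat.dvd_one]; exact hl.ne_one)] at this
    rw [h1, h3, zero_mul, ← two_mul, h2, zero_mul]
  · have hne : P ≠ Q := by
      rintro rfl
      exact ne_of_unram e hl hunr hPQ hPN
    have h1 := hecke_split e Φ hl hΦ hP hQ hPN hQN hPQ hne
    have h3 := h1 1
    rw [mul_one, if_neg (by rw [Nat.dvd_one]; exact hl.ne_one), add_zero, Ssum_one, mul_one] at h3
    rw [h1, h3]

include e in
/-- the prime two is ramified if `d` is even -/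
theorem exists_ram (hd : 2 ∣ d) : ∃ P : Ideal (𝓞 K), P.IsPrime ∧ Ideal.absNorm P = 2 ∧
    P * P = Ideal.span {((2 : ℕ) : 𝓞 K)} := by
  have hs0 : Ideal.span {((2 : ℕ) : 𝓞 K)} ≠ ⊥ := by
    rw [Ne, Ideal.span_singleton_eq_bot]; norm_num
  obtain ⟨k, hk⟩ := hd
  set w0 : 𝓞 K := e.symm ⟨0, 1⟩ with hw
  have hw2 : w0 * w0 ∈ Ideal.span {((2 : ℕ) : 𝓞 K)} := by
    rw [Ideal.mem_span_singleton]
    refine ⟨(k : 𝓞 K), ?_⟩
    apply e.injective
    rw [map_mul, hw, RingEquiv.apply_symm_apply, map_mul, map_natCast, map_intCast]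
    ext
    · rw [re_mul]; simp [hk]
    · rw [im_mul]; simp
  have hw1 : w0 ∉ Ideal.span {((2 : ℕ) : 𝓞 K)} := by
    rw [Ideal.mem_span_singleton]
    rintro ⟨y, hy⟩
    have h1 := congrArg e hy
    rw [hw, RingEquiv.apply_symm_apply, map_mul, map_natCast] at h1
    have h2 := congrArg QuadraticAlgebra.im h1
    rw [im_mul] at h2
    simp at h2
    omega
  rcases cases_prime e Nat.prime_two with ⟨h, -⟩ | ⟨P, Q, hP, hQ, hPN, hQN, hPQ⟩
  · exfalso
    rcases h.mem_or_mem hw2 with h | h <;> exact hw1 h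
  · have hP0 : P ≠ ⊥ := by rintro rfl; rw [Ideal.bot_mul] at hPQ; exact hs0 hPQ.symm
    have hQ0 : Q ≠ ⊥ := by rintro rfl; rw [Ideal.mul_bot] at hPQ; exact hs0 hPQ.symm
    by_cases hne : P = Q
    · subst hne
      exact ⟨P, hP, hPN, hPQ⟩
    · exfalso
      apply hw1
      rw [← hPQ]
      have hwP : w0 ∈ P := by
        have : w0 * w0 ∈ P := by
          rw [← hPQ] at hw2
          exact Ideal.mul_le_left hw2
        rcases hP.mem_or_mem this with h | h <;> exact h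
      have hwQ : w0 ∈ Q := by
        have : w0 * w0 ∈ Q := by
          rw [← hPQ] at hw2
          exact Ideal.mul_le_right hw2
        rcases hQ.mem_or_mem this with h | h <;> exact h
      have hpr : Prime Q := Ideal.prime_of_isPrime hQ0 hQ
      rw [← Ideal.dvd_span_singleton] at hwP hwQ ⊢
      obtain ⟨c', hc'⟩ := hwP
      rw [hc'] at hwQ ⊢
      apply mul_dvd_mul_left
      rcases hpr.dvd_or_dvd hwQ with h | h
      · exact absurd (Ideal.IsMaximal.eq_of_le (hP.isMaximal hP0) hQ.ne_top (Ideal.le_of_dvd h)) hne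
      · exact h

include e in
theorem Ssum_four (hd : 2 ∣ d) (hΦ : Φ (Ideal.span {((2 : ℕ) : 𝓞 K)}) = 1) (n : ℕ) :
    Ssum Φ (4 * n) = Ssum Φ n := by
  have hs0 : Ideal.span {((2 : ℕ) : 𝓞 K)} ≠ ⊥ := by
    rw [Ne, Ideal.span_singleton_eq_bot]; norm_num
  obtain ⟨P, hP, hPN, hPP⟩ := exists_ram e hd
  have hP0 : P ≠ ⊥ := by rintro rfl; rw [Ideal.bot_mul] at hPP; exact hs0 hPP.symm
  have hdiv : ∀ c : Ideal (𝓞 K), 2 ∣ Ideal.absNorm c → P ∣ c := by
    intro c hc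
    obtain ⟨P', hP', hP0', h4, h5⟩ := exists_over (K := K) Nat.prime_two hc
    rw [← hPP] at h4
    have hpr'' : Prime P' := Ideal.prime_of_isPrime hP0' hP'
    have : P = P' := by
      rcases hpr''.dvd_or_dvd h4 with h | h <;>
      exact Ideal.IsMaximal.eq_of_le (hP.isMaximal hP0) hP'.ne_top (Ideal.le_of_dvd h)
    rw [this]; exact h5
  have h1 := sum_dvd Φ hs0 n
  rw [absNorm_span_nat e, hΦ, one_mul, show 2 ^ 2 * n = 4 * n from rfl] at h1
  rw [← h1, Ssum]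
  congr 1
  symm
  rw [Finset.filter_eq_self]
  intro c hc
  rw [mem_idn] at hc
  obtain ⟨c', rfl⟩ := hdiv c (by rw [hc]; exact ⟨2 * n, by ring⟩)
  rw [← hPP]
  apply mul_dvd_mul_left
  apply hdiv
  rw [map_mul, hPN] at hc
  exact ⟨n, by linarith⟩

end

end Fermat.Agent.ZC
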