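import Mathlib

/-!
# Index computations for automorphisms of prime power order of finitely generated groups
-/

set_option autoImplicit false

open Polynomial

namespace Fermat.Agent.ZC

section identity

variable {M : Type*} [AddCommGroup M]

theorem relIndex_map_range (D : M →+ M) (A : AddSubgroup M) :
    (A.map D).relIndex D.range = (A ⊔ D.ker).index := by
  have : D.range = (⊤ : AddSubgroup M).map D := (AddMonoidHom.range_eq_map D)
  rw [this, AddSubgroup.relIndex_map_map, top_sup_eq, AddSubgroup.relIndex_top_right]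

theorem map_le_range' (D : M →+ M) (A : AddSubgroup M) : A.map D ≤ D.range := by
  rintro _ ⟨x, -, rfl⟩
  exact ⟨x, rfl⟩

/-- The Herbrand quotient identity. -/
theorem relIndex_identity (D N : M →+ M) (hDN : ∀ x, D (N x) = 0) (hND : ∀ x, N (D x) = 0) :
    N.range.relIndex D.ker * (N.ker.map D).relIndex N.ker =
      D.range.relIndex N.ker * (D.ker.map N).relIndex D.ker := by
  have h1 : D.range ≤ N.ker := by
    rintro _ ⟨x, rfl⟩
    exact hND x
  have h2 : N.range ≤ D.ker := by
    rintro _ ⟨x, rfl⟩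
    exact hDN x
  rw [← AddSubgroup.relIndex_mul_relIndex (N.ker.map D) D.range N.ker (map_le_range' _ _) h1,
    ← AddSubgroup.relIndex_mul_relIndex (D.ker.map N) N.range D.ker (map_le_range' _ _) h2,
    relIndex_map_range, relIndex_map_range, sup_comm D.ker N.ker]
  ring

end identity

section torsionfree

variable {Q : Type*} [AddCommGroup Q]

/-- kernel of an endomorphism -/
def kerE (F : AddMonoid.End Q) : AddSubgroup Q where
  carrier := {x | F x = 0}
  zero_mem' := map_zero F
  add_mem' := fun {a b} ha hb => by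
    change F (a + b) = 0
    rw [map_add, show F a = 0 from ha, show F b = 0 from hb, add_zero]
  neg_mem' := fun {a} ha => by
    change F (-a) = 0
    rw [map_neg, show F a = 0 from ha, neg_zero]

theorem mem_kerE {F : AddMonoid.End Q} {x : Q} : x ∈ kerE F ↔ F x = 0 := Iff.rfl

theorem kerE_eq (F : AddMonoid.End Q) : AddMonoidHom.ker F = kerE F := rfl

/-- a subgroup stable under `s` is stable under polynomials in `s` -/
theorem aeval_mem {s : AddMonoid.End Q} {C : AddSubgroup Q} (hC : ∀ x ∈ C, s x ∈ C) (p : ℤ[X])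
    {x : Q} (hx : x ∈ C) : (aeval s p) x ∈ C := by
  induction p using Polynomial.induction_on generalizing x with
  | C a =>
    rw [aeval_C]
    have : (algebraMap ℤ (AddMonoid.End Q) a) x = a • x := by
      rw [Algebra.algebraMap_eq_smul_one]
      rfl
    rw [this]
    exact C.zsmul_mem hx a
  | add p q hp hq =>
    rw [map_add]
    exact C.add_mem (hp hx) (hq hx)
  | monomial n a ih =>
    rw [pow_succ, ← mul_assoc, map_mul, aeval_X]
    exact ih (hC x hx)

theorem index_range_pow_of_injective {D : AddMonoid.End Q} (hD : Function.Injective D)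
    (C : AddSubgroup Q) (hC : ∀ x ∈ C, D x ∈ C) (e : ℕ) :
    (C.map (D ^ e)).relIndex C = ((C.map D).relIndex C) ^ e := by
  induction e with
  | zero =>
    rw [pow_zero, pow_zero]
    have : C.map (1 : AddMonoid.End Q) = C := by
      ext x
      constructor
      · rintro ⟨y, hy, rfl⟩
        exact hy
      · intro hx
        exact ⟨x, hx, rfl⟩
    rw [this, AddSubgroup.relIndex_self]
  | succ e ih =>
    have hstab : ∀ n : ℕ, ∀ x ∈ C, (D ^ n) x ∈ C := by
      intro n
      induction n with
      | zero => intro x hx; exact hx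
      | succ n ihn =>
        intro x hx
        rw [pow_succ']
        exact hC _ (ihn x hx)
    have hinj : Function.Injective (D ^ e) := by
      rw [AddMonoid.End.coe_pow]
      exact hD.iterate e
    have h1 : C.map (D ^ (e + 1)) = (C.map D).map (D ^ e) := by
      rw [AddSubgroup.map_map]
      rfl
    have h2 : (C.map D).map (D ^ e) ≤ C.map (D ^ e) := AddSubgroup.map_mono (by
      rintro _ ⟨x, hx, rfl⟩
      exact hC x hx)
    have h3 : C.map (D ^ e) ≤ C := by
      rintro _ ⟨x, hx, rfl⟩
      exact hstab e x hx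
    rw [h1, ← AddSubgroup.relIndex_mul_relIndex _ _ _ h2 h3, ih,
      AddSubgroup.relIndex_map_map_of_injective _ _ hinj, pow_succ']

/-- `(X - 1) ^ φ(ℓ^(i+1)) = Φ + ℓ g`. -/
theorem exists_poly (l : ℕ) [hl : Fact l.Prime] (i : ℕ) :
    ∃ g : ℤ[X], (X - 1) ^ (l ^ (i + 1) - l ^ i) =
      ∑ a ∈ Finset.range l, (X ^ l ^ i) ^ a + (l : ℤ[X]) * g := by
  rw [← cyclotomic_prime_pow_eq_geom_sum hl.out]
  have h1 : ((X - 1 : ℤ[X]) ^ (l ^ (i + 1) - l ^ i) - cyclotomic (l ^ (i + 1)) ℤ).map
      (Int.castRingHom (ZMod l)) = 0 := by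
    rw [Polynomial.map_sub, Polynomial.map_pow, Polynomial.map_sub, Polynomial.map_X,
      Polynomial.map_one, map_cyclotomic]
    have := cyclotomic_mul_prime_pow_eq (ZMod l) (p := l) (m := 1) (by
      intro h
      exact hl.out.one_lt.ne' (Nat.dvd_one.1 h)) (k := i + 1) (Nat.succ_pos i)
    rw [mul_one, cyclotomic_one, Nat.add_sub_cancel] at this
    rw [this, sub_self]
  have h2 : (C (l : ℤ) : ℤ[X]) ∣ (X - 1 : ℤ[X]) ^ (l ^ (i + 1) - l ^ i) -
      cyclotomic (l ^ (i + 1)) ℤ := by
    rw [C_dvd_iff_dvd_coeff]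
    intro n
    have := congrArg (fun q => q.coeff n) h1
    simp only [coeff_map, coeff_zero] at this
    exact (ZMod.intCast_zmod_eq_zero_iff_dvd _ _).1 this
  obtain ⟨g, hg⟩ := h2
  refine ⟨g, ?_⟩
  rw [sub_eq_iff_eq_add] at hg
  rw [hg, add_comm]
  simp

variable [Module.Finite ℤ Q] [Module.IsTorsionFree ℤ Q]

theorem relIndex_map_ne_zero {D : Q →+ Q} (hD : Function.Injective D) (C : AddSubgroup Q)
    (hC : ∀ x ∈ C, D x ∈ C) : (C.map D).relIndex C ≠ 0 := by
  have hfin : Module.Finite ℤ C.toIntSubmodule := inferInstance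
  have hfree : Module.Free ℤ C.toIntSubmodule := inferInstance
  let f : C.toIntSubmodule →ₗ[ℤ] C.toIntSubmodule :=
    AddMonoidHom.toIntLinearMap ((D.comp C.subtype).codRestrict C fun x => hC x x.2)
  have hf : Function.Injective f := by
    intro x y hxy
    apply Subtype.ext
    exact hD (congrArg Subtype.val hxy)
  have h1 : Module.finrank ℤ (LinearMap.range f) = Module.finrank ℤ C.toIntSubmodule :=
    LinearMap.finrank_range_of_inj hf
  have h2 : Finite (C.toIntSubmodule ⧸ LinearMap.range f) :=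
    Submodule.finiteQuotientOfFreeOfRankEq _ h1
  have h3 : (C.map D).addSubgroupOf C = (LinearMap.range f).toAddSubgroup := by
    ext x
    constructor
    · rintro ⟨y, hy, hyx⟩
      exact ⟨⟨y, hy⟩, Subtype.ext hyx⟩
    · rintro ⟨y, hy⟩
      exact ⟨y, y.2, congrArg Subtype.val hy⟩
  rw [AddSubgroup.relIndex, h3]
  have h4 : Finite (C ⧸ (LinearMap.range f).toAddSubgroup) := h2
  exact AddSubgroup.index_ne_zero_of_finite (H := (LinearMap.range f).toAddSubgroup)

/-- one step of the filtration -/
theorem step (l : ℕ) [hl : Fact l.Prime] (s : AddMonoid.End Q)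
    (hinj : Function.Injective (s - 1 : AddMonoid.End Q)) (i : ℕ) (C : AddSubgroup Q)
    (hC : ∀ x ∈ C, s x ∈ C) (h0 : ∀ x ∈ C, (∑ a ∈ Finset.range l, (s ^ l ^ i) ^ a) x = 0)
    (m : ℕ) (hm : (l ^ (i + 1) - l ^ i) * m ≤ Module.finrank ℤ C) :
    l ^ m ≤ (C.map (s - 1 : AddMonoid.End Q)).relIndex C := by
  set D : AddMonoid.End Q := s - 1 with hD
  set e := l ^ (i + 1) - l ^ i with he
  have he0 : 0 < e := Nat.sub_pos_of_lt (Nat.pow_lt_pow_right hl.out.one_lt (Nat.lt_succ_self i))
  have hCD : ∀ x ∈ C, D x ∈ C := fun x hx => C.sub_mem (hC x hx) hx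
  obtain ⟨g, hg⟩ := exists_poly l i
  have h1 : D ^ e = ∑ a ∈ Finset.range l, (s ^ l ^ i) ^ a + (l : AddMonoid.End Q) * aeval s g := by
    have := congrArg (aeval s) hg
    simpa using this
  have h2 : C.map (D ^ e) ≤ C.map (nsmulAddMonoidHom (α := Q) l) := by
    rintro _ ⟨x, hx, rfl⟩
    refine ⟨aeval s g x, aeval_mem hC g hx, ?_⟩
    change _ = (D ^ e) x
    rw [h1]
    change _ = (∑ a ∈ Finset.range l, (s ^ l ^ i) ^ a) x + (l : AddMonoid.End Q) (aeval s g x)
    rw [h0 x hx, zero_add]
    simp
  have h3 := index_range_pow_of_injective hinj C hCD e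
  have h4 : (C.map (nsmulAddMonoidHom (α := Q) l)).relIndex C = l ^ Module.finrank ℤ C := by
    have : Module.Finite ℤ C.toIntSubmodule := inferInstance
    have : Module.Free ℤ C.toIntSubmodule := inferInstance
    exact AddSubgroup.relIndex_map_nsmul l C
  have h5 : (C.map (nsmulAddMonoidHom (α := Q) l)).relIndex C ≤ (C.map (D ^ e)).relIndex C := by
    refine Nat.le_of_dvd ?_ (AddSubgroup.relIndex_dvd_of_le_left _ h2)
    rw [h3]
    exact pow_pos (Nat.pos_of_ne_zero (relIndex_map_ne_zero hinj C hCD)) e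
  rw [h4, h3] at h5
  have h6 : (l ^ m) ^ e ≤ ((C.map D).relIndex C) ^ e := by
    refine le_trans ?_ h5
    rw [← pow_mul, mul_comm m e]
    exact Nat.pow_le_pow_right hl.out.pos hm
  exact (Nat.pow_le_pow_iff_left he0.ne').1 h6

theorem finrank_map_add (E : Q →+ Q) (A B : AddSubgroup Q) (hB : E.ker = B) (hBA : B ≤ A) :
    Module.finrank ℤ (A.map E) + Module.finrank ℤ B = Module.finrank ℤ A := by
  subst hB
  let f : A.toIntSubmodule →ₗ[ℤ] Q := AddMonoidHom.toIntLinearMap (E.comp A.subtype)
  have h1 := Submodule.finrank_quotient_add_finrank (LinearMap.ker f)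
  rw [f.quotKerEquivRange.finrank_eq] at h1
  have h2 : LinearMap.range f = (A.map E).toIntSubmodule := by
    ext x
    constructor
    · rintro ⟨y, hy⟩
      exact ⟨y, y.2, hy⟩
    · rintro ⟨y, hy, hyx⟩
      exact ⟨⟨y, hy⟩, hyx⟩
  have h3 : Module.finrank ℤ (LinearMap.ker f) = Module.finrank ℤ E.ker := by
    let e : LinearMap.ker f ≃+ E.ker :=
      { toFun := fun x => ⟨x.1.1, x.2⟩
        invFun := fun x => ⟨⟨x.1, hBA x.2⟩, x.2⟩
        left_inv := fun x => rfl
        right_inv := fun x => rfl
        map_add' := fun x y => rfl }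
    exact e.toIntLinearEquiv.finrank_eq
  rw [h2, h3] at h1
  exact h1

/-- **The filtration argument.** -/
theorem chain (l : ℕ) [hl : Fact l.Prime] (s : AddMonoid.End Q)
    (hinj : Function.Injective (s - 1 : AddMonoid.End Q)) (k : ℕ) (m : ℕ → ℕ)
    (hm : ∀ i < k, (l ^ (i + 1) - l ^ i) * m i +
      Module.finrank ℤ (kerE (s ^ l ^ i - 1 : AddMonoid.End Q)) ≤
      Module.finrank ℤ (kerE (s ^ l ^ (i + 1) - 1 : AddMonoid.End Q))) :
    l ^ (∑ i ∈ Finset.range k, m i) ≤
      ((kerE (s ^ l ^ k - 1 : AddMonoid.End Q)).map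
        (s - 1 : AddMonoid.End Q)).relIndex (kerE (s ^ l ^ k - 1 : AddMonoid.End Q)) := by
  set D : AddMonoid.End Q := s - 1 with hD
  have hDk : ∀ j : ℕ, ∀ x ∈ kerE (s ^ l ^ j - 1 : AddMonoid.End Q),
      D x ∈ kerE (s ^ l ^ j - 1 : AddMonoid.End Q) := by
    intro j x hx
    have h1 : (s ^ l ^ j - 1) * D = D * (s ^ l ^ j - 1) := by
      rw [hD]
      exact ((Commute.refl s).pow_left _).sub_left (Commute.one_left _) |>.sub_right
        (Commute.one_right _)
    rw [mem_kerE] at hx ⊢
    have h2 := congrArg (fun F : AddMonoid.End Q => F x) h1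
    change (s ^ l ^ j - 1 : AddMonoid.End Q) (D x) = D ((s ^ l ^ j - 1 : AddMonoid.End Q) x) at h2
    rw [h2, hx, map_zero]
  induction k with
  | zero =>
    rw [Finset.sum_range_zero, pow_zero]
    exact Nat.one_le_iff_ne_zero.2 (relIndex_map_ne_zero hinj _ (hDk 0))
  | succ k ih =>
    specialize ih fun i hi => hm i (Nat.lt_succ_of_lt hi)
    set A := kerE (s ^ l ^ (k + 1) - 1 : AddMonoid.End Q) with hA
    set B := kerE (s ^ l ^ k - 1 : AddMonoid.End Q) with hB
    set E : AddMonoid.End Q := s ^ l ^ k - 1 with hE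
    have hfac : (s ^ l ^ (k + 1) - 1 : AddMonoid.End Q) =
        (∑ a ∈ Finset.range l, (s ^ l ^ k) ^ a) * E := by
      rw [hE, geom_sum_mul, ← pow_mul, pow_succ]
    have hBA : B ≤ A := by
      intro x hx
      rw [hA, mem_kerE, hfac]
      change (∑ a ∈ Finset.range l, (s ^ l ^ k) ^ a) (E x) = 0
      rw [mem_kerE.1 hx, map_zero]
    have hcomm : ∀ x, E (D x) = D (E x) := by
      intro x
      have h1 : E * D = D * E := by
        rw [hE, hD]
        exact ((Commute.refl s).pow_left _).sub_left (Commute.one_left _) |>.sub_right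
          (Commute.one_right _)
      exact congrArg (fun F : AddMonoid.End Q => F x) h1
    have hcomms : ∀ x, E (s x) = s (E x) := by
      intro x
      have h1 : E * s = s * E := by
        rw [hE]
        exact ((Commute.refl s).pow_left _).sub_left (Commute.one_left _)
      exact congrArg (fun F : AddMonoid.End Q => F x) h1
    have hsA : ∀ x ∈ A, s x ∈ A := by
      intro x hx
      have := A.add_mem (hDk (k + 1) x hx) hx
      have h2 : D x + x = s x := by
        change (s x - x) + x = s x
        abel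
      rwa [h2] at this
    set C := A.map E with hC
    have hstep : l ^ m k ≤ (C.map D).relIndex C := by
      refine step l s hinj k C ?_ ?_ (m k) ?_
      · rintro _ ⟨x, hx, rfl⟩
        exact ⟨s x, hsA x hx, hcomms x⟩
      · rintro _ ⟨x, hx, rfl⟩
        have := mem_kerE.1 hx
        rw [hfac] at this
        exact this
      · have h1 := finrank_map_add E A B rfl hBA
        have h2 := hm k (Nat.lt_succ_self k)
        rw [← h1] at h2
        exact Nat.add_le_add_iff_right.1 h2
    have h1 : (A.map D ⊔ B).relIndex A = (C.map D).relIndex C := by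
      have h2 : C.map D = (A.map D).map E := by
        rw [hC, AddSubgroup.map_map, AddSubgroup.map_map]
        congr 1
        ext x
        exact (hcomm x).symm
      rw [h2, hC, AddSubgroup.relIndex_map_map]
      congr 1
      exact (sup_eq_left.2 hBA).symm
    have h3 : (A.map D).relIndex (A.map D ⊔ B) = (B.map D).relIndex B := by
      rw [AddSubgroup.relIndex_sup_left, ← AddSubgroup.inf_relIndex_right]
      congr 1
      ext x
      constructor
      · rintro ⟨⟨y, hy, rfl⟩, hx⟩
        refine ⟨y, ?_, rfl⟩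
        have h4 : E (D y) = 0 := hx
        rw [hcomm] at h4
        exact (map_eq_zero_iff D hinj).1 h4
      · rintro ⟨y, hy, rfl⟩
        exact ⟨⟨y, hBA hy, rfl⟩, hDk k y hy⟩
    rw [← AddSubgroup.relIndex_mul_relIndex (A.map D) (A.map D ⊔ B) A le_sup_left (sup_le (by
      rintro _ ⟨x, hx, rfl⟩
      exact hDk (k + 1) x hx) hBA), h1, h3, Finset.sum_range_succ, pow_add]
    exact Nat.mul_le_mul ih hstep

end torsionfree

end Fermat.Agent.ZC
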