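import Mathlib
import Fermat.Agent.ZC.HerbAlg

/-!
# The Herbrand inequality for finitely generated groups
-/

set_option autoImplicit false

open Polynomial

namespace Fermat.Agent.ZC

section rank

variable {M : Type*} [AddCommGroup M] [Module.Finite ℤ M]

theorem finrank_eq_zero_of_nsmul {A : Type*} [AddCommGroup A] [Module.Finite ℤ A] {e : ℕ}
    (he : e ≠ 0) (h : ∀ x : A, e • x = 0) : Module.finrank ℤ A = 0 := by
  rw [Module.finrank_eq_zero_iff_isTorsion]
  intro x
  refine ⟨⟨(e : ℤ), mem_nonZeroDivisors_of_ne_zero (by exact_mod_cast he)⟩, ?_⟩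
  change (e : ℤ) • x = 0
  rw [natCast_zsmul]
  exact h x

theorem finrank_map_add' (E : M →+ M) (A B : AddSubgroup M) (hB : A ⊓ E.ker = B) :
    Module.finrank ℤ (A.map E) + Module.finrank ℤ B = Module.finrank ℤ A := by
  subst hB
  let f : A.toIntSubmodule →ₗ[ℤ] M := AddMonoidHom.toIntLinearMap (E.comp A.subtype)
  have h1 := Submodule.finrank_quotient_add_finrank (LinearMap.ker f)
  rw [f.quotKerEquivRange.finrank_eq] at h1
  have h2 : LinearMap.range f = (A.map E).toIntSubmodule := by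
    ext x
    constructor
    · rintro ⟨y, hy⟩
      exact ⟨y, y.2, hy⟩
    · rintro ⟨y, hy, hyx⟩
      exact ⟨⟨y, hy⟩, hyx⟩
  have h3 : Module.finrank ℤ (LinearMap.ker f) = Module.finrank ℤ (A ⊓ E.ker : AddSubgroup M) := by
    let e : LinearMap.ker f ≃+ (A ⊓ E.ker : AddSubgroup M) :=
      { toFun := fun x => ⟨x.1.1, x.1.2, x.2⟩
        invFun := fun x => ⟨⟨x.1, x.2.1⟩, x.2.2⟩
        left_inv := fun x => rfl
        right_inv := fun x => rfl
        map_add' := fun x y => rfl }
    exact e.toIntLinearEquiv.finrank_eq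
  rw [h2, h3] at h1
  exact h1

theorem finrank_le_of_le {A B : AddSubgroup M} (h : A ≤ B) :
    Module.finrank ℤ A ≤ Module.finrank ℤ B := by
  have : Module.Finite ℤ B.toIntSubmodule := inferInstance
  exact Submodule.finrank_mono (s := A.toIntSubmodule) (t := B.toIntSubmodule) h

theorem finrank_le_of_nsmul {A B : AddSubgroup M} {e : ℕ} (he : e ≠ 0)
    (h : ∀ x ∈ A, e • x ∈ B) : Module.finrank ℤ A ≤ Module.finrank ℤ B := by
  have h1 := finrank_map_add' (nsmulAddMonoidHom e : M →+ M) A _ rfl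
  have h2 : Module.finrank ℤ (A ⊓ (nsmulAddMonoidHom e : M →+ M).ker : AddSubgroup M) = 0 := by
    have : Module.Finite ℤ (A ⊓ (nsmulAddMonoidHom e : M →+ M).ker : AddSubgroup M).toIntSubmodule :=
      inferInstance
    refine finrank_eq_zero_of_nsmul
      (A := (A ⊓ (nsmulAddMonoidHom e : M →+ M).ker : AddSubgroup M).toIntSubmodule) he fun x => ?_
    apply Subtype.ext
    exact x.2.2
  rw [h2, add_zero] at h1
  rw [← h1]
  apply finrank_le_of_le
  rintro _ ⟨x, hx, rfl⟩
  exact h x hx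

end rank

section psi

variable {P : Type*} [AddCommGroup P] [Module.Finite ℤ P]

instance finite_torsion' : Finite (AddCommGroup.torsion P) := by
  have h1 : Module.Finite ℤ (AddCommGroup.torsion P).toIntSubmodule := inferInstance
  have h2 : AddGroup.FG (AddCommGroup.torsion P) := by
    rw [← Module.Finite.iff_addGroup_fg]
    exact h1
  refine AddCommGroup.finite_of_fg_isAddTorsion _ ?_
  rw [isAddTorsion_iff_isTorsion_int]
  intro x
  have hx := x.2
  rw [AddCommGroup.mem_torsion, isOfFinAddOrder_iff_nsmul_eq_zero] at hx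
  obtain ⟨n, hn, hx⟩ := hx
  refine ⟨⟨(n : ℤ), mem_nonZeroDivisors_of_ne_zero (by exact_mod_cast hn.ne')⟩, ?_⟩
  apply Subtype.ext
  change (n : ℤ) • (x : P) = 0
  rw [natCast_zsmul, hx]

theorem sum_end_apply {Q ι : Type*} [AddCommGroup Q] (S : Finset ι) (f : ι → AddMonoid.End Q)
    (x : Q) : (∑ i ∈ S, f i) x = ∑ i ∈ S, f i x := by
  classical
  induction S using Finset.induction_on with
  | empty => rfl
  | insert a S ha ih =>
    rw [Finset.sum_insert ha, Finset.sum_insert ha, ← ih]
    rfl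

/-- restriction of an endomorphism -/
def resE {Q : Type*} [AddCommGroup Q] (s : AddMonoid.End Q) (C : AddSubgroup Q)
    (hC : ∀ x ∈ C, s x ∈ C) : AddMonoid.End C where
  toFun x := ⟨s (x : Q), hC x x.2⟩
  map_zero' := Subtype.ext (show s (0 : Q) = 0 from map_zero s)
  map_add' x y := Subtype.ext (show s ((x : Q) + y) = s x + s y from map_add s (x : Q) (y : Q))

@[simp] theorem resE_apply {Q : Type*} [AddCommGroup Q] (s : AddMonoid.End Q) (C : AddSubgroup Q)
    (hC : ∀ x ∈ C, s x ∈ C) (x : C) : (resE s C hC x : Q) = s (x : Q) := rfl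

theorem resE_pow {Q : Type*} [AddCommGroup Q] (s : AddMonoid.End Q) (C : AddSubgroup Q)
    (hC : ∀ x ∈ C, s x ∈ C) (n : ℕ) (x : C) :
    (((resE s C hC) ^ n) x : Q) = (s ^ n) (x : Q) := by
  induction n with
  | zero => rfl
  | succ n ih =>
    rw [pow_succ', pow_succ']
    change s ((((resE s C hC) ^ n) x : C) : Q) = s ((s ^ n) (x : Q))
    rw [ih]

theorem herbrand_psi (l : ℕ) [hl : Fact l.Prime] (k : ℕ) (s : AddMonoid.End P)
    (hs : ∀ x, (∑ i ∈ Finset.range (l ^ k), s ^ i) x = 0) (m : ℕ → ℕ)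
    (hm : ∀ i < k, (l ^ (i + 1) - l ^ i) * m i +
      Module.finrank ℤ (kerE (s ^ l ^ i - 1 : AddMonoid.End P)) ≤
      Module.finrank ℤ (kerE (s ^ l ^ (i + 1) - 1 : AddMonoid.End P))) :
    Nat.card (kerE (s - 1 : AddMonoid.End P)) * l ^ (∑ i ∈ Finset.range k, m i) ≤
      (AddMonoidHom.range (s - 1 : AddMonoid.End P)).index ∧
      (AddMonoidHom.range (s - 1 : AddMonoid.End P)).index ≠ 0 := by
  set D : AddMonoid.End P := s - 1 with hD
  set n := l ^ k with hn
  have hn0 : n ≠ 0 := (pow_pos hl.out.pos k).ne'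
  -- `ker D` is killed by `n`
  have hker : ∀ x, D x = 0 → n • x = 0 := by
    intro x hx
    have h1 : s x = x := by
      have : s x - x = 0 := hx
      exact sub_eq_zero.1 this
    have h2 : ∀ i : ℕ, (s ^ i) x = x := by
      intro i
      induction i with
      | zero => rfl
      | succ i ih =>
        rw [pow_succ']
        change s ((s ^ i) x) = x
        rw [ih, h1]
    have h3 := hs x
    rw [sum_end_apply] at h3
    simp only [h2, Finset.sum_const, Finset.card_range] at h3
    exact h3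
  set T := AddCommGroup.torsion P with hT
  have hTmem : ∀ x, x ∈ T ↔ ∃ e : ℕ, e ≠ 0 ∧ e • x = 0 := by
    intro x
    rw [hT, AddCommGroup.mem_torsion, isOfFinAddOrder_iff_nsmul_eq_zero]
    constructor
    · rintro ⟨e, he, h⟩
      exact ⟨e, he.ne', h⟩
    · rintro ⟨e, he, h⟩
      exact ⟨e, Nat.pos_of_ne_zero he, h⟩
  set e := Nat.card T with he
  have he0 : e ≠ 0 := Nat.card_pos.ne'
  have heT : ∀ x ∈ T, e • x = 0 := by
    intro x hx
    have := card_nsmul_eq_zero' (x := (⟨x, hx⟩ : T))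
    exact congrArg Subtype.val this
  have hDT : ∀ x, D x ∈ T ↔ x ∈ T := by
    intro x
    rw [hTmem, hTmem]
    constructor
    · rintro ⟨a, ha, h⟩
      refine ⟨n * a, mul_ne_zero hn0 ha, ?_⟩
      rw [mul_smul]
      apply hker
      rw [map_nsmul, h]
    · rintro ⟨a, ha, h⟩
      exact ⟨a, ha, by rw [← map_nsmul, h, map_zero]⟩
  let E : P →+ P := nsmulAddMonoidHom e
  have hEk : E.ker = T := by
    ext x
    constructor
    · intro hx
      exact (hTmem x).2 ⟨e, he0, hx⟩
    · intro hx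
      exact heT x hx
  let Q : AddSubgroup P := E.range
  have hQtf : Module.IsTorsionFree ℤ Q := by
    apply Module.IsTorsionFree.of_smul_eq_zero
    rintro a ⟨_, y, rfl⟩ h
    by_cases ha : a = 0
    · exact Or.inl ha
    · right
      have h1 : a • (e • y) = 0 := congrArg Subtype.val h
      have h2 : y ∈ T := by
        rw [hTmem]
        refine ⟨a.natAbs * e, mul_ne_zero (Int.natAbs_ne_zero.2 ha) he0, ?_⟩
        rw [mul_smul]
        rcases Int.natAbs_eq a with h3 | h3
        · rw [h3, natCast_zsmul] at h1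
          exact h1
        · rw [h3, neg_smul, neg_eq_zero, natCast_zsmul] at h1
          exact h1
      exact Subtype.ext (heT y h2)
  have hQs : ∀ x ∈ Q, s x ∈ Q := by
    rintro _ ⟨y, rfl⟩
    exact ⟨s y, (map_nsmul s e y).symm⟩
  have hQfin : Module.Finite ℤ Q := by
    have : Module.Finite ℤ Q.toIntSubmodule := inferInstance
    exact this
  set sQ := resE s Q hQs with hsQ
  have hinj : Function.Injective (sQ - 1 : AddMonoid.End Q) := by
    rw [injective_iff_map_eq_zero]
    rintro ⟨_, y, rfl⟩ h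
    apply Subtype.ext
    have h1 : D (e • y) = 0 := congrArg Subtype.val h
    have h2 : e • y ∈ T := (hTmem _).2 ⟨n, hn0, hker _ h1⟩
    have h3 : y ∈ T := by
      obtain ⟨a, ha, h4⟩ := (hTmem _).1 h2
      rw [hTmem]
      exact ⟨a * e, mul_ne_zero ha he0, by rw [mul_smul, h4]⟩
    exact heT y h3
  have hrank : ∀ a : ℕ, Module.finrank ℤ (kerE (sQ ^ a - 1 : AddMonoid.End Q)) =
      Module.finrank ℤ (kerE (s ^ a - 1 : AddMonoid.End P)) := by
    intro a
    have h1 : Module.finrank ℤ (kerE (sQ ^ a - 1 : AddMonoid.End Q)) =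
        Module.finrank ℤ ((kerE (sQ ^ a - 1 : AddMonoid.End Q)).map Q.subtype) :=
      ((kerE (sQ ^ a - 1 : AddMonoid.End Q)).equivMapOfInjective Q.subtype
        Subtype.val_injective).toIntLinearEquiv.finrank_eq
    rw [h1]
    have h2 : ∀ x : Q, x ∈ kerE (sQ ^ a - 1 : AddMonoid.End Q) ↔
        (x : P) ∈ kerE (s ^ a - 1 : AddMonoid.End P) := by
      intro x
      have h3 : (((sQ ^ a - 1 : AddMonoid.End Q) x : Q) : P) =
          (s ^ a - 1 : AddMonoid.End P) (x : P) := by
        change (((sQ ^ a) x - x : Q) : P) = (s ^ a) (x : P) - (x : P)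
        rw [AddSubgroup.coe_sub, hsQ, resE_pow]
      rw [mem_kerE, mem_kerE, ← h3]
      exact Subtype.ext_iff
    apply le_antisymm
    · apply finrank_le_of_le
      rintro _ ⟨x, hx, rfl⟩
      exact (h2 x).1 hx
    · refine finrank_le_of_nsmul he0 fun x hx => ?_
      have h4 : (e • x : P) ∈ kerE (s ^ a - 1 : AddMonoid.End P) := AddSubgroup.nsmul_mem _ hx e
      exact ⟨⟨e • x, x, rfl⟩, (h2 ⟨e • x, x, rfl⟩).2 h4, rfl⟩
  have h1 := chain l sQ hinj k m (by
    intro i hi
    rw [hrank, hrank]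
    exact hm i hi)
  have hsn : s ^ n = 1 := by
    have h2 : (∑ i ∈ Finset.range n, s ^ i) = 0 := by
      ext x
      exact hs x
    have h3 := geom_sum_mul s n
    rw [h2, zero_mul] at h3
    exact (sub_eq_zero.1 h3.symm)
  have htop : kerE (sQ ^ l ^ k - 1 : AddMonoid.End Q) = ⊤ := by
    rw [eq_top_iff]
    rintro x -
    rw [mem_kerE]
    apply Subtype.ext
    change (((sQ ^ n) x - x : Q) : P) = 0
    rw [AddSubgroup.coe_sub, hsQ, resE_pow, hsn]
    exact sub_self _
  rw [htop] at h1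
  have h5 : ((⊤ : AddSubgroup Q).map (sQ - 1 : AddMonoid.End Q)).relIndex ⊤ =
      (Q.map D).relIndex Q := by
    have e1 : (⊤ : AddSubgroup Q).map (sQ - 1 : AddMonoid.End Q) = (Q.map D).addSubgroupOf Q := by
      ext x
      constructor
      · rintro ⟨y, -, rfl⟩
        exact ⟨y, y.2, rfl⟩
      · rintro ⟨y, hy, hyx⟩
        exact ⟨⟨y, hy⟩, trivial, Subtype.ext hyx⟩
    rw [e1, AddSubgroup.relIndex_top_right]
    rfl
  have h6 : (Q.map D).relIndex Q = (AddMonoidHom.range D ⊔ T).index := by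
    have e1 : Q.map D = (AddMonoidHom.range D).map E := by
      ext x
      constructor
      · rintro ⟨_, ⟨y, rfl⟩, rfl⟩
        exact ⟨D y, ⟨y, rfl⟩, (map_nsmul D e y).symm⟩
      · rintro ⟨_, ⟨y, rfl⟩, rfl⟩
        exact ⟨e • y, ⟨y, rfl⟩, map_nsmul D e y⟩
    have e2 := relIndex_map_range E (AddMonoidHom.range D)
    rw [hEk] at e2
    rw [e1]
    exact e2
  have h7 : (AddMonoidHom.range D).relIndex (AddMonoidHom.range D ⊔ T) =
      Nat.card (kerE D) := by
    rw [AddSubgroup.relIndex_sup_left, ← AddSubgroup.inf_relIndex_right]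
    have e1 : AddMonoidHom.range D ⊓ T = T.map D := by
      ext x
      constructor
      · rintro ⟨⟨y, rfl⟩, hy⟩
        exact ⟨y, (hDT y).1 hy, rfl⟩
      · rintro ⟨y, hy, rfl⟩
        exact ⟨⟨y, rfl⟩, (hDT y).2 hy⟩
    rw [e1]
    have hTD : T.map D ≤ T := by
      rintro _ ⟨y, hy, rfl⟩
      exact (hDT y).2 hy
    have e2 : (kerE D).relIndex T = Nat.card (T.map D) := AddSubgroup.relIndex_ker (f := (D : P →+ P)) (K := T)
    have e3 : Nat.card (kerE D) * (kerE D).relIndex T = Nat.card T := by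
      have hle : kerE D ≤ T := fun x hx => (hTmem x).2 ⟨n, hn0, hker x hx⟩
      have := AddSubgroup.relIndex_mul_relIndex ⊥ (kerE D) T bot_le hle
      rwa [AddSubgroup.relIndex_bot_left, AddSubgroup.relIndex_bot_left] at this
    have e4 : Nat.card (T.map D) * (T.map D).relIndex T = Nat.card T := by
      have := AddSubgroup.relIndex_mul_relIndex ⊥ (T.map D) T bot_le hTD
      rwa [AddSubgroup.relIndex_bot_left, AddSubgroup.relIndex_bot_left] at this
    have e5 : 0 < Nat.card (T.map D) := by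
      rcases Nat.eq_zero_or_pos (Nat.card (T.map D)) with h | h
      · rw [h, zero_mul] at e4
        exact absurd e4.symm Nat.card_pos.ne'
      · exact h
    have e6 : Nat.card (T.map D) * (T.map D).relIndex T = Nat.card (T.map D) * Nat.card (kerE D) := by
      rw [e4, ← e3, e2, mul_comm]
    exact Nat.eq_of_mul_eq_mul_left e5 e6
  have h8 : (AddMonoidHom.range D).index = Nat.card (kerE D) * (Q.map D).relIndex Q := by
    rw [← AddSubgroup.relIndex_mul_index (le_sup_left : AddMonoidHom.range D ≤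
      AddMonoidHom.range D ⊔ T), h7, h6]
  have h9 : (Q.map D).relIndex Q ≠ 0 := by
    rw [← h5]
    exact relIndex_map_ne_zero hinj ⊤ fun x _ => trivial
  have h10 : Nat.card (kerE D) ≠ 0 := by
    have hle : kerE D ≤ T := fun x hx => (hTmem x).2 ⟨n, hn0, hker x hx⟩
    have : Finite (kerE D) := Finite.of_injective _ (AddSubgroup.inclusion_injective hle)
    exact Nat.card_pos.ne'
  rw [h8]
  refine ⟨Nat.mul_le_mul_left _ ?_, mul_ne_zero h10 h9⟩
  rw [← h5]
  exact h1

end psi

end Fermat.Agent.ZC
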