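import Fermat.Agent.ZC.Cubic2
import Fermat.Agent.ZC.RCExists

/-!
# The residual eigenvalues of the ring class data are the traces of Frobenius
-/

set_option autoImplicit false
set_option linter.unusedSectionVars false
set_option linter.style.haveILetI false

open scoped Classical nonZeroDivisors Topology Pointwise

namespace Fermat.Agent.ZC

open NumberField IsDedekindDomain Module Fermat.Agent.CFT Fermat.Agent.H29Z QuadraticAlgebra

local notation "Ω" => AlgebraicClosure ℚ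
local notation "GQ" => (AlgebraicClosure ℚ ≃ₐ[ℚ] AlgebraicClosure ℚ)

section fix

variable {K : IntermediateField ℚ Ω} [NumberField K] {d : ℤ} (e : 𝓞 K ≃+* QI ℤ d)

theorem e_symm_eq (z : QI ℤ d) :
    e.symm z = (z.re : 𝓞 K) + (z.im : 𝓞 K) * e.symm ⟨0, 1⟩ := by
  apply e.injective
  rw [map_add, map_mul, e.apply_symm_apply, e.apply_symm_apply, map_intCast, map_intCast]
  ext
  · simp
  · simp

theorem w_sq : (e.symm ⟨0, 1⟩ : 𝓞 K) * e.symm ⟨0, 1⟩ = (d : 𝓞 K) := by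
  apply e.injective
  rw [map_mul, e.apply_symm_apply, map_intCast]
  ext
  · simp
  · simp

include e in
theorem mem_fix_of_w {φ : GQ}
    (h : φ (iO (algebraMap K Ω) (e.symm ⟨0, 1⟩)) = iO (algebraMap K Ω) (e.symm ⟨0, 1⟩)) :
    φ ∈ K.fixingSubgroup := by
  have h1 : ∀ x : 𝓞 K, φ (iO (algebraMap K Ω) x) = iO (algebraMap K Ω) x := by
    intro x
    obtain ⟨z, rfl⟩ := e.symm.surjective x
    rw [e_symm_eq, map_add, map_mul, map_intCast, map_intCast, map_add, map_mul, h, map_intCast,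
      map_intCast]
  rw [IntermediateField.mem_fixingSubgroup_iff]
  intro x hx
  obtain ⟨a, b, -, hab⟩ := IsFractionRing.div_surjective (A := 𝓞 K) (⟨x, hx⟩ : K)
  have h2 : x = iO (algebraMap K Ω) a / iO (algebraMap K Ω) b := by
    have := congrArg (algebraMap K Ω) hab
    rw [map_div₀] at this
    exact this.symm
  rw [h2, map_div₀, h1, h1]

include e in
/-- in the inert case there is no prime of degree one -/
theorem norm_vK_ne {A : ValuationSubring Ω} {ℓ : ℕ} (hℓ : ℓ.Prime) (hA : A.LiesOverPrime ℓ)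
    {φ : GQ} (hφ : A.IsFrobeniusAt φ ℓ) (hφK : φ ∉ K.fixingSubgroup)
    (hd : ¬ (ℓ : ℤ) ∣ 2 * d) : Ideal.absNorm (vK K hℓ hA).asIdeal ≠ ℓ := by
  intro hN
  rw [norm_eq_iff] at hN
  have h1 : ∀ x : 𝓞 K, φ (iO (algebraMap K Ω) x) - iO (algebraMap K Ω) x ∈ A.nonunits := by
    intro x
    have h2 := frob_sub hφ _ (int_mem (algebraMap K Ω) A x)
    have h3 := hN x
    rw [mem_plc, map_sub, map_pow] at h3
    have h4 := nonunits_add h2 h3
    rwa [sub_add_sub_cancel] at h4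
  set w := iO (algebraMap K Ω) (e.symm ⟨0, 1⟩) with hw
  have hw2 : w * w = (d : Ω) := by
    rw [hw, ← map_mul, w_sq, map_intCast]
  have hφw2 : φ w * φ w = (d : Ω) := by
    rw [← map_mul, hw2, map_intCast]
  have h5 : (φ w - w) * (φ w + w) = 0 := by linear_combination hφw2 - hw2
  rcases mul_eq_zero.mp h5 with h6 | h6
  · exact hφK (mem_fix_of_w e (sub_eq_zero.mp h6))
  · have h7 := h1 (e.symm ⟨0, 1⟩)
    rw [← hw, eq_neg_of_add_eq_zero_left h6] at h7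
    have h8 : ((4 * d : ℤ) : Ω) ∈ A.nonunits := by
      have h9 : ((4 * d : ℤ) : Ω) = (-w - w) * (-w - w) := by
        push_cast
        linear_combination (-4) * hw2
      rw [h9]
      exact nonunits_mul (ValuationSubring.nonunits_subset h7) h7
    have h10 : ((4 * d : ℤ) : 𝓞 K) ∈ (vK K hℓ hA).asIdeal := by
      rw [mem_plc, map_intCast]
      exact h8
    have hlp : Prime (ℓ : ℤ) := Nat.prime_iff_prime_int.mp hℓ
    have h11 : (ℓ : ℤ) ∣ 4 * d := by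
      by_contra hcon
      obtain ⟨a, b, hab⟩ := (Irreducible.coprime_iff_not_dvd hlp.irreducible).mpr hcon
      apply (vK K hℓ hA).isPrime.ne_top
      rw [Ideal.eq_top_iff_one]
      have h12 : (1 : 𝓞 K) = (a : 𝓞 K) * (ℓ : 𝓞 K) + (b : 𝓞 K) * ((4 * d : ℤ) : 𝓞 K) := by
        have := congrArg (fun z : ℤ => (z : 𝓞 K)) hab
        push_cast at this ⊢
        exact this.symm
      rw [h12]
      exact add_mem (Ideal.mul_mem_left _ _ (nat_mem_plc _ hℓ hA)) (Ideal.mul_mem_left _ _ h10)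
    apply hd
    have h13 : (ℓ : ℤ) ∣ 2 * (2 * d) := by
      have : (4 * d : ℤ) = 2 * (2 * d) := by ring
      rwa [this] at h11
    rcases hlp.dvd_or_dvd h13 with h | h
    · exact dvd_mul_of_dvd_left h d
    · exact h

include e in
theorem vK_eq {ℓ : ℕ} (hℓ : ℓ.Prime)
    {P Q : Ideal (𝓞 K)} (hP : P.IsPrime) (hQ : Q.IsPrime) (hPN : Ideal.absNorm P = ℓ)
    (hQN : Ideal.absNorm Q = ℓ)
    (hPQ : P * Q = Ideal.span {(ℓ : 𝓞 K)}) {v : Ideal (𝓞 K)} (hv : v.IsPrime)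
    (hℓv : (ℓ : 𝓞 K) ∈ v) : v = P ∨ v = Q := by
  have hl0 : (ℓ : 𝓞 K) ≠ 0 := Nat.cast_ne_zero.mpr hℓ.ne_zero
  have hs0 : Ideal.span {(ℓ : 𝓞 K)} ≠ ⊥ := by rwa [Ne, Ideal.span_singleton_eq_bot]
  have hP0 : P ≠ ⊥ := by rintro rfl; rw [Ideal.bot_mul] at hPQ; exact hs0 hPQ.symm
  have hQ0 : Q ≠ ⊥ := by rintro rfl; rw [Ideal.mul_bot] at hPQ; exact hs0 hPQ.symm
  have h1 : P * Q ≤ v := by rw [hPQ, Ideal.span_singleton_le_iff_mem]; exact hℓv
  rcases hv.mul_le.mp h1 with h | h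
  · exact Or.inl (Ideal.IsMaximal.eq_of_le (hP.isMaximal hP0) hv.ne_top h).symm
  · exact Or.inr (Ideal.IsMaximal.eq_of_le (hQ.isMaximal hQ0) hv.ne_top h).symm

end fix

section main

variable {K : IntermediateField ℚ Ω} [NumberField K] {d : ℤ} {e : 𝓞 K ≃+* QI ℤ d}
  {B : Finset ℕ} [PB B] [IB d B] {ξ : (i : B) → MulChar (QI (ZMod (i : ℕ)) d) ℂ}
  {ρ0 : GQ →* Matrix (Fin 2) (Fin 2) (ZMod 2)}

/-- **The residual eigenvalues** -/
theorem aL_eq_ite (hK : ∀ g, g ∈ K.fixingSubgroup ↔ (ρ0 g = 1 ∨ (ρ0 g).trace = 1))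
    (C : CubChar K ρ0.ker) (R : RC e B ξ C.ψ) {A' : ValuationSubring ℂ}
    (h2 : (2 : ℂ) ∈ A'.nonunits) {ℓ : ℕ} (hℓ : ℓ.Prime) (hT : ℓ ∉ C.T)
    (hd : ¬ (ℓ : ℤ) ∣ 2 * d * (fB B : ℕ)) {A : ValuationSubring Ω} (hA : A.LiesOverPrime ℓ)
    {φ : GQ} (hφ : A.IsFrobeniusAt φ ℓ) :
    aL A' R.X ℓ = if (ρ0 φ).trace = 1 then 1 else 0 := by
  have hd' : ¬ (ℓ : ℤ) ∣ 2 * d := fun h => hd (dvd_mul_of_dvd_left h _)
  have hB : ¬ ℓ ∣ fB B := fun h => hd (dvd_mul_of_dvd_right (Int.natCast_dvd_natCast.mpr h) _)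
  have hl0 : (ℓ : 𝓞 K) ≠ 0 := Nat.cast_ne_zero.mpr hℓ.ne_zero
  have hs0 : Ideal.span {(ℓ : 𝓞 K)} ≠ ⊥ := by rwa [Ne, Ideal.span_singleton_eq_bot]
  haveI := (vK K hℓ hA).isPrime
  have hℓv := nat_mem_plc (algebraMap K Ω) hℓ hA
  by_cases hφK : φ ∈ K.fixingSubgroup
  · have hN := norm_vK hℓ hA hφ hφK
    have hfr := C.frob hℓ hT hA hφ hφK
    rcases cases_prime e hℓ with ⟨-, h⟩ | ⟨P, Q, hP, hQ, hPN, hQN, hPQ⟩
    · exfalso
      obtain ⟨c, hc⟩ := h (vK K hℓ hA).asIdeal (by rw [hN])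
      rw [hc, map_mul, absNorm_span_nat e, pow_two, mul_assoc] at hN
      have h3 : ℓ * Ideal.absNorm c = 1 :=
        Nat.eq_of_mul_eq_mul_left hℓ.pos (by rw [hN, mul_one])
      exact hℓ.one_lt.ne' (Nat.eq_one_of_mul_eq_one_right h3)
    -- we may assume `v = P`
    wlog hvP : (vK K hℓ hA).asIdeal = P generalizing P Q with H
    · refine H Q P hQ hP hQN hPN (by rw [mul_comm]; exact hPQ) ?_
      exact (vK_eq e hℓ hP hQ hPN hQN hPQ this hℓv).resolve_left hvP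
    have hP0 : P ≠ ⊥ := by rintro rfl; rw [Ideal.bot_mul] at hPQ; exact hs0 hPQ.symm
    have hQ0 : Q ≠ ⊥ := by rintro rfl; rw [Ideal.mul_bot] at hPQ; exact hs0 hPQ.symm
    have hne : P ≠ Q := by
      rintro rfl
      exact ne_of_unram e hℓ hd' hPQ hPN
    have hidn : idn K ℓ = {P, Q} := by
      ext c
      rw [mem_idn, Finset.mem_insert, Finset.mem_singleton]
      constructor
      · intro hc
        have hcp : c.IsPrime := Ideal.isPrime_of_irreducible_absNorm (by rw [hc]; exact hℓ)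
        exact vK_eq e hℓ hP hQ hPN hQN hPQ hcp (by rw [← hc]; exact Ideal.absNorm_mem c)
      · rintro (rfl | rfl)
        · exact hPN
        · exact hQN
    have hXs : R.X (Ideal.span {(ℓ : 𝓞 K)}) ≠ 0 := by
      rw [R.X_ne]
      refine ⟨hs0, ?_⟩
      have hc : IsCoprime (ℓ : ℤ) (fB B : ℤ) := Nat.isCoprime_iff_coprime.mpr
        ((Nat.Prime.coprime_iff_not_dvd hℓ).mpr hB)
      rw [Ideal.isCoprime_span_singleton_iff]
      have := hc.map (Int.castRingHom (𝓞 K))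
      simpa using this
    rw [← hPQ, R.X_mul] at hXs
    have hXP := left_ne_zero_of_mul hXs
    have hXQ := right_ne_zero_of_mul hXs
    have hPz := mem_nonZeroDivisors_of_ne_zero hP0
    have hQz := mem_nonZeroDivisors_of_ne_zero hQ0
    rw [aL, hidn, Finset.sum_pair hne, R.res_X A' h2 P hPz hXP, R.res_X A' h2 Q hQz hXQ]
    have hmul : C.ψ (ClassGroup.mk0 ⟨P, hPz⟩) * C.ψ (ClassGroup.mk0 ⟨Q, hQz⟩) = 1 := by
      rw [← map_mul, ← map_mul]
      have : ClassGroup.mk0 ((⟨P, hPz⟩ : (Ideal (𝓞 K))⁰) * ⟨Q, hQz⟩) = 1 := by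
        rw [ClassGroup.mk0_eq_one_iff]
        change Submodule.IsPrincipal (P * Q)
        rw [hPQ]
        exact ⟨⟨_, rfl⟩⟩
      rw [this, map_one]
    have hclv : clv (vK K hℓ hA) = ClassGroup.mk0 ⟨P, hPz⟩ := by
      rw [clv]
      congr 1
      exact Subtype.ext hvP
    rw [hclv] at hfr
    set z := C.ψ (ClassGroup.mk0 ⟨P, hPz⟩) with hz
    have hz3 : (z : ℂ) ^ 3 = 1 := by
      rw [← Units.val_pow_eq_pow_val, C.ψ_pow, Units.val_one]
    have hzA : (z : ℂ) ∈ A' := mem_of_pow_eq_one three_ne_zero hz3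
    have hQz' : C.ψ (ClassGroup.mk0 ⟨Q, hQz⟩) = z ^ 2 := by
      rw [eq_inv_of_mul_eq_one_right hmul, inv_eq_of_mul_eq_one_right]
      rw [← pow_succ', C.ψ_pow]
    rw [hQz', Units.val_pow_eq_pow_val, resA_pow hzA]
    have htwo := two_eq_zero h2
    by_cases hz1 : z = 1
    · have h4 : ρ0 φ = 1 := hfr.mp hz1
      rw [hz1, Units.val_one, resA_one, one_pow, h4, Matrix.trace_one, Fintype.card_fin,
        if_neg (by decide), one_add_one_eq_two]
      exact htwo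
    · have h4 : ρ0 φ ≠ 1 := fun h => hz1 (hfr.mpr h)
      have h5 : (ρ0 φ).trace = 1 := ((hK φ).mp hφK).resolve_left h4
      rw [if_pos h5]
      have h6 : resA A' (z : ℂ) ≠ 1 := resA_ne_one h2 hz3 fun h => hz1 (Units.ext h)
      have h7 : resA A' (z : ℂ) ^ 3 = 1 := by rw [← resA_pow hzA, hz3, resA_one]
      have h8 : resA A' (z : ℂ) ^ 2 + resA A' (z : ℂ) + 1 = 0 := by
        have : (resA A' (z : ℂ) - 1) * (resA A' (z : ℂ) ^ 2 + resA A' (z : ℂ) + 1) = 0 := by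
          linear_combination h7
        exact (mul_eq_zero.mp this).resolve_left (sub_ne_zero.mpr h6)
      linear_combination h8 - htwo
  · have h3 : (ρ0 φ).trace ≠ 1 := fun h => hφK ((hK φ).mpr (Or.inr h))
    rw [if_neg h3, aL]
    refine Finset.sum_eq_zero fun c hc => ?_
    exfalso
    rw [mem_idn] at hc
    have hN := norm_vK_ne e hℓ hA hφ hφK hd'
    rcases cases_prime e hℓ with ⟨-, h⟩ | ⟨P, Q, hP, hQ, hPN, hQN, hPQ⟩
    · obtain ⟨b, rfl⟩ := h c (by rw [hc])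
      rw [map_mul, absNorm_span_nat e, pow_two, mul_assoc] at hc
      have h3 : ℓ * Ideal.absNorm b = 1 :=
        Nat.eq_of_mul_eq_mul_left hℓ.pos (by rw [hc, mul_one])
      exact hℓ.one_lt.ne' (Nat.eq_one_of_mul_eq_one_right h3)
    · rcases vK_eq e hℓ hP hQ hPN hQN hPQ this hℓv with h | h
      · exact hN (by rw [h, hPN])
      · exact hN (by rw [h, hQN])

end main

/-! ### The identification of residual representations -/

section ident

theorem pow_trace_rec {T : Type*} [CommRing T] (X : Matrix (Fin 2) (Fin 2) T) (hX : X.det = 1)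
    (k : ℕ) : (X ^ (k + 2)).trace = X.trace * (X ^ (k + 1)).trace - (X ^ k).trace := by
  have h1 : X ^ 2 = X.trace • X - 1 := by
    have h2 := hX
    rw [Matrix.det_fin_two] at h2
    ext i j
    rw [pow_two, Matrix.mul_apply, Fin.sum_univ_two, Matrix.trace_fin_two]
    fin_cases i <;> fin_cases j <;> simp
    · linear_combination -h2
    · ring
    · ring
    · linear_combination -h2
  rw [pow_add, h1, mul_sub, mul_one, Matrix.mul_smul, ← pow_succ, Matrix.trace_sub,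
    Matrix.trace_smul, smul_eq_mul]

theorem pow_trace {R S : Type*} [CommRing R] [CommRing S] (f : S →+* R)
    (M : Matrix (Fin 2) (Fin 2) R) (N : Matrix (Fin 2) (Fin 2) S) (hM : M.det = 1) (hN : N.det = 1)
    (h : M.trace = f N.trace) (n : ℕ) : (M ^ n).trace = f (N ^ n).trace := by
  induction n using Nat.twoStepInduction with
  | zero => simp [map_ofNat f 2]
  | one => simpa using h
  | more k ih1 ih2 => rw [pow_trace_rec M hM, pow_trace_rec N hN, map_sub, map_mul, ih1, ih2, h]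

theorem det_eq_one_zmod (ρ0 : GQ →* Matrix (Fin 2) (Fin 2) (ZMod 2)) (g : GQ) :
    (ρ0 g).det = 1 := by
  have h2 : ρ0 g * ρ0 g⁻¹ = 1 := by rw [← map_mul, mul_inv_cancel, map_one]
  have h3 := congrArg Matrix.det h2
  rw [Matrix.det_mul, Matrix.det_one] at h3
  have h4 := left_ne_zero_of_mul_eq_one h3
  revert h4
  generalize (ρ0 g).det = x
  revert x
  decide

/-- **Identification**: two representations with the same traces of Frobenius outside a set of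
primes with bounded Dirichlet sum have the same trace. -/
theorem trace_eq_of_frob {R S : Type*} [CommRing R] [CommRing S] (f : S →+* R)
    (r : GQ →* Matrix (Fin 2) (Fin 2) R) (ρ : GQ →* Matrix (Fin 2) (Fin 2) S)
    (hr : ∀ σ, (r σ).det = 1) (hρ : ∀ σ, (ρ σ).det = 1)
    (F F' : IntermediateField ℚ Ω) [FiniteDimensional ℚ F] [FiniteDimensional ℚ F']
    (hF : ∀ σ ∈ F.fixingSubgroup, r σ = 1) (hF' : ∀ σ ∈ F'.fixingSubgroup, ρ σ = 1)
    {T : Set ℕ} (hT : BddQ T)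
    (h : ∀ ℓ : ℕ, ℓ.Prime → ℓ ∉ T → ∀ A : ValuationSubring Ω, A.LiesOverPrime ℓ → ∀ φ : GQ,
      A.IsFrobeniusAt φ ℓ → (r φ).trace = f (ρ φ).trace) (σ : GQ) :
    (r σ).trace = f (ρ σ).trace := by
  obtain ⟨ℓ, hℓ, hℓT, A, hA, φ, hφ, m, n, -, h1⟩ := exists_frobenius_bdd (F ⊔ F') hT σ
  have h2 : (φ ^ n)⁻¹ * σ ∈ (F ⊔ F').fixingSubgroup := by
    rw [IntermediateField.mem_fixingSubgroup_iff]
    intro x hx
    change (φ ^ n).symm (σ x) = x
    rw [h1 x hx, AlgEquiv.symm_apply_apply]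
  have h3 : r σ = r φ ^ n := by
    have h4 := hF _ (IntermediateField.fixingSubgroup_le (le_sup_left (b := F')) h2)
    have h5 : σ = φ ^ n * ((φ ^ n)⁻¹ * σ) := by rw [mul_inv_cancel_left]
    rw [h5, map_mul, h4, mul_one, map_pow]
  have h4 : ρ σ = ρ φ ^ n := by
    have h4 := hF' _ (IntermediateField.fixingSubgroup_le (le_sup_right (a := F)) h2)
    have h5 : σ = φ ^ n * ((φ ^ n)⁻¹ * σ) := by rw [mul_inv_cancel_left]
    rw [h5, map_mul, h4, mul_one, map_pow]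
  rw [h3, h4]
  exact pow_trace f _ _ (hr φ) (hρ φ) (h ℓ hℓ hℓT A hA φ hφ) n

end ident

section final

variable {K : IntermediateField ℚ Ω} [NumberField K] {d : ℤ} {e : 𝓞 K ≃+* QI ℤ d}
  {B : Finset ℕ} [PB B] [IB d B] {ξ : (i : B) → MulChar (QI (ZMod (i : ℕ)) d) ℂ}
  {ρ0 : GQ →* Matrix (Fin 2) (Fin 2) (ZMod 2)}

theorem castHom_eq_ite {k : Type*} [CommRing k] [CharP k 2] (x : ZMod 2) :
    ZMod.castHom (dvd_refl 2) k x = if x = 1 then 1 else 0 := by
  have : x = 0 ∨ x = 1 := by revert x; decide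
  rcases this with rfl | rfl
  · rw [if_neg (by decide), map_zero]
  · rw [if_pos rfl, map_one]

/-- the residual eigenvalues as traces of Frobenius -/
theorem aL_eq_trace (hK : ∀ g, g ∈ K.fixingSubgroup ↔ (ρ0 g = 1 ∨ (ρ0 g).trace = 1))
    (C : CubChar K ρ0.ker) (R : RC e B ξ C.ψ) {A' : ValuationSubring ℂ}
    [CharP (IsLocalRing.ResidueField A') 2]
    (h2 : (2 : ℂ) ∈ A'.nonunits) {ℓ : ℕ} (hℓ : ℓ.Prime) (hT : ℓ ∉ C.T)
    (hd : ¬ (ℓ : ℤ) ∣ 2 * d * (fB B : ℕ)) {A : ValuationSubring Ω} (hA : A.LiesOverPrime ℓ)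
    {φ : GQ} (hφ : A.IsFrobeniusAt φ ℓ) :
    aL A' R.X ℓ = ZMod.castHom (dvd_refl 2) (IsLocalRing.ResidueField A') (ρ0 φ).trace := by
  rw [aL_eq_ite hK C R h2 hℓ hT hd hA hφ, castHom_eq_ite]

/-- **Identification with the ring class eigenvalues**: a residual representation whose traces
of Frobenius are the residual eigenvalues of the ring class data has the trace of `ρ0`. -/
theorem trace_eq_of_aL (hK : ∀ g, g ∈ K.fixingSubgroup ↔ (ρ0 g = 1 ∨ (ρ0 g).trace = 1))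
    (hd0 : d ≠ 0) (C : CubChar K ρ0.ker) (R : RC e B ξ C.ψ) {A' : ValuationSubring ℂ}
    [CharP (IsLocalRing.ResidueField A') 2] (h2 : (2 : ℂ) ∈ A'.nonunits)
    {k : Type*} [CommRing k] [CharP k 2] (j : k →+* IsLocalRing.ResidueField A')
    (hj : Function.Injective j)
    (r : GQ →* Matrix (Fin 2) (Fin 2) k) (hr : ∀ σ, (r σ).det = 1)
    (F F' : IntermediateField ℚ Ω) [FiniteDimensional ℚ F] [FiniteDimensional ℚ F']
    (hF : ∀ σ ∈ F.fixingSubgroup, r σ = 1) (hF' : ∀ σ ∈ F'.fixingSubgroup, ρ0 σ = 1)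
    {D : ℕ} (hD : D ≠ 0)
    (h : ∀ ℓ : ℕ, ℓ.Prime → ¬ ℓ ∣ D → ∀ A : ValuationSubring Ω, A.LiesOverPrime ℓ → ∀ φ : GQ,
      A.IsFrobeniusAt φ ℓ → j (r φ).trace = aL A' R.X ℓ) (σ : GQ) :
    (r σ).trace = ZMod.castHom (dvd_refl 2) k (ρ0 σ).trace := by
  have hf0 : (2 * d * (fB B : ℕ) : ℤ) ≠ 0 :=
    mul_ne_zero (mul_ne_zero two_ne_zero hd0) (by exact_mod_cast fB_ne_zero B)
  have hT1 : BddQ {ℓ : ℕ | ℓ ∣ D ∨ (ℓ : ℤ) ∣ 2 * d * (fB B : ℕ)} := by
    refine bddQ_finite ?_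
    have h1 : {ℓ : ℕ | ℓ ∣ D}.Finite := Set.Finite.subset (Finset.finite_toSet (Nat.divisors D))
      fun ℓ hℓ => Finset.mem_coe.mpr (Nat.mem_divisors.mpr ⟨hℓ, hD⟩)
    have h2 : {ℓ : ℕ | (ℓ : ℤ) ∣ 2 * d * (fB B : ℕ)}.Finite :=
      Set.Finite.subset (Finset.finite_toSet (Nat.divisors (2 * d * (fB B : ℕ)).natAbs))
      fun ℓ hℓ => Finset.mem_coe.mpr (Nat.mem_divisors.mpr
        ⟨Int.natCast_dvd.mp hℓ, Int.natAbs_ne_zero.mpr hf0⟩)
    exact (h1.union h2).subset fun ℓ hℓ => hℓ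
  refine trace_eq_of_frob _ r ρ0 hr (det_eq_one_zmod ρ0) F F' hF hF' (C.bdd.union hT1) ?_ σ
  intro ℓ hℓ hℓT A hA φ hφ
  rw [Set.mem_union, not_or] at hℓT
  obtain ⟨h3, h4⟩ := hℓT
  rw [Set.mem_ofPred_eq, not_or] at h4
  apply hj
  rw [h ℓ hℓ h4.1 A hA φ hφ, aL_eq_trace hK C R h2 hℓ h3 h4.2 hA hφ]
  have h5 : j.comp (ZMod.castHom (dvd_refl 2) k) =
      ZMod.castHom (dvd_refl 2) (IsLocalRing.ResidueField A') := Subsingleton.elim _ _
  exact (RingHom.congr_fun h5 _).symm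

end final

end Fermat.Agent.ZC
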