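import Fermat.Agent.ZC.RCChar

/-!
# The base character of the ring class data and its reduction
-/

set_option autoImplicit false
set_option linter.unusedSectionVars false
set_option linter.style.haveILetI false

open scoped Classical nonZeroDivisors

namespace Fermat.Agent.ZC

open NumberField Fermat.Agent.H29Z QuadraticAlgebra

noncomputable section

/-! ### residues -/

section res

variable {A : ValuationSubring ℂ}

theorem mem_of_pow_eq_one {z : ℂ} {n : ℕ} (hn : n ≠ 0) (h : z ^ n = 1) : z ∈ A := by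
  rw [← ValuationSubring.valuation_le_one_iff]
  have h1 : A.valuation z ^ n = 1 := by rw [← map_pow, h, map_one]
  exact ((pow_eq_one_iff.mp h1).resolve_right hn).le

theorem resA_mul {z w : ℂ} (hz : z ∈ A) (hw : w ∈ A) : resA A (z * w) = resA A z * resA A w := by
  rw [resA_of_mem hz, resA_of_mem hw, resA_of_mem (mul_mem hz hw), ← map_mul]
  rfl

theorem resA_pow {z : ℂ} (hz : z ∈ A) (n : ℕ) : resA A (z ^ n) = resA A z ^ n := by
  rw [resA_of_mem hz, resA_of_mem (pow_mem hz n), ← map_pow]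
  rfl

theorem resA_one : resA A 1 = 1 := by
  rw [resA_of_mem (one_mem A)]
  exact map_one _

theorem resA_zero : resA A 0 = 0 := by
  rw [resA_of_mem (zero_mem A)]
  exact map_zero _

theorem two_eq_zero (h2 : (2 : ℂ) ∈ A.nonunits) : (2 : IsLocalRing.ResidueField A) = 0 := by
  have h : IsLocalRing.residue A (2 : A) = 0 := by
    rw [IsLocalRing.residue_eq_zero_iff, A.valuation_lt_one_iff]
    rw [ValuationSubring.mem_nonunits_iff] at h2
    exact h2
  rw [map_ofNat] at h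
  exact h

theorem charP_res (h2 : (2 : ℂ) ∈ A.nonunits) : CharP (IsLocalRing.ResidueField A) 2 :=
  CharTwo.of_one_ne_zero_of_two_eq_zero one_ne_zero (two_eq_zero h2)

theorem resA_eq_one (h2 : (2 : ℂ) ∈ A.nonunits) {z : ℂ} {r : ℕ} (hz : z ^ 2 ^ r = 1) :
    resA A z = 1 := by
  haveI := charP_res h2
  have hzA : z ∈ A := mem_of_pow_eq_one (by positivity) hz
  have h1 : resA A z ^ 2 ^ r = 1 := by rw [← resA_pow hzA, hz, resA_one]
  have h3 : (resA A z - 1) ^ 2 ^ r = 0 := by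
    rw [sub_pow_char_pow, h1, one_pow, sub_self]
  exact sub_eq_zero.mp (pow_eq_zero_iff (by positivity) |>.mp h3)

theorem resA_ne_one (h2 : (2 : ℂ) ∈ A.nonunits) {z : ℂ} (hz : z ^ 3 = 1) (hz1 : z ≠ 1) :
    resA A z ≠ 1 := by
  intro h
  have hzA : z ∈ A := mem_of_pow_eq_one (by norm_num) hz
  have h3 : z ^ 2 + z + 1 = 0 := by
    have : (z - 1) * (z ^ 2 + z + 1) = 0 := by linear_combination hz
    exact (mul_eq_zero.mp this).resolve_left (sub_ne_zero.mpr hz1)
  have h4 : IsLocalRing.residue A (⟨z, hzA⟩ ^ 2 + ⟨z, hzA⟩ + 1) = 0 := by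
    have : (⟨z, hzA⟩ ^ 2 + ⟨z, hzA⟩ + 1 : A) = 0 := Subtype.ext h3
    rw [this, map_zero]
  rw [resA_of_mem hzA] at h
  rw [map_add, map_add, map_pow, h, map_one] at h4
  have h5 := two_eq_zero h2
  have : (1 : IsLocalRing.ResidueField A) = 0 := by linear_combination h4 - h5
  exact one_ne_zero this

end res

variable {K : Type} [Field K] [NumberField K] {d : ℤ} (e : 𝓞 K ≃+* QI ℤ d)
  (B : Finset ℕ) [PB B] [IB d B]

section XI

variable (X0 : RG K B →* ℂˣ)

/-- the character on ideals -/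
def XI (b : Ideal (𝓞 K)) : ℂ := if b ∈ PI (mB K B) then ((X0 (rcI (mB_ne_bot B) b) : ℂˣ) : ℂ) else 0

theorem XI_of_mem {b : Ideal (𝓞 K)} (h : b ∈ PI (mB K B)) :
    XI B X0 b = ((X0 (rcI (mB_ne_bot B) b) : ℂˣ) : ℂ) := if_pos h

theorem XI_ne {b : Ideal (𝓞 K)} : XI B X0 b ≠ 0 ↔ b ∈ PI (mB K B) := by
  constructor
  · intro h
    by_contra hb
    exact h (if_neg hb)
  · intro h
    rw [XI_of_mem B X0 h]
    exact Units.ne_zero _

theorem XI_mul (a b : Ideal (𝓞 K)) : XI B X0 (a * b) = XI B X0 a * XI B X0 b := by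
  by_cases ha : a ∈ PI (mB K B)
  · by_cases hb : b ∈ PI (mB K B)
    · rw [XI_of_mem B X0 ha, XI_of_mem B X0 hb, XI_of_mem B X0 (mul_mem_PI.mpr ⟨ha, hb⟩),
        rcI_mul _ ha hb, map_mul, Units.val_mul]
    · rw [XI, if_neg fun h => hb (mul_mem_PI.mp h).2, XI, XI, if_neg hb, mul_zero]
  · rw [XI, if_neg fun h => ha (mul_mem_PI.mp h).1, XI, if_neg ha, zero_mul]

theorem top_mem_PI : (⊤ : Ideal (𝓞 K)) ∈ PI (mB K B) := by
  rw [← Ideal.one_eq_top]; exact one_mem _

theorem rcI_top : rcI (mB_ne_bot (K := K) B) ⊤ = 1 := by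
  rw [rcI_of_mem _ (top_mem_PI B)]
  have : (⟨⊤, top_mem_PI B⟩ : PI (mB K B)) = 1 := Subtype.ext Ideal.one_eq_top.symm
  rw [this, map_one]

theorem XI_top : XI B X0 ⊤ = 1 := by
  rw [XI_of_mem B X0 (top_mem_PI B), rcI_top, map_one, Units.val_one]

theorem XI_pow {n : ℕ} (h : ∀ c, X0 c ^ n = 1) {b : Ideal (𝓞 K)} (hb : XI B X0 b ≠ 0) :
    XI B X0 b ^ n = 1 := by
  rw [XI_of_mem B X0 ((XI_ne B X0).mp hb), ← Units.val_pow_eq_pow_val, h, Units.val_one]

theorem XI_mem {n : ℕ} (hn : n ≠ 0) (h : ∀ c, X0 c ^ n = 1) (A : ValuationSubring ℂ)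
    (b : Ideal (𝓞 K)) : XI B X0 b ∈ A := by
  by_cases hb : XI B X0 b = 0
  · rw [hb]; exact zero_mem A
  · exact mem_of_pow_eq_one hn (XI_pow B X0 h hb)

/-- the reduced multiplicative function -/
def PhiA {n : ℕ} (hn : n ≠ 0) (h : ∀ c, X0 c ^ n = 1) (A : ValuationSubring ℂ) :
    Ideal (𝓞 K) →* MonoidAlgebra (IsLocalRing.ResidueField A) (GB K B) where
  toFun b := MonoidAlgebra.single (clsB B b) (resA A (XI B X0 b))
  map_one' := by
    rw [Ideal.one_eq_top, XI_top, resA_one, clsB, rcI_top]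
    rfl
  map_mul' a b := by
    rw [XI_mul, resA_mul (XI_mem B X0 hn h A a) (XI_mem B X0 hn h A b),
      MonoidAlgebra.single_mul_single]
    by_cases ha : a ∈ PI (mB K B)
    · by_cases hb : b ∈ PI (mB K B)
      · rw [clsB_mul B ha hb]
      · have : XI B X0 b = 0 := if_neg hb
        rw [this, resA_zero, mul_zero, MonoidAlgebra.single_zero, MonoidAlgebra.single_zero]
    · have : XI B X0 a = 0 := if_neg ha
      rw [this, resA_zero, zero_mul, MonoidAlgebra.single_zero, MonoidAlgebra.single_zero]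

theorem PhiA_apply {n : ℕ} (hn : n ≠ 0) (h : ∀ c, X0 c ^ n = 1) (A : ValuationSubring ℂ)
    (b : Ideal (𝓞 K)) : PhiA B X0 hn h A b =
      MonoidAlgebra.single (clsB B b) (resA A (XI B X0 b)) := rfl

theorem Ssum_PhiA {n : ℕ} (hn : n ≠ 0) (h : ∀ c, X0 c ^ n = 1) (A : ValuationSubring ℂ) (m : ℕ) :
    Ssum (PhiA B X0 hn h A) m = thG A (clsB B) (XI B X0) m := rfl

end XI

end

end Fermat.Agent.ZC
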