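import Mathlib

/-!
# (CF5), algebra: generators of the group algebra of a finite 2-group in characteristic two
-/

set_option autoImplicit false
set_option linter.unusedSectionVars false
set_option linter.style.haveILetI false

namespace Fermat.Agent.ZC

open MonoidAlgebra

section

variable {k G : Type*} [Field k] [CommGroup G]

/-- the augmentation -/
noncomputable def aug (k G : Type*) [Field k] [CommGroup G] : MonoidAlgebra k G →ₐ[k] k :=
  MonoidAlgebra.lift k k G (1 : G →* k)

theorem aug_single (g : G) (c : k) : aug k G (single g c) = c := by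
  rw [aug, lift_single]
  simp

/-- the augmentation ideal -/
noncomputable def augI (k G : Type*) [Field k] [CommGroup G] : Ideal (MonoidAlgebra k G) :=
  RingHom.ker (aug k G)

theorem mem_augI {x : MonoidAlgebra k G} : x ∈ augI k G ↔ aug k G x = 0 := Iff.rfl

theorem of_sub_one_mem (g : G) : (of k G g - 1 : MonoidAlgebra k G) ∈ augI k G := by
  rw [mem_augI, map_sub, map_one, of_apply, aug_single, sub_self]

theorem sub_aug_mem (x : MonoidAlgebra k G) :
    x - algebraMap k _ (aug k G x) ∈ augI k G := by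
  rw [mem_augI, map_sub, AlgHom.commutes]
  simp

/-- the augmentation ideal is spanned by the `g - 1` -/
theorem augI_le_of (P : Submodule k (MonoidAlgebra k G))
    (hP : ∀ g : G, (of k G g - 1 : MonoidAlgebra k G) ∈ P)
    (x : MonoidAlgebra k G) (hx : x ∈ augI k G) : x ∈ P := by
  have h : ∀ y : MonoidAlgebra k G, y - algebraMap k _ (aug k G y) ∈ P := by
    intro y
    induction y using MonoidAlgebra.induction_on with
    | of g =>
      have := hP g
      rw [of_apply, aug_single, map_one]
      exact this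
    | add y z hy hz =>
      have := P.add_mem hy hz
      rw [map_add, map_add]
      convert this using 1
      abel
    | smul c y hy =>
      have := P.smul_mem c hy
      rw [map_smul, smul_eq_mul, map_mul, Algebra.smul_def, ← mul_sub, ← Algebra.smul_def]
      exact this
  have := h x
  rw [mem_augI.mp hx, map_zero, sub_zero] at this
  exact this

variable [Finite G]

/-- the augmentation ideal is nilpotent -/
theorem isNilpotent_augI [CharP k 2] (hG : IsPGroup 2 G) : IsNilpotent (augI k G) := by
  haveI : Module.Finite k (MonoidAlgebra k G) := inferInstance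
  haveI : IsNoetherian k (MonoidAlgebra k G) := isNoetherian_of_isNoetherianRing_of_finite k _
  haveI : IsNoetherianRing (MonoidAlgebra k G) := isNoetherian_of_tower k inferInstance
  rw [Ideal.FG.isNilpotent_iff_le_nilradical (IsNoetherian.noetherian _)]
  intro x hx
  have h : x ∈ (nilradical (MonoidAlgebra k G)).restrictScalars k := by
    refine augI_le_of _ (fun g => ?_) x hx
    rw [Submodule.restrictScalars_mem, mem_nilradical]
    obtain ⟨n, hn⟩ := hG g
    haveI : CharP (MonoidAlgebra k G) 2 := charP_of_injective_algebraMap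
      (algebraMap k (MonoidAlgebra k G)).injective 2
    refine ⟨2 ^ n, ?_⟩
    rw [sub_pow_char_pow, one_pow, ← map_pow, hn, map_one, sub_self]
  exact h

/-- approximation modulo powers of the augmentation ideal -/
theorem approx (R : Subalgebra k (MonoidAlgebra k G))
    (hR : ∀ x ∈ augI k G, ∃ r ∈ R, r ∈ augI k G ∧ x - r ∈ augI k G ^ 2) (j : ℕ) :
    ∀ x ∈ augI k G ^ j, ∃ r ∈ R, r ∈ augI k G ^ j ∧ x - r ∈ augI k G ^ (j + 1) := by
  induction j with
  | zero =>
    intro x _
    refine ⟨algebraMap k _ (aug k G x), R.algebraMap_mem _, by simp, ?_⟩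
    rw [zero_add, pow_one]
    exact sub_aug_mem x
  | succ j ih =>
    intro x hx
    rw [pow_succ] at hx
    induction hx using Submodule.mul_induction_on' with
    | mem_mul_mem a ha b hb =>
      obtain ⟨r, hr, hr1, hr2⟩ := ih a ha
      obtain ⟨r', hr', hr1', hr2'⟩ := hR b hb
      refine ⟨r * r', R.mul_mem hr hr', ?_, ?_⟩
      · rw [pow_succ]
        exact Ideal.mul_mem_mul hr1 hr1'
      · have e : a * b - r * r' = (a - r) * b + r * (b - r') := by ring
        rw [e]
        refine add_mem ?_ ?_
        · rw [pow_succ]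
          exact Ideal.mul_mem_mul hr2 hb
        · have : augI k G ^ (j + 1 + 1) = augI k G ^ j * augI k G ^ 2 := by
            rw [← pow_add]
          rw [this]
          exact Ideal.mul_mem_mul hr1 hr2'
    | add a _ b _ iha ihb =>
      obtain ⟨r, hr, hr1, hr2⟩ := iha
      obtain ⟨r', hr', hr1', hr2'⟩ := ihb
      refine ⟨r + r', R.add_mem hr hr', add_mem hr1 hr1', ?_⟩
      have e : a + b - (r + r') = (a - r) + (b - r') := by ring
      rw [e]
      exact add_mem hr2 hr2'

theorem eq_top_of_approx [CharP k 2] (hG : IsPGroup 2 G) (R : Subalgebra k (MonoidAlgebra k G))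
    (hR : ∀ x ∈ augI k G, ∃ r ∈ R, r ∈ augI k G ∧ x - r ∈ augI k G ^ 2) : R = ⊤ := by
  obtain ⟨n, hn⟩ := isNilpotent_augI (k := k) hG
  have h : ∀ j, j ≤ n → ∀ x ∈ augI k G ^ (n - j), x ∈ R := by
    intro j
    induction j with
    | zero =>
      intro _ x hx
      rw [Nat.sub_zero, hn] at hx
      have : x = 0 := by simpa using hx
      rw [this]
      exact R.zero_mem
    | succ j ih =>
      intro hj x hx
      obtain ⟨r, hr, -, hr2⟩ := approx R hR (n - (j + 1)) x hx
      have e : n - (j + 1) + 1 = n - j := by omega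
      rw [e] at hr2
      have h1 := R.add_mem hr (ih (by omega) _ hr2)
      rwa [add_sub_cancel] at h1
  rw [eq_top_iff]
  intro x _
  refine h n le_rfl x ?_
  rw [Nat.sub_self, pow_zero]
  simp

/-- the elements `g` such that `g - 1` can be approximated -/
def appr (R : Subalgebra k (MonoidAlgebra k G)) : Subgroup G where
  carrier := {g | ∃ r ∈ R, r ∈ augI k G ∧ (of k G g - 1) - r ∈ augI k G ^ 2}
  one_mem' := ⟨0, R.zero_mem, zero_mem _, by rw [map_one, sub_self, sub_zero]; exact zero_mem _⟩
  mul_mem' := by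
    rintro g h ⟨r, hr, hr1, hr2⟩ ⟨r', hr', hr1', hr2'⟩
    refine ⟨r + r', R.add_mem hr hr', add_mem hr1 hr1', ?_⟩
    have e : (of k G (g * h) - 1) - (r + r') = ((of k G g - 1) - r) + ((of k G h - 1) - r') +
        (of k G g - 1) * (of k G h - 1) := by
      rw [map_mul]; ring
    rw [e]
    refine add_mem (add_mem hr2 hr2') ?_
    rw [pow_two]
    exact Ideal.mul_mem_mul (of_sub_one_mem g) (of_sub_one_mem h)
  inv_mem' := by
    rintro g ⟨r, hr, hr1, hr2⟩
    refine ⟨-r, R.neg_mem hr, neg_mem hr1, ?_⟩
    have e1 : of k G g * of k G g⁻¹ = 1 := by rw [← map_mul, mul_inv_cancel, map_one]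
    have e : (of k G g⁻¹ - 1) - (-r) = -((of k G g - 1) - r) -
        (of k G g - 1) * (of k G g⁻¹ - 1) := by
      linear_combination e1
    rw [e]
    refine sub_mem (neg_mem hr2) ?_
    rw [pow_two]
    exact Ideal.mul_mem_mul (of_sub_one_mem g) (of_sub_one_mem g⁻¹)

theorem mem_appr {R : Subalgebra k (MonoidAlgebra k G)} {g : G} :
    g ∈ appr R ↔ ∃ r ∈ R, r ∈ augI k G ∧ (of k G g - 1) - r ∈ augI k G ^ 2 := Iff.rfl

theorem charP_alg [CharP k 2] : CharP (MonoidAlgebra k G) 2 := charP_of_injective_algebraMap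
  (algebraMap k (MonoidAlgebra k G)).injective 2

theorem sq_mem_appr [CharP k 2] (R : Subalgebra k (MonoidAlgebra k G)) (g : G) :
    g ^ 2 ∈ appr R := by
  haveI := charP_alg (k := k) (G := G)
  refine ⟨0, R.zero_mem, zero_mem _, ?_⟩
  rw [sub_zero, map_pow]
  have e : (of k G g ^ 2 - 1 : MonoidAlgebra k G) = (of k G g - 1) ^ 2 := by
    rw [sub_pow_char, one_pow]
  rw [e]
  exact Ideal.pow_mem_pow (of_sub_one_mem g) 2

theorem eq_top_of_appr [CharP k 2] (hG : IsPGroup 2 G) (R : Subalgebra k (MonoidAlgebra k G))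
    (hR : appr R = ⊤) : R = ⊤ := by
  refine eq_top_of_approx hG R fun x hx => ?_
  let P : Submodule k (MonoidAlgebra k G) :=
    { carrier := {x | ∃ r ∈ R, r ∈ augI k G ∧ x - r ∈ augI k G ^ 2}
      zero_mem' := ⟨0, R.zero_mem, zero_mem _, by rw [sub_self]; exact zero_mem _⟩
      add_mem' := by
        rintro a b ⟨r, hr, hr1, hr2⟩ ⟨r', hr', hr1', hr2'⟩
        refine ⟨r + r', R.add_mem hr hr', add_mem hr1 hr1', ?_⟩
        have e : a + b - (r + r') = (a - r) + (b - r') := by ring
        rw [e]
        exact add_mem hr2 hr2'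
      smul_mem' := by
        rintro c a ⟨r, hr, hr1, hr2⟩
        refine ⟨c • r, R.smul_mem hr c, ?_, ?_⟩
        · rw [Algebra.smul_def]
          exact Ideal.mul_mem_left _ _ hr1
        · rw [← smul_sub, Algebra.smul_def]
          exact Ideal.mul_mem_left _ _ hr2 }
  have h : x ∈ P := by
    refine augI_le_of P (fun g => ?_) x hx
    have : g ∈ appr R := hR ▸ Subgroup.mem_top g
    exact this
  exact h

/-- the trace elements -/
noncomputable def tr (ω : k) (g : G) : MonoidAlgebra k G :=
  single g ω + single g⁻¹ ω⁻¹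

theorem mem_appr_of_tr [CharP k 2] {R : Subalgebra k (MonoidAlgebra k G)} {ω : k}
    (hω : ω ^ 3 = 1) (hω1 : ω ≠ 1) {g : G} (h : tr ω g ∈ R) : g ∈ appr R := by
  haveI := charP_alg (k := k) (G := G)
  have h2 : (2 : k) = 0 := CharTwo.two_eq_zero
  have h3 : ω ^ 2 + ω + 1 = 0 := by
    have : (ω - 1) * (ω ^ 2 + ω + 1) = 0 := by linear_combination hω
    exact (mul_eq_zero.mp this).resolve_left (sub_ne_zero.mpr hω1)
  have hinv : ω⁻¹ = ω ^ 2 := by
    have h0 : ω ≠ 0 := by rintro rfl; norm_num at hω
    field_simp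
    linear_combination -hω
  set C := algebraMap k (MonoidAlgebra k G) with hC
  have hs : ∀ (x : G) (c : k), single x c = C c * of k G x := by
    intro x c
    rw [hC, ← Algebra.smul_def, of_apply, smul_single, smul_eq_mul, mul_one]
  have h2' : (2 : MonoidAlgebra k G) = 0 := CharTwo.two_eq_zero
  have hCω : C ω ^ 2 + C ω + 1 = 0 := by
    rw [← map_pow, ← map_add, ← map_one C, ← map_add, h3, map_zero]
  have e1 : of k G g * of k G g⁻¹ = 1 := by rw [← map_mul, mul_inv_cancel, map_one]
  refine ⟨tr ω g - 1, R.sub_mem h R.one_mem, ?_, ?_⟩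
  · rw [mem_augI, map_sub, map_one, tr, map_add, aug_single, aug_single, hinv]
    linear_combination h3 - h2
  · have e : (of k G g - 1) - (tr ω g - 1) = C ω ^ 2 * ((of k G g - 1) * (of k G g⁻¹ - 1)) := by
      rw [tr, hs, hs, hinv, map_pow]
      linear_combination (-C ω ^ 2) * e1 + (of k G g) * hCω - (C ω * of k G g + C ω ^ 2) * h2'
    rw [e, pow_two (augI k G)]
    exact Ideal.mul_mem_left _ _ (Ideal.mul_mem_mul (of_sub_one_mem g) (of_sub_one_mem g⁻¹))

end

end Fermat.Agent.ZC
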