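import Fermat.Agent.ZC.RCGroup
import Fermat.Agent.ZC.HeckeId
import Fermat.Agent.ZC.TraceGen

/-!
# The characters of the ring class data
-/

set_option autoImplicit false
set_option linter.unusedSectionVars false
set_option linter.style.haveILetI false

open scoped Classical nonZeroDivisors

namespace Fermat.Agent.ZC

open NumberField Fermat.Agent.H29Z QuadraticAlgebra

noncomputable section

variable {K : Type} [Field K] [NumberField K] {d : ℤ} (e : 𝓞 K ≃+* QI ℤ d)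
  (B : Finset ℕ) [PB B] [IB d B]

theorem mul_mem_PI {𝔪 : Ideal (𝓞 K)} {a b : Ideal (𝓞 K)} :
    a * b ∈ PI 𝔪 ↔ a ∈ PI 𝔪 ∧ b ∈ PI 𝔪 := by
  constructor
  · rintro ⟨h1, h2⟩
    exact ⟨⟨left_ne_zero_of_mul h1, h2.of_mul_left_left⟩,
      ⟨right_ne_zero_of_mul h1, h2.of_mul_left_right⟩⟩
  · rintro ⟨h1, h2⟩
    exact mul_mem h1 h2

/-- the character of the units modulo `f` -/
def xiBar (ξ : (i : B) → MulChar (QI (ZMod (i : ℕ)) d) ℂ) : (𝓞 K ⧸ mB K B)ˣ →* ℂˣ where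
  toFun u := ∏ i, (ξ i).toUnitHom (uE e B u i)
  map_one' := by simp
  map_mul' u v := by
    rw [← Finset.prod_mul_distrib]
    refine Finset.prod_congr rfl fun i _ => ?_
    rw [map_mul, Pi.mul_apply, map_mul]

theorem xiBar_apply (ξ : (i : B) → MulChar (QI (ZMod (i : ℕ)) d) ℂ) (u : (𝓞 K ⧸ mB K B)ˣ) :
    xiBar e B ξ u = ∏ i, (ξ i).toUnitHom (uE e B u i) := rfl

theorem xiBar_coe (ξ : (i : B) → MulChar (QI (ZMod (i : ℕ)) d) ℂ) {u : (𝓞 K ⧸ mB K B)ˣ}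
    {y : 𝓞 K} (h : Ideal.Quotient.mk _ y = (u : 𝓞 K ⧸ mB K B)) :
    ((xiBar e B ξ u : ℂˣ) : ℂ) = ∏ i, ξ i (rdB e i y) := by
  rw [xiBar_apply, Units.coe_prod]
  refine Finset.prod_congr rfl fun i _ => ?_
  rw [MulChar.coe_toUnitHom, uE_of_mk e B h]

variable {ξ : (i : B) → MulChar (QI (ZMod (i : ℕ)) d) ℂ}

theorem toUnitHom_pow {F : Type*} [Field F] (χ : MulChar F ℂ) {n : ℕ} (h : ∀ x ≠ 0, χ x ^ n = 1)
    (u : Fˣ) : χ.toUnitHom u ^ n = 1 := by
  apply Units.ext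
  rw [Units.val_pow_eq_pow_val, MulChar.coe_toUnitHom, h _ u.ne_zero, Units.val_one]

theorem xiBar_pow (h4 : ∀ i, ∀ x ≠ 0, ξ i x ^ 4 = 1) (u : (𝓞 K ⧸ mB K B)ˣ) :
    xiBar e B ξ u ^ 4 = 1 := by
  rw [xiBar_apply, ← Finset.prod_pow]
  exact Finset.prod_eq_one fun i _ => toUnitHom_pow (ξ i) (h4 i) _

theorem ker_le_xiBar (hd : d < -1)
    (h1 : ∀ i : B, ∀ a : ZMod (i : ℕ), a ≠ 0 → ξ i (algebraMap _ _ a) = 1) :
    (fromU (mB_ne_bot (K := K) B)).ker ≤ (xiBar e B ξ).ker := by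
  intro u hu
  rw [MonoidHom.mem_ker, xiBar_apply]
  refine Finset.prod_eq_one fun i _ => ?_
  apply Units.ext
  rw [MulChar.coe_toUnitHom, Units.val_one]
  rcases ker_fromU e B hd hu with rfl | rfl
  · rw [map_one, Pi.one_apply, Units.val_one, map_one]
  · have h2 : ((uE e B (-1) i : (QI (ZMod (i : ℕ)) d)ˣ) : QI (ZMod (i : ℕ)) d) =
        algebraMap (ZMod (i : ℕ)) _ (-1) := by
      rw [uE_val, Units.val_neg, Units.val_one, map_neg, map_one, map_neg, map_one]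
      rfl
    rw [h2]
    exact h1 i (-1) (neg_ne_zero.mpr one_ne_zero)

/-- rational integers prime to `f` are squares modulo `f` -/
theorem isSquare_zmod (i : B) {a : ZMod (i : ℕ)} (ha : a ≠ 0) :
    ∃ v : (QI (ZMod (i : ℕ)) d)ˣ, ((v ^ 2 : (QI (ZMod (i : ℕ)) d)ˣ) : QI (ZMod (i : ℕ)) d) =
      algebraMap _ _ a := by
  haveI := Fintype.ofFinite (QI (ZMod (i : ℕ)) d)
  have ha' : algebraMap (ZMod (i : ℕ)) (QI (ZMod (i : ℕ)) d) a ≠ 0 := by
    rwa [Ne, map_eq_zero]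
  have hcard : Fintype.card (QI (ZMod (i : ℕ)) d) = (i : ℕ) * (i : ℕ) := by
    rw [Fintype.card_congr (QuadraticAlgebra.equivProd _ _), Fintype.card_prod, ZMod.card]
  have hsq : IsSquare (algebraMap (ZMod (i : ℕ)) (QI (ZMod (i : ℕ)) d) a) := by
    rw [FiniteField.isSquare_iff _ ha', hcard]
    · obtain ⟨k, hk⟩ := odd_of_mem d B i
      have e1 : (i : ℕ) * (i : ℕ) / 2 = ((i : ℕ) - 1) * (k + 1) := by
        have e2 : (i : ℕ) * (i : ℕ) = 2 * (2 * k * (k + 1)) + 1 := by rw [hk]; ring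
        rw [e2, hk]
        have : (2 * (2 * k * (k + 1)) + 1) / 2 = 2 * k * (k + 1) := by omega
        rw [this]
        simp
      rw [e1, pow_mul, ← map_pow, ZMod.pow_card_sub_one_eq_one ha, map_one, one_pow]
    · rw [ringChar.eq _ (i : ℕ)]
      intro h
      have := odd_of_mem d B i
      rw [h] at this
      exact absurd this (by decide)
  obtain ⟨v, hv⟩ := hsq
  have hv0 : v ≠ 0 := by
    rintro rfl
    rw [mul_zero] at hv
    exact ha' hv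
  refine ⟨Units.mk0 v hv0, ?_⟩
  rw [Units.val_pow_eq_pow_val, Units.val_mk0, hv, sq]

include e in
theorem nat_mem_Sq {n : ℕ} {u : (𝓞 K ⧸ mB K B)ˣ}
    (h : Ideal.Quotient.mk _ (n : 𝓞 K) = (u : 𝓞 K ⧸ mB K B)) : u ∈ Sq (𝓞 K ⧸ mB K B)ˣ := by
  have h1 : ∀ i : B, ((uE e B u i : (QI (ZMod (i : ℕ)) d)ˣ) : QI (ZMod (i : ℕ)) d) =
      algebraMap (ZMod (i : ℕ)) _ (n : ZMod (i : ℕ)) := by
    intro i
    rw [uE_of_mk e B h, map_natCast, map_natCast]
  have h2 : ∀ i : B, (n : ZMod (i : ℕ)) ≠ 0 := by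
    intro i hi
    have h3 := h1 i
    rw [hi, map_zero] at h3
    exact (uE e B u i).ne_zero h3
  choose v hv using fun i : B => isSquare_zmod (d := d) B i (h2 i)
  refine ⟨(uE e B).symm v, ?_⟩
  apply (uE e B).injective
  rw [powMonoidHom_apply, map_pow, MulEquiv.apply_symm_apply]
  funext i
  rw [Pi.pow_apply]
  apply Units.ext
  rw [hv i, h1 i]

/-- the class in the two-group -/
def clsB (b : Ideal (𝓞 K)) : GB K B := QuotientGroup.mk (rcI (mB_ne_bot B) b)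

theorem clsB_mul {a b : Ideal (𝓞 K)} (ha : a ∈ PI (mB K B)) (hb : b ∈ PI (mB K B)) :
    clsB B (a * b) = clsB B a * clsB B b := by
  rw [clsB, rcI_mul _ ha hb, QuotientGroup.mk_mul]
  rfl

theorem mem_NB_of_Sq {u : (𝓞 K ⧸ mB K B)ˣ} (hu : u ∈ Sq (𝓞 K ⧸ mB K B)ˣ) :
    fromU (mB_ne_bot B) u ∈ NB K B := le_oddCl _ ⟨u, hu, rfl⟩

/-- decomposition of quadratic characters of the units modulo `f` -/
theorem exists_xi' (h4 : ∀ i, ∀ x ≠ 0, ξ i x ^ 4 = 1) (hne : ∀ i, ∃ x ≠ 0, ξ i x ^ 2 ≠ 1)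
    (ε : (𝓞 K ⧸ mB K B)ˣ →* ℂˣ) (hε : ∀ u, ε u ^ 2 = 1) :
    ∃ ξ' : (i : B) → MulChar (QI (ZMod (i : ℕ)) d) ℂ, (∀ i, ξ' i = ξ i ∨ ξ' i = (ξ i)⁻¹) ∧
      ∀ u, xiBar e B ξ u * ε u = xiBar e B ξ' u := by
  have hloc : ∀ i : B, ∃ χ : MulChar (QI (ZMod (i : ℕ)) d) ℂ, (χ = ξ i ∨ χ = (ξ i)⁻¹) ∧
      ∀ w : (QI (ZMod (i : ℕ)) d)ˣ, (ξ i).toUnitHom w *
        ε ((uE e B).symm (Pi.mulSingle i w)) = χ.toUnitHom w := by
    intro i
    let εi : (QI (ZMod (i : ℕ)) d)ˣ →* ℂˣ := ε.comp ((uE e B).symm.toMonoidHom.comp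
      (MonoidHom.mulSingle (fun i : B => (QI (ZMod (i : ℕ)) d)ˣ) i))
    let η : (QI (ZMod (i : ℕ)) d)ˣ →* ℂˣ := (ξ i).toUnitHom ^ 2
    have hη : ∀ u, η u ^ 2 = 1 := by
      intro u
      change ((ξ i).toUnitHom u ^ 2) ^ 2 = 1
      rw [← pow_mul]
      exact toUnitHom_pow (ξ i) (h4 i) u
    have hη1 : η ≠ 1 := by
      obtain ⟨x, hx, hx2⟩ := hne i
      intro h
      apply hx2
      have h5 : η (Units.mk0 x hx) = 1 := by rw [h]; rfl
      have h6 := congrArg Units.val h5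
      change ((((ξ i).toUnitHom (Units.mk0 x hx)) ^ 2 : ℂˣ) : ℂ) = 1 at h6
      rw [Units.val_pow_eq_pow_val, MulChar.coe_toUnitHom, Units.val_mk0] at h6
      exact h6
    rcases quad_char εi η (fun u => hε _) hη hη1 with h | h
    · refine ⟨ξ i, Or.inl rfl, fun w => ?_⟩
      have : ε ((uE e B).symm (Pi.mulSingle i w)) = 1 := by
        have := DFunLike.congr_fun h w
        exact this
      rw [this, mul_one]
    · refine ⟨(ξ i)⁻¹, Or.inr rfl, fun w => ?_⟩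
      have h5 : ε ((uE e B).symm (Pi.mulSingle i w)) = (ξ i).toUnitHom w ^ 2 := by
        have := DFunLike.congr_fun h w
        exact this
      rw [h5]
      apply Units.ext
      rw [MulChar.coe_toUnitHom, MulChar.inv_apply_eq_inv', Units.val_mul,
        Units.val_pow_eq_pow_val, MulChar.coe_toUnitHom]
      have h6 := h4 i (w : QI (ZMod (i : ℕ)) d) w.ne_zero
      have h7 : (ξ i) (w : QI (ZMod (i : ℕ)) d) ≠ 0 := by
        intro h0
        rw [h0] at h6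
        norm_num at h6
      refine eq_inv_of_mul_eq_one_left ?_
      linear_combination h6
  choose ξ' h1 h2 using hloc
  refine ⟨ξ', h1, fun u => ?_⟩
  have h3 : ε u = ∏ i, ε ((uE e B).symm (Pi.mulSingle i (uE e B u i))) := by
    rw [← map_prod, ← map_prod, Finset.univ_prod_mulSingle, MulEquiv.symm_apply_apply]
  rw [h3, xiBar_apply, xiBar_apply, ← Finset.prod_mul_distrib]
  exact Finset.prod_congr rfl fun i _ => h2 i _

end

end Fermat.Agent.ZC
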