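import Fermat.Agent.ZC.RCBase
import Fermat.Agent.ZC.RayDens

/-!
# Existence of the ring class data
-/

set_option autoImplicit false
set_option linter.unusedSectionVars false
set_option linter.style.haveILetI false

open scoped Classical nonZeroDivisors Topology

namespace Fermat.Agent.ZC

open NumberField Fermat.Agent.H29Z QuadraticAlgebra IsDedekindDomain Fermat.Agent.CFT

noncomputable section

variable {K : Type} [Field K] [NumberField K] {d : ℤ} (e : 𝓞 K ≃+* QI ℤ d)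
  (B : Finset ℕ) [PB B] [IB d B]

/-- rational primes not dividing `f` are prime to `f` -/
theorem span_nat_mem {l : ℕ} (hl : l.Prime) (h : ¬ l ∣ fB B) :
    Ideal.span {(l : 𝓞 K)} ∈ PI (mB K B) := by
  have hc : IsCoprime (l : ℤ) (fB B : ℤ) := Nat.isCoprime_iff_coprime.mpr
    ((Nat.Prime.coprime_iff_not_dvd hl).mpr h)
  refine span_mem_PI (Nat.cast_ne_zero.mpr hl.ne_zero) ?_
  obtain ⟨a, b, hab⟩ := hc
  refine ⟨(a : 𝓞 K), ?_⟩
  rw [mB, Ideal.mem_span_singleton]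
  refine ⟨-(b : 𝓞 K), ?_⟩
  have h1 : ((a * l + b * fB B : ℤ) : 𝓞 K) = 1 := by rw [hab, Int.cast_one]
  push_cast at h1
  linear_combination h1

theorem rcI_span {y : 𝓞 K} (hy : y ≠ 0) {u : (𝓞 K ⧸ mB K B)ˣ}
    (h : Ideal.Quotient.mk _ y = (u : 𝓞 K ⧸ mB K B)) :
    rcI (mB_ne_bot B) (Ideal.span {y}) = fromU (mB_ne_bot B) u := by
  rw [rcI_of_mem _ (span_mem_of_mk hy h), fromU_eq _ hy h]

variable {B} in
theorem exists_unit_of_mem {y : 𝓞 K} (h : Ideal.span {y} ∈ PI (mB K B)) :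
    ∃ u : (𝓞 K ⧸ mB K B)ˣ, Ideal.Quotient.mk _ y = (u : 𝓞 K ⧸ mB K B) := by
  obtain ⟨u, hu⟩ := isUnit_mk_of_coprime h.2
  exact ⟨u, hu.symm⟩

section main

variable {ξ : (i : B) → MulChar (QI (ZMod (i : ℕ)) d) ℂ} {X0 : RG K B →* ℂˣ}
  {ψ : ClassGroup (𝓞 K) →* ℂˣ}

include e in
/-- on rational primes not dividing `f` everything is trivial -/
theorem clsB_nat {l : ℕ} (hl : l.Prime) (h : ¬ l ∣ fB B) :
    clsB B (Ideal.span {(l : 𝓞 K)}) = 1 := by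
  have hm := span_nat_mem (K := K) B hl h
  obtain ⟨u, hu⟩ := exists_unit_of_mem hm
  rw [clsB, rcI_span B (Nat.cast_ne_zero.mpr hl.ne_zero) hu, QuotientGroup.eq_one_iff]
  exact mem_NB_of_Sq B (nat_mem_Sq e B hu)

theorem XI_nat (h1 : ∀ i : B, ∀ a : ZMod (i : ℕ), a ≠ 0 → ξ i (algebraMap _ _ a) = 1)
    (hX0 : ∀ u, X0 (fromU (mB_ne_bot B) u) = xiBar e B ξ u) {l : ℕ} (hl : l.Prime)
    (h : ¬ l ∣ fB B) : XI B X0 (Ideal.span {(l : 𝓞 K)}) = 1 := by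
  have hm := span_nat_mem (K := K) B hl h
  obtain ⟨u, hu⟩ := exists_unit_of_mem hm
  rw [XI_of_mem B X0 hm, rcI_span B (Nat.cast_ne_zero.mpr hl.ne_zero) hu, hX0,
    xiBar_coe e B ξ hu]
  refine Finset.prod_eq_one fun i _ => ?_
  rw [map_natCast]
  have h2 : (l : QI (ZMod (i : ℕ)) d) = algebraMap (ZMod (i : ℕ)) _ (l : ZMod (i : ℕ)) := by
    rw [map_natCast]
  rw [h2]
  refine h1 i _ ?_
  rw [Ne, ZMod.natCast_eq_zero_iff]
  intro hil
  have hp : (i : ℕ).Prime := PB.prime (i : ℕ) i.2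
  have : (i : ℕ) = l := (Nat.prime_dvd_prime_iff_eq hp hl).mp hil
  exact h (this ▸ dvd_fB i)

/-- (3) the family of characters -/
theorem char_eq_aux (h4 : ∀ i, ∀ x ≠ 0, ξ i x ^ 4 = 1) (hne : ∀ i, ∃ x ≠ 0, ξ i x ^ 2 ≠ 1)
    (hX0 : ∀ u, X0 (fromU (mB_ne_bot B) u) = xiBar e B ξ u)
    (hB : B.Nonempty) (θ : GB K B →* ℂˣ) :
    ∃ ξ' : (i : B) → MulChar (QI (ZMod (i : ℕ)) d) ℂ,
    (∀ i, ξ' i = ξ i ∨ ξ' i = (ξ i)⁻¹) ∧
    ∀ y : 𝓞 K, XI B X0 (Ideal.span {y}) * θ (clsB B (Ideal.span {y})) =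
      ∏ i, ξ' i (rdB e i y) := by
  let ε : (𝓞 K ⧸ mB K B)ˣ →* ℂˣ :=
    θ.comp ((QuotientGroup.mk' (NB K B)).comp (fromU (mB_ne_bot B)))
  have hε : ∀ u, ε u ^ 2 = 1 := by
    intro u
    rw [← map_pow]
    change θ (QuotientGroup.mk' (NB K B) (fromU (mB_ne_bot B) (u ^ 2))) = 1
    have : QuotientGroup.mk' (NB K B) (fromU (mB_ne_bot B) (u ^ 2)) = 1 := by
      rw [QuotientGroup.mk'_apply, QuotientGroup.eq_one_iff]
      exact mem_NB_of_Sq B ⟨u, rfl⟩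
    rw [this, map_one]
  obtain ⟨ξ', h5, h6⟩ := exists_xi' e B h4 hne ε hε
  refine ⟨ξ', h5, fun y => ?_⟩
  by_cases hy : Ideal.span {y} ∈ PI (mB K B)
  · have hy0 : y ≠ 0 := by
      rintro rfl
      exact hy.1 (by simp)
    obtain ⟨u, hu⟩ := exists_unit_of_mem hy
    rw [XI_of_mem B X0 hy, clsB, rcI_span B hy0 hu, hX0, ← xiBar_coe e B ξ' hu, ← h6,
      Units.val_mul]
    rfl
  · have h7 : XI B X0 (Ideal.span {y}) = 0 := if_neg hy
    rw [h7, zero_mul]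
    symm
    by_contra hcon
    rw [← Ne, Finset.prod_ne_zero_iff] at hcon
    have h8 : ∀ i : B, rdB e i y ≠ 0 := by
      intro i h0
      apply hcon i (Finset.mem_univ _)
      rw [h0, MulChar.map_zero]
    apply hy
    have hy0 : y ≠ 0 := by
      rintro rfl
      obtain ⟨i, hi⟩ := hB
      exact h8 ⟨i, hi⟩ (map_zero _)
    have h9 : IsUnit (rdAll e B y) := Pi.isUnit_iff.mpr fun i => (h8 i).isUnit
    have h10 : IsUnit (Ideal.Quotient.mk (mB K B) y) := by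
      rw [← qE_mk e B y] at h9
      exact (MulEquiv.isUnit_map (qE e B)).mp h9
    obtain ⟨u, hu⟩ := h10
    exact span_mem_of_mk hy0 hu.symm

variable {A : ValuationSubring ℂ} (h2 : (2 : ℂ) ∈ A.nonunits)

theorem PhiA_nat {n : ℕ} (hn : n ≠ 0) (h : ∀ c, X0 c ^ n = 1)
    (h1 : ∀ i : B, ∀ a : ZMod (i : ℕ), a ≠ 0 → ξ i (algebraMap _ _ a) = 1)
    (hX0 : ∀ u, X0 (fromU (mB_ne_bot B) u) = xiBar e B ξ u) {l : ℕ} (hl : l.Prime)
    (hlf : ¬ l ∣ fB B) : PhiA B X0 hn h A (Ideal.span {(l : 𝓞 K)}) = 1 := by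
  rw [PhiA_apply, XI_nat e B h1 hX0 hl hlf, clsB_nat e B hl hlf, resA_one]
  rfl

include h2 in
/-- (4) nilpotency -/
theorem th_nil_aux (l : ℕ) :
    ∃ N : ℕ, (thG A (clsB B) (XI B X0) l - algebraMap _ _ (aL A (XI B X0) l)) ^ N = 0 := by
  haveI := charP_res h2
  obtain ⟨N, hN⟩ := isNilpotent_augI (k := IsLocalRing.ResidueField A) (isPGroup_GB (K := K) B)
  refine ⟨N, ?_⟩
  have h1 : aug _ _ (thG A (clsB B) (XI B X0) l) = aL A (XI B X0) l := by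
    rw [thG, map_sum, aL]
    exact Finset.sum_congr rfl fun b _ => aug_single _ _
  have h3 := sub_aug_mem (thG A (clsB B) (XI B X0) l)
  rw [h1] at h3
  have h4 := Ideal.pow_mem_pow h3 N
  rw [hN] at h4
  simpa using h4

end main

end

end Fermat.Agent.ZC
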