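import Fermat.Agent.ZC.RCMod
import Fermat.Agent.ZC.FinAb

/-!
# The 2-group of the ring class data
-/

set_option autoImplicit false
set_option linter.unusedSectionVars false
set_option linter.style.haveILetI false

open scoped Classical nonZeroDivisors

namespace Fermat.Agent.ZC

open NumberField Fermat.Agent.H29Z QuadraticAlgebra

noncomputable section

variable {K : Type} [Field K] [NumberField K] {d : ℤ} (e : 𝓞 K ≃+* QI ℤ d)
  (B : Finset ℕ) [PB B] [IB d B]

theorem odd_of_mem (d : ℤ) (B : Finset ℕ) [PB B] [IB d B] (i : B) : Odd (i : ℕ) := by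
  have hp : (i : ℕ).Prime := PB.prime (i : ℕ) i.2
  rcases hp.eq_two_or_odd' with h | h
  · exfalso
    have h1 := IB.inert (d := d) (i : ℕ) i.2
    have h2 : ∀ x : ZMod 2, x ^ 2 = x := by decide
    obtain ⟨i, hi⟩ := i
    simp only at h
    subst h
    exact h1 (d : ZMod 2) (h2 _)
  · exact h

/-- the units of the fields -/
theorem card_two_torsion {F : Type*} [Field F] (h2 : (2 : F) ≠ 0) :
    Nat.card {u : Fˣ // u ^ 2 = 1} = 2 := by
  have hne : (1 : Fˣ) ≠ -1 := by
    intro h
    have h1 := congrArg Units.val h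
    rw [Units.val_one, Units.val_neg, Units.val_one] at h1
    apply h2
    linear_combination h1
  have : ({u : Fˣ | u ^ 2 = 1} : Set Fˣ) = {1, -1} := by
    ext u
    simp only [Set.mem_ofPred_eq, Set.mem_insert_iff, Set.mem_singleton_iff]
    constructor
    · intro h
      have h1 : (u : F) ^ 2 = 1 := by rw [← Units.val_pow_eq_pow_val, h, Units.val_one]
      rcases sq_eq_one_iff.mp h1 with h | h
      · exact Or.inl (Units.ext h)
      · exact Or.inr (Units.ext (by rw [h]; rfl))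
    · rintro (rfl | rfl) <;> simp
  change Nat.card ({u : Fˣ | u ^ 2 = 1} : Set Fˣ) = 2
  rw [this, Nat.card_coe_set_eq, Set.ncard_pair hne]

instance charI (i : B) : CharP (QI (ZMod (i : ℕ)) d) (i : ℕ) :=
  charP_of_injective_algebraMap (algebraMap (ZMod (i : ℕ)) (QI (ZMod (i : ℕ)) d)).injective _

theorem two_ne_zero_QI (d : ℤ) (B : Finset ℕ) [PB B] [IB d B] (i : B) : (2 : QI (ZMod (i : ℕ)) d) ≠ 0 := by
  intro h
  have h1 : ((2 : ℕ) : QI (ZMod (i : ℕ)) d) = 0 := by exact_mod_cast h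
  rw [CharP.cast_eq_zero_iff _ (i : ℕ)] at h1
  have h2 := odd_of_mem d B i
  have hp : (i : ℕ).Prime := PB.prime (i : ℕ) i.2
  rcases (Nat.dvd_prime Nat.prime_two).mp h1 with h | h
  · exact hp.one_lt.ne' h
  · rw [h] at h2
    exact absurd h2 (by decide)

instance finQI (i : B) : Finite (QI (ZMod (i : ℕ)) d) :=
  Finite.of_equiv _ (QuadraticAlgebra.equivProd _ _).symm

theorem isSquare_neg_one_QI (d : ℤ) (B : Finset ℕ) [PB B] [IB d B] (i : B) : ∃ v : (QI (ZMod (i : ℕ)) d)ˣ, v ^ 2 = -1 := by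
  haveI := Fintype.ofFinite (QI (ZMod (i : ℕ)) d)
  have hcard : Fintype.card (QI (ZMod (i : ℕ)) d) = (i : ℕ) * (i : ℕ) := by
    rw [Fintype.card_congr (QuadraticAlgebra.equivProd _ _), Fintype.card_prod, ZMod.card]
  have hsq : IsSquare (-1 : QI (ZMod (i : ℕ)) d) := by
    rw [FiniteField.isSquare_neg_one_iff, hcard]
    obtain ⟨k, hk⟩ := odd_of_mem d B i
    have : (i : ℕ) * (i : ℕ) = 4 * (k * k + k) + 1 := by rw [hk]; ring
    omega
  obtain ⟨v, hv⟩ := hsq
  have hv0 : v ≠ 0 := by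
    rintro rfl
    rw [mul_zero] at hv
    exact (neg_ne_zero.mpr one_ne_zero) hv
  refine ⟨Units.mk0 v hv0, ?_⟩
  apply Units.ext
  rw [Units.val_pow_eq_pow_val, Units.val_mk0, Units.val_neg, Units.val_one, hv, sq]

instance finMod : Finite (𝓞 K ⧸ mB K B) := finite_quot (mB_ne_bot B)

include e in
theorem index_Sq_mod : (Sq (𝓞 K ⧸ mB K B)ˣ).index = 2 ^ B.card := by
  rw [index_Sq]
  have e1 : {u : (𝓞 K ⧸ mB K B)ˣ // u ^ 2 = 1} ≃
      {w : (i : B) → (QI (ZMod (i : ℕ)) d)ˣ // ∀ i, (w i) ^ 2 = 1} :=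
    (uE e B).toEquiv.subtypeEquiv fun u => by
      change u ^ 2 = 1 ↔ ∀ i, (uE e B u i) ^ 2 = 1
      rw [← (uE e B).injective.eq_iff, map_pow, map_one, funext_iff]
      rfl
  rw [Nat.card_congr (e1.trans (Equiv.subtypePiEquivPi (p := fun i w => w ^ 2 = 1))), Nat.card_pi]
  have : ∀ i : B, Nat.card {w : (QI (ZMod (i : ℕ)) d)ˣ // w ^ 2 = 1} = 2 := fun i =>
    card_two_torsion (two_ne_zero_QI d B i)
  rw [Finset.prod_congr rfl fun i _ => this i, Finset.prod_const, Finset.card_univ,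
    Fintype.card_coe]

include e in
theorem units_eq (hd : d < -1) (ε : (𝓞 K)ˣ) : (ε : 𝓞 K) = 1 ∨ (ε : 𝓞 K) = -1 := by
  have h1 : IsUnit (e (ε : 𝓞 K)) := ε.isUnit.map e
  have h2 := QuadraticAlgebra.isUnit_iff_norm_isUnit.mp h1
  rw [Int.isUnit_iff, norm_def] at h2
  set a := (e (ε : 𝓞 K)).re with ha
  set b := (e (ε : 𝓞 K)).im with hb
  have h3 : a * a - d * (b * b) = 1 := by
    simp only [zero_mul, add_zero, Int.cast_id] at h2
    have h4 : 0 ≤ a * a := mul_self_nonneg a
    have h5 : 0 ≤ b * b := mul_self_nonneg b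
    rcases h2 with h | h
    · linarith
    · nlinarith
  have hb0 : b = 0 := by
    by_contra hb0
    have : 1 ≤ b * b := by
      have := mul_self_pos.mpr hb0
      omega
    nlinarith [mul_self_nonneg a]
  have ha1 : a * a = 1 := by rw [hb0] at h3; linarith
  rcases mul_self_eq_one_iff.mp ha1 with h | h
  · left
    apply e.injective
    rw [map_one]
    ext
    · exact h
    · exact hb0
  · right
    apply e.injective
    rw [map_neg, map_one]
    ext
    · rw [re_neg, re_one]; exact h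
    · rw [im_neg, im_one, neg_zero]; exact hb0

/-- the ray class group modulo `f` -/
abbrev RG (K : Type) [Field K] [NumberField K] (B : Finset ℕ) [PB B] : Type :=
  Ray (mB K B) (mB_ne_bot B)

include e in
theorem ker_fromU (hd : d < -1) {u : (𝓞 K ⧸ mB K B)ˣ} (hu : fromU (mB_ne_bot B) u = 1) :
    u = 1 ∨ u = -1 := by
  obtain ⟨ε, hε⟩ := exists_unit_of_fromU (mB_ne_bot B) hu
  rcases units_eq e hd ε with h | h
  · left
    apply Units.ext
    rw [hε, h, map_one, Units.val_one]
  · right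
    apply Units.ext
    rw [hε, h, map_neg, map_one, Units.val_neg, Units.val_one]

include e in
theorem neg_one_mem_Sq : (-1 : (𝓞 K ⧸ mB K B)ˣ) ∈ Sq (𝓞 K ⧸ mB K B)ˣ := by
  choose v hv using fun i : B => isSquare_neg_one_QI d B i
  refine ⟨(uE e B).symm v, ?_⟩
  apply (uE e B).injective
  rw [powMonoidHom_apply, map_pow, MulEquiv.apply_symm_apply]
  funext i
  rw [Pi.pow_apply, hv]
  apply Units.ext
  rw [uE_val, Units.val_neg, Units.val_one, Units.val_neg, Units.val_one, map_neg, map_one]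
  rfl

include e in
theorem ker_fromU_le (hd : d < -1) : (fromU (mB_ne_bot (K := K) B)).ker ≤ Sq _ := by
  intro u hu
  rcases ker_fromU e B hd hu with rfl | rfl
  · exact Subgroup.one_mem _
  · exact neg_one_mem_Sq e B

/-- the subgroup to divide out -/
def NB (K : Type) [Field K] [NumberField K] (B : Finset ℕ) [PB B] : Subgroup (RG K B) :=
  oddCl ((Sq (𝓞 K ⧸ mB K B)ˣ).map (fromU (mB_ne_bot B)))

include e in
theorem index_NB (hd : d < -1) :
    (NB K B).index = 2 ^ B.card * 2 ^ padicValNat 2 (Nat.card (ClassGroup (𝓞 K))) := by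
  haveI : Fact (Nat.Prime 2) := ⟨Nat.prime_two⟩
  rw [NB, index_oddCl, Subgroup.index_map, sup_of_le_left (ker_fromU_le e B hd), range_fromU,
    index_Sq_mod e B, Subgroup.index_ker, MonoidHom.range_eq_top.mpr (toCl_surjective _),
    Subgroup.card_top, padicValNat.mul (by positivity) Nat.card_pos.ne', padicValNat.prime_pow,
    pow_add]

/-- the 2-group -/
abbrev GB (K : Type) [Field K] [NumberField K] (B : Finset ℕ) [PB B] : Type := RG K B ⧸ NB K B

include e in
theorem card_GB (hd : d < -1) :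
    Nat.card (GB K B) = 2 ^ B.card * 2 ^ padicValNat 2 (Nat.card (ClassGroup (𝓞 K))) := by
  rw [← Subgroup.index_eq_card, index_NB e B hd]

theorem isPGroup_GB : IsPGroup 2 (GB K B) := isPGroup_quot_oddCl _

end

end Fermat.Agent.ZC
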