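import Fermat.Agent.CFT.S14Input
import Fermat.Agent.H03.ClassSum

/-!
# The ray class group
-/

set_option autoImplicit false
set_option linter.unusedSectionVars false
set_option linter.style.haveILetI false

open scoped Classical nonZeroDivisors Topology

namespace Fermat.Agent.ZC

open NumberField Filter IsDedekindDomain Module Fermat.Agent.CFT Fermat.Agent.H03

noncomputable section

variable {K : Type*} [Field K] [NumberField K]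

/-- nonzero ideals prime to `𝔪` -/
def PI (𝔪 : Ideal (𝓞 K)) : Submonoid (Ideal (𝓞 K)) where
  carrier := {I | I ≠ ⊥ ∧ IsCoprime I 𝔪}
  one_mem' := ⟨by rw [Ideal.one_eq_top]; exact top_ne_bot, by
    rw [Ideal.one_eq_top]; exact isCoprime_top⟩
  mul_mem' {I J} hI hJ := ⟨mul_ne_zero hI.1 hJ.1, hI.2.mul_left hJ.2⟩

variable {𝔪 : Ideal (𝓞 K)}

theorem mem_PI {I : Ideal (𝓞 K)} : I ∈ PI 𝔪 ↔ I ≠ ⊥ ∧ IsCoprime I 𝔪 := Iff.rfl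

/-- elements congruent to one -/
def One1 (𝔪 : Ideal (𝓞 K)) (x : 𝓞 K) : Prop := x ≠ 0 ∧ x - 1 ∈ 𝔪

theorem One1.one : One1 𝔪 (1 : 𝓞 K) := ⟨one_ne_zero, by rw [sub_self]; exact zero_mem _⟩

theorem One1.mul {x y : 𝓞 K} (hx : One1 𝔪 x) (hy : One1 𝔪 y) : One1 𝔪 (x * y) := by
  refine ⟨mul_ne_zero hx.1 hy.1, ?_⟩
  have e : x * y - 1 = x * (y - 1) + (x - 1) := by ring
  rw [e]
  exact add_mem (Ideal.mul_mem_left _ _ hy.2) hx.2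

theorem span_mem_PI {x : 𝓞 K} (hx : x ≠ 0) (h : ∃ y, x * y - 1 ∈ 𝔪) : Ideal.span {x} ∈ PI 𝔪 := by
  refine ⟨by rwa [Ne, Ideal.span_singleton_eq_bot], ?_⟩
  exact HChar.isCoprime_span_iff.mpr h

theorem One1.mem {x : 𝓞 K} (hx : One1 𝔪 x) : Ideal.span {x} ∈ PI 𝔪 :=
  span_mem_PI hx.1 ⟨1, by rw [mul_one]; exact hx.2⟩

/-- the ray class congruence -/
def rayCon (𝔪 : Ideal (𝓞 K)) : Con (PI 𝔪) where
  r I J := ∃ x y : 𝓞 K, One1 𝔪 x ∧ One1 𝔪 y ∧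
    Ideal.span {x} * (I : Ideal (𝓞 K)) = Ideal.span {y} * (J : Ideal (𝓞 K))
  iseqv :=
    { refl := fun I => ⟨1, 1, One1.one, One1.one, rfl⟩
      symm := fun {I J} ⟨x, y, hx, hy, h⟩ => ⟨y, x, hy, hx, h.symm⟩
      trans := fun {I J L} ⟨x, y, hx, hy, h⟩ ⟨x', y', hx', hy', h'⟩ =>
        ⟨x' * x, y * y', hx'.mul hx, hy.mul hy', by
          rw [← Ideal.span_singleton_mul_span_singleton, ← Ideal.span_singleton_mul_span_singleton,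
            mul_assoc, h, mul_left_comm, h', mul_assoc]⟩ }
  mul' := fun {I J L M} ⟨x, y, hx, hy, h⟩ ⟨x', y', hx', hy', h'⟩ =>
    ⟨x * x', y * y', hx.mul hx', hy.mul hy', by
      rw [← Ideal.span_singleton_mul_span_singleton, ← Ideal.span_singleton_mul_span_singleton]
      have e1 : Ideal.span {x} * Ideal.span {x'} * ((I * L : PI 𝔪) : Ideal (𝓞 K)) =
          (Ideal.span {x} * (I : Ideal (𝓞 K))) * (Ideal.span {x'} * (L : Ideal (𝓞 K))) := by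
        push_cast; ring
      have e2 : Ideal.span {y} * Ideal.span {y'} * ((J * M : PI 𝔪) : Ideal (𝓞 K)) =
          (Ideal.span {y} * (J : Ideal (𝓞 K))) * (Ideal.span {y'} * (M : Ideal (𝓞 K))) := by
        push_cast; ring
      rw [e1, e2, h, h']⟩

/-- the ray class monoid -/
def RayM (𝔪 : Ideal (𝓞 K)) : Type _ := (rayCon 𝔪).Quotient

instance : CommMonoid (RayM 𝔪) := inferInstanceAs (CommMonoid (rayCon 𝔪).Quotient)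

/-- the class of an ideal -/
def rmk : PI 𝔪 →* RayM 𝔪 := (rayCon 𝔪).mk'

theorem rmk_surjective : Function.Surjective (rmk (𝔪 := 𝔪)) := Con.mk'_surjective

theorem rmk_eq_iff {I J : PI 𝔪} : rmk I = rmk J ↔ ∃ x y : 𝓞 K, One1 𝔪 x ∧ One1 𝔪 y ∧
    Ideal.span {x} * (I : Ideal (𝓞 K)) = Ideal.span {y} * (J : Ideal (𝓞 K)) :=
  Con.eq (rayCon 𝔪)

theorem rmk_span_one {x : 𝓞 K} (hx : One1 𝔪 x) : rmk (⟨Ideal.span {x}, hx.mem⟩ : PI 𝔪) = 1 := by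
  rw [← map_one (rmk (𝔪 := 𝔪)), rmk_eq_iff]
  refine ⟨1, x, One1.one, hx, ?_⟩
  simp

variable (h𝔪 : 𝔪 ≠ ⊥)

theorem finite_quot (h𝔪 : 𝔪 ≠ ⊥) : Finite (𝓞 K ⧸ 𝔪) := Ideal.finiteQuotientOfFreeOfNeBot 𝔪 h𝔪

/-- elements prime to `𝔪` have a power congruent to one -/
theorem exists_pow_one {x : 𝓞 K} (h𝔪 : 𝔪 ≠ ⊥) (hx : x ≠ 0) (h : IsCoprime (Ideal.span {x}) 𝔪) :
    ∃ n : ℕ, 0 < n ∧ One1 𝔪 (x ^ n) := by
  haveI := finite_quot h𝔪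
  obtain ⟨y, hy⟩ := HChar.isCoprime_span_iff.mp h
  have hu : Ideal.Quotient.mk 𝔪 x * Ideal.Quotient.mk 𝔪 y = 1 := by
    rw [← map_mul, ← map_one (Ideal.Quotient.mk 𝔪), Ideal.Quotient.eq]
    exact hy
  obtain ⟨u, hu'⟩ : IsUnit (Ideal.Quotient.mk 𝔪 x) := IsUnit.of_mul_eq_one _ hu
  refine ⟨Nat.card (𝓞 K ⧸ 𝔪)ˣ, Nat.card_pos, pow_ne_zero _ hx, ?_⟩
  rw [← Ideal.Quotient.eq, map_pow, map_one, ← hu', ← Units.val_pow_eq_pow_val, pow_card_eq_one',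
    Units.val_one]

theorem exists_pow_eq_one (h𝔪 : 𝔪 ≠ ⊥) (a : RayM 𝔪) : ∃ n : ℕ, 0 < n ∧ a ^ n = 1 := by
  obtain ⟨I, rfl⟩ := rmk_surjective a
  have hI : (I : Ideal (𝓞 K)) ∈ (Ideal (𝓞 K))⁰ := ne_bot_iff_mem.mp I.2.1
  have h1 : ClassGroup.mk0 (⟨(I : Ideal (𝓞 K)), hI⟩ ^ Nat.card (ClassGroup (𝓞 K)) :
      (Ideal (𝓞 K))⁰) = 1 := by
    rw [map_pow, pow_card_eq_one']
  rw [ClassGroup.mk0_eq_one_iff] at h1
  obtain ⟨x, hx⟩ := h1.principal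
  have hx' : (I : Ideal (𝓞 K)) ^ Nat.card (ClassGroup (𝓞 K)) = Ideal.span {x} := hx
  have hx0 : x ≠ 0 := by
    rintro rfl
    have h2 : (I : Ideal (𝓞 K)) ^ Nat.card (ClassGroup (𝓞 K)) = ⊥ := by rw [hx']; simp
    exact I.2.1 (pow_eq_zero_iff (Nat.card_pos.ne') |>.mp h2)
  have hc : IsCoprime (Ideal.span {x}) 𝔪 := by
    rw [← hx']; exact I.2.2.pow_left
  obtain ⟨n, hn, h3⟩ := exists_pow_one h𝔪 hx0 hc
  refine ⟨Nat.card (ClassGroup (𝓞 K)) * n, Nat.mul_pos Nat.card_pos hn, ?_⟩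
  have e : I ^ (Nat.card (ClassGroup (𝓞 K)) * n) = ⟨Ideal.span {x ^ n}, h3.mem⟩ := by
    apply Subtype.ext
    rw [SubmonoidClass.coe_pow, pow_mul, hx', Ideal.span_singleton_pow]
  rw [← map_pow, e, rmk_span_one h3]

/-- the ray class group -/
def Ray (𝔪 : Ideal (𝓞 K)) (_ : 𝔪 ≠ ⊥) : Type _ := RayM 𝔪

instance instCommGroupRay : CommGroup (Ray 𝔪 h𝔪) :=
  commGroupOfIsUnit (M := RayM 𝔪) fun a => by
    obtain ⟨n, hn, h⟩ := exists_pow_eq_one h𝔪 a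
    exact IsUnit.of_pow_eq_one h hn.ne'

/-- the class of an ideal in the ray class group -/
def rc : PI 𝔪 →* Ray 𝔪 h𝔪 := rmk (𝔪 := 𝔪)

theorem rc_surjective : Function.Surjective (rc h𝔪) := rmk_surjective

theorem rc_eq_iff {I J : PI 𝔪} : rc h𝔪 I = rc h𝔪 J ↔ ∃ x y : 𝓞 K, One1 𝔪 x ∧ One1 𝔪 y ∧
    Ideal.span {x} * (I : Ideal (𝓞 K)) = Ideal.span {y} * (J : Ideal (𝓞 K)) := rmk_eq_iff

/-- the map to the class group -/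
def toCl : Ray 𝔪 h𝔪 →* ClassGroup (𝓞 K) :=
  Con.lift (rayCon 𝔪)
    { toFun := fun I : PI 𝔪 => ClassGroup.mk0 ⟨(I : Ideal (𝓞 K)), ne_bot_iff_mem.mp I.2.1⟩
      map_one' := by
        rw [ClassGroup.mk0_eq_one_iff]
        exact ⟨⟨1, by simp⟩⟩
      map_mul' := fun I J => by
        rw [← map_mul]; rfl }
    (by
      rintro I J ⟨x, y, hx, hy, h⟩
      rw [Con.ker_rel]
      exact ClassGroup.mk0_eq_mk0_iff.mpr ⟨x, y, hx.1, hy.1, h⟩)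

theorem toCl_rc (I : PI 𝔪) : toCl h𝔪 (rc h𝔪 I) =
    ClassGroup.mk0 ⟨(I : Ideal (𝓞 K)), ne_bot_iff_mem.mp I.2.1⟩ := rfl

theorem toCl_surjective : Function.Surjective (toCl h𝔪) := by
  intro C
  obtain ⟨𝔟, h1, h2⟩ := exists_classRep 𝔪 h𝔪 C⁻¹
  refine ⟨rc h𝔪 ⟨𝔟, nonZeroDivisors.ne_zero 𝔟.2, h1⟩, ?_⟩
  rw [toCl_rc]
  rw [inv_inv] at h2
  exact h2

/-- lifts of units -/
theorem exists_lift (h𝔪 : 𝔪 ≠ ⊥) (u : (𝓞 K ⧸ 𝔪)ˣ) : ∃ x : 𝓞 K, x ≠ 0 ∧ Ideal.Quotient.mk 𝔪 x = u := by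
  obtain ⟨x, hx⟩ := Ideal.Quotient.mk_surjective (I := 𝔪) (u : 𝓞 K ⧸ 𝔪)
  by_cases h : x = 0
  · obtain ⟨m, hm, hm0⟩ := Submodule.exists_mem_ne_zero_of_ne_bot h𝔪
    refine ⟨m, hm0, ?_⟩
    rw [← hx, h, map_zero]
    exact Ideal.Quotient.eq_zero_iff_mem.mpr hm
  · exact ⟨x, h, hx⟩

theorem span_mem_of_mk {x : 𝓞 K} (hx : x ≠ 0) {u : (𝓞 K ⧸ 𝔪)ˣ} (h : Ideal.Quotient.mk 𝔪 x = u) :
    Ideal.span {x} ∈ PI 𝔪 := by
  refine span_mem_PI hx ?_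
  obtain ⟨y, hy⟩ := Ideal.Quotient.mk_surjective (I := 𝔪) (u⁻¹ : (𝓞 K ⧸ 𝔪)ˣ).1
  refine ⟨y, ?_⟩
  rw [← Ideal.Quotient.eq, map_mul, h, hy, map_one]
  exact u.mul_inv

theorem rc_span_eq {x x' : 𝓞 K} (hx : x ≠ 0) (hx' : x' ≠ 0) {u : (𝓞 K ⧸ 𝔪)ˣ}
    (h : Ideal.Quotient.mk 𝔪 x = u) (h' : Ideal.Quotient.mk 𝔪 x' = u) :
    rc h𝔪 ⟨Ideal.span {x}, span_mem_of_mk hx h⟩ = rc h𝔪 ⟨Ideal.span {x'}, span_mem_of_mk hx' h'⟩ := by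
  rw [rc_eq_iff]
  obtain ⟨y, hy0, hy⟩ := exists_lift h𝔪 u⁻¹
  refine ⟨x' * y, x * y, ⟨mul_ne_zero hx' hy0, ?_⟩, ⟨mul_ne_zero hx hy0, ?_⟩, ?_⟩
  · rw [← Ideal.Quotient.eq, map_mul, h', hy, map_one, Units.mul_inv]
  · rw [← Ideal.Quotient.eq, map_mul, h, hy, map_one, Units.mul_inv]
  · change Ideal.span {x' * y} * Ideal.span {x} = Ideal.span {x * y} * Ideal.span {x'}
    rw [Ideal.span_singleton_mul_span_singleton, Ideal.span_singleton_mul_span_singleton]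
    congr 2
    ring

/-- the map from the units modulo `𝔪` -/
def fromU : (𝓞 K ⧸ 𝔪)ˣ →* Ray 𝔪 h𝔪 where
  toFun u := rc h𝔪 ⟨Ideal.span {(exists_lift h𝔪 u).choose},
    span_mem_of_mk (exists_lift h𝔪 u).choose_spec.1 (exists_lift h𝔪 u).choose_spec.2⟩
  map_one' := by
    rw [rc_span_eq h𝔪 (x' := 1) (exists_lift h𝔪 1).choose_spec.1 one_ne_zero
      (exists_lift h𝔪 1).choose_spec.2 (by simp)]
    have : (⟨Ideal.span {1}, span_mem_of_mk (𝔪 := 𝔪) (u := 1) one_ne_zero (by simp)⟩ : PI 𝔪) = 1 :=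
      Subtype.ext (by simp)
    rw [this, map_one]
  map_mul' u v := by
    have hu := (exists_lift h𝔪 u).choose_spec
    have hv := (exists_lift h𝔪 v).choose_spec
    rw [← map_mul, rc_span_eq h𝔪
      (x' := (exists_lift h𝔪 u).choose * (exists_lift h𝔪 v).choose)
      (exists_lift h𝔪 (u * v)).choose_spec.1 (mul_ne_zero hu.1 hv.1)
      (exists_lift h𝔪 (u * v)).choose_spec.2 (by rw [map_mul, hu.2, hv.2, Units.val_mul])]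
    congr 1
    apply Subtype.ext
    exact (Ideal.span_singleton_mul_span_singleton _ _).symm

theorem fromU_eq {x : 𝓞 K} (hx : x ≠ 0) {u : (𝓞 K ⧸ 𝔪)ˣ} (h : Ideal.Quotient.mk 𝔪 x = u) :
    fromU h𝔪 u = rc h𝔪 ⟨Ideal.span {x}, span_mem_of_mk hx h⟩ :=
  rc_span_eq h𝔪 (exists_lift h𝔪 u).choose_spec.1 hx (exists_lift h𝔪 u).choose_spec.2 h

theorem toCl_fromU (u : (𝓞 K ⧸ 𝔪)ˣ) : toCl h𝔪 (fromU h𝔪 u) = 1 := by
  obtain ⟨x, hx, h⟩ := exists_lift h𝔪 u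
  rw [fromU_eq h𝔪 hx h, toCl_rc, ClassGroup.mk0_eq_one_iff]
  exact ⟨⟨x, rfl⟩⟩

theorem isUnit_mk_of_coprime {x : 𝓞 K} (h : IsCoprime (Ideal.span {x}) 𝔪) :
    IsUnit (Ideal.Quotient.mk 𝔪 x) := by
  obtain ⟨y, hy⟩ := HChar.isCoprime_span_iff.mp h
  refine IsUnit.of_mul_eq_one (Ideal.Quotient.mk 𝔪 y) ?_
  rw [← map_mul, ← map_one (Ideal.Quotient.mk 𝔪), Ideal.Quotient.eq]
  exact hy

theorem range_fromU : (fromU h𝔪).range = (toCl h𝔪).ker := by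
  ext c
  constructor
  · rintro ⟨u, rfl⟩
    exact toCl_fromU h𝔪 u
  · intro hc
    obtain ⟨I, rfl⟩ := rc_surjective h𝔪 c
    rw [MonoidHom.mem_ker, toCl_rc, ClassGroup.mk0_eq_one_iff] at hc
    obtain ⟨x, hx⟩ := hc.principal
    have hx' : (I : Ideal (𝓞 K)) = Ideal.span {x} := hx
    have hx0 : x ≠ 0 := by
      rintro rfl
      exact I.2.1 (by rw [hx']; simp)
    obtain ⟨u, hu⟩ := isUnit_mk_of_coprime (𝔪 := 𝔪) (x := x) (by rw [← hx']; exact I.2.2)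
    refine ⟨u, ?_⟩
    rw [fromU_eq h𝔪 hx0 hu.symm]
    congr 1
    exact Subtype.ext hx'.symm

theorem exists_unit_of_fromU {u : (𝓞 K ⧸ 𝔪)ˣ} (h : fromU h𝔪 u = 1) :
    ∃ ε : (𝓞 K)ˣ, (u : 𝓞 K ⧸ 𝔪) = Ideal.Quotient.mk 𝔪 ε := by
  obtain ⟨x, hx, hxu⟩ := exists_lift h𝔪 u
  rw [fromU_eq h𝔪 hx hxu, ← map_one (rc h𝔪), rc_eq_iff] at h
  obtain ⟨a, b, ha, hb, hab⟩ := h
  have hab' : Ideal.span {a} * Ideal.span {x} = Ideal.span {b} * (1 : Ideal (𝓞 K)) := hab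
  rw [Ideal.span_singleton_mul_span_singleton, mul_one, Ideal.span_singleton_eq_span_singleton]
    at hab'
  replace hab := hab'
  obtain ⟨ε, hε⟩ := hab
  refine ⟨ε⁻¹, ?_⟩
  have h1 := congrArg (Ideal.Quotient.mk 𝔪) hε
  have h2 : Ideal.Quotient.mk 𝔪 a = 1 := by
    rw [← map_one (Ideal.Quotient.mk 𝔪), Ideal.Quotient.eq]; exact ha.2
  have h3 : Ideal.Quotient.mk 𝔪 b = 1 := by
    rw [← map_one (Ideal.Quotient.mk 𝔪), Ideal.Quotient.eq]; exact hb.2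
  rw [map_mul, map_mul, h2, one_mul, h3, hxu] at h1
  have h4 : Ideal.Quotient.mk 𝔪 (ε : 𝓞 K) * Ideal.Quotient.mk 𝔪 ((ε⁻¹ : (𝓞 K)ˣ) : 𝓞 K) = 1 := by
    rw [← map_mul, Units.mul_inv, map_one]
  calc (u : 𝓞 K ⧸ 𝔪) = u * (Ideal.Quotient.mk 𝔪 (ε : 𝓞 K) *
        Ideal.Quotient.mk 𝔪 ((ε⁻¹ : (𝓞 K)ˣ) : 𝓞 K)) := by rw [h4, mul_one]
    _ = Ideal.Quotient.mk 𝔪 ((ε⁻¹ : (𝓞 K)ˣ) : 𝓞 K) := by rw [← mul_assoc, h1, one_mul]

instance finite_Ray : Finite (Ray 𝔪 h𝔪) := by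
  haveI := finite_quot h𝔪
  haveI h1 : Finite (toCl h𝔪).ker := by
    rw [← range_fromU]
    exact Set.finite_range (fromU h𝔪)
  haveI h2 : Finite (Ray 𝔪 h𝔪 ⧸ (toCl h𝔪).ker) :=
    Finite.of_equiv _ (QuotientGroup.quotientKerEquivOfSurjective _ (toCl_surjective h𝔪)).symm.toEquiv
  exact Finite.of_subgroup_quotient (toCl h𝔪).ker

/-- the class of an ideal as a function on all ideals -/
def rcI (I : Ideal (𝓞 K)) : Ray 𝔪 h𝔪 := if h : I ∈ PI 𝔪 then rc h𝔪 ⟨I, h⟩ else 1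

theorem rcI_of_mem {I : Ideal (𝓞 K)} (h : I ∈ PI 𝔪) : rcI h𝔪 I = rc h𝔪 ⟨I, h⟩ := dif_pos h

theorem rcI_mul {I J : Ideal (𝓞 K)} (hI : I ∈ PI 𝔪) (hJ : J ∈ PI 𝔪) :
    rcI h𝔪 (I * J) = rcI h𝔪 I * rcI h𝔪 J := by
  rw [rcI_of_mem h𝔪 hI, rcI_of_mem h𝔪 hJ, rcI_of_mem h𝔪 (mul_mem hI hJ), ← map_mul]
  rfl

/-- quotients of the ray class group give ideal homomorphisms -/
def rayHom {A : Type*} [AddCommGroup A] (φ : Ray 𝔪 h𝔪 →* Multiplicative A) : IdealHom 𝔪 A where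
  toFun I := (φ (rcI h𝔪 I)).toAdd
  map_mul I J hI hJ hI' hJ' := by
    rw [rcI_mul h𝔪 ⟨hI, hI'⟩ ⟨hJ, hJ'⟩, map_mul, toAdd_mul]
  triv x hx hx1 := by
    have h1 : One1 𝔪 x := ⟨hx, hx1⟩
    rw [rcI_of_mem h𝔪 h1.mem]
    have : rc h𝔪 ⟨Ideal.span {x}, h1.mem⟩ = 1 := rmk_span_one h1
    rw [this, map_one]
    rfl

theorem rayHom_apply {A : Type*} [AddCommGroup A] (φ : Ray 𝔪 h𝔪 →* Multiplicative A)
    (I : Ideal (𝓞 K)) : (rayHom h𝔪 φ).toFun I = (φ (rcI h𝔪 I)).toAdd := rfl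

theorem rayHom_surj {A : Type*} [AddCommGroup A] (φ : Ray 𝔪 h𝔪 →* Multiplicative A)
    (hφ : Function.Surjective φ) (a : A) :
    ∃ I : Ideal (𝓞 K), I ≠ ⊥ ∧ IsCoprime I 𝔪 ∧ (rayHom h𝔪 φ).toFun I = a := by
  obtain ⟨c, hc⟩ := hφ (Multiplicative.ofAdd a)
  obtain ⟨I, rfl⟩ := rc_surjective h𝔪 c
  refine ⟨I, I.2.1, I.2.2, ?_⟩
  rw [rayHom_apply, rcI_of_mem h𝔪 I.2, hc]
  rfl

end

end Fermat.Agent.ZC
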