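import Fermat.Agent.ZC.RCStruct
import Fermat.Agent.ZC.RayGrp

/-!
# The units modulo the conductor
-/

set_option autoImplicit false
set_option linter.unusedSectionVars false
set_option linter.style.haveILetI false

open scoped Classical nonZeroDivisors

namespace Fermat.Agent.ZC

open NumberField Fermat.Agent.H29Z QuadraticAlgebra

noncomputable section

variable {K : Type} [Field K] [NumberField K] {d : ℤ} (e : 𝓞 K ≃+* QI ℤ d)
  (B : Finset ℕ) [PB B] [IB d B]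

/-- the modulus -/
def mB (K : Type) [Field K] [NumberField K] (B : Finset ℕ) : Ideal (𝓞 K) :=
  Ideal.span {((fB B : ℕ) : 𝓞 K)}

theorem fB_ne_zero : fB B ≠ 0 := NeZero.ne _

theorem mB_ne_bot : mB K B ≠ ⊥ := by
  rw [mB, Ne, Ideal.span_singleton_eq_bot, Nat.cast_eq_zero]
  exact fB_ne_zero B

/-- reduction modulo all primes of `B` -/
def rdAll : 𝓞 K →+* ((i : B) → QI (ZMod (i : ℕ)) d) := RingHom.pi fun i => rdB e i

theorem rdAll_apply (x : 𝓞 K) (i : B) : rdAll e B x i = rdB e i x := rfl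

theorem rdB_re (i : B) (x : 𝓞 K) : (rdB e i x).re = ((e x).re : ZMod (i : ℕ)) := rfl
theorem rdB_im (i : B) (x : 𝓞 K) : (rdB e i x).im = ((e x).im : ZMod (i : ℕ)) := rfl

theorem exists_int (y : (i : B) → ZMod (i : ℕ)) : ∃ a : ℤ, ∀ i : B, (a : ZMod (i : ℕ)) = y i := by
  obtain ⟨z, hz⟩ := (EB B).surjective y
  refine ⟨(z.val : ℤ), fun i => ?_⟩
  have h1 : EB B ((z.val : ℤ) : ZMod (fB B)) i = ((z.val : ℤ) : ZMod (i : ℕ)) := by
    rw [map_intCast]; rfl
  rw [← h1, ← hz, Int.cast_natCast, ZMod.natCast_zmod_val z]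

theorem rdAll_surjective : Function.Surjective (rdAll e B) := by
  intro y
  obtain ⟨a, ha⟩ := exists_int B fun i => (y i).re
  obtain ⟨b, hb⟩ := exists_int B fun i => (y i).im
  refine ⟨e.symm ⟨a, b⟩, ?_⟩
  funext i
  ext
  · rw [rdAll_apply, rdB_re, RingEquiv.apply_symm_apply]
    exact ha i
  · rw [rdAll_apply, rdB_im, RingEquiv.apply_symm_apply]
    exact hb i

theorem dvd_of_forall {a : ℤ} (h : ∀ i : B, (a : ZMod (i : ℕ)) = 0) : ((fB B : ℕ) : ℤ) ∣ a := by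
  rw [← ZMod.intCast_zmod_eq_zero_iff_dvd]
  apply (EB B).injective
  rw [map_intCast, map_zero]
  funext i
  exact h i

theorem ker_rdAll : RingHom.ker (rdAll e B) = mB K B := by
  ext x
  rw [RingHom.mem_ker, mB, Ideal.mem_span_singleton]
  constructor
  · intro h
    have h1 : ∀ i : B, ((e x).re : ZMod (i : ℕ)) = 0 := fun i => by
      have := congrArg QuadraticAlgebra.re (congrFun h i)
      exact this
    have h2 : ∀ i : B, ((e x).im : ZMod (i : ℕ)) = 0 := fun i => by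
      have := congrArg QuadraticAlgebra.im (congrFun h i)
      exact this
    obtain ⟨a, ha⟩ := dvd_of_forall B h1
    obtain ⟨b, hb⟩ := dvd_of_forall B h2
    refine ⟨e.symm ⟨a, b⟩, ?_⟩
    apply e.injective
    rw [map_mul, RingEquiv.apply_symm_apply, map_natCast]
    have h3 : ((fB B : ℕ) : QI ℤ d) = ((fB B : ℕ) : ℤ) • (1 : QI ℤ d) := by
      rw [zsmul_eq_mul, mul_one, Int.cast_natCast]
    rw [h3, smul_mul_assoc, one_mul]
    ext
    · rw [ha]; simp
    · rw [hb]; simp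
  · rintro ⟨y, rfl⟩
    rw [map_mul, map_natCast]
    funext i
    have : (((fB B : ℕ) : (i : B) → QI (ZMod (i : ℕ)) d)) i = 0 := by
      rw [Pi.natCast_apply]
      have h1 : ((fB B : ℕ) : ZMod (i : ℕ)) = 0 := (ZMod.natCast_eq_zero_iff _ _).mpr (dvd_fB i)
      ext
      · rw [re_natCast, h1]; rfl
      · rw [im_natCast]; rfl
    rw [Pi.mul_apply, this, zero_mul]
    rfl

/-- the quotient by the modulus -/
def qE : (𝓞 K ⧸ mB K B) ≃+* ((i : B) → QI (ZMod (i : ℕ)) d) :=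
  (Ideal.quotEquivOfEq (ker_rdAll e B).symm).trans
    (RingHom.quotientKerEquivOfSurjective (rdAll_surjective e B))

theorem qE_mk (x : 𝓞 K) : qE e B (Ideal.Quotient.mk _ x) = rdAll e B x := rfl

/-- the units modulo the modulus -/
def uE : (𝓞 K ⧸ mB K B)ˣ ≃* ((i : B) → (QI (ZMod (i : ℕ)) d)ˣ) :=
  (Units.mapEquiv (qE e B).toMulEquiv).trans MulEquiv.piUnits

theorem uE_val (u : (𝓞 K ⧸ mB K B)ˣ) (i : B) :
    ((uE e B u i : (QI (ZMod (i : ℕ)) d)ˣ) : QI (ZMod (i : ℕ)) d) = qE e B (u : 𝓞 K ⧸ mB K B) i :=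
  rfl

theorem uE_of_mk {u : (𝓞 K ⧸ mB K B)ˣ} {x : 𝓞 K} (h : Ideal.Quotient.mk _ x = (u : 𝓞 K ⧸ mB K B))
    (i : B) : ((uE e B u i : (QI (ZMod (i : ℕ)) d)ˣ) : QI (ZMod (i : ℕ)) d) = rdB e i x := by
  rw [uE_val, ← h, qE_mk]
  rfl

end

end Fermat.Agent.ZC
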