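import Fermat.Agent.ZC.RCFinal

/-!
# (CF5) the theta elements span the group algebra; existence of the ring class data
-/

set_option autoImplicit false
set_option linter.unusedSectionVars false
set_option linter.style.haveILetI false

open scoped Classical nonZeroDivisors Topology

namespace Fermat.Agent.ZC

open NumberField Fermat.Agent.H29Z QuadraticAlgebra IsDedekindDomain Fermat.Agent.CFT

noncomputable section

variable {K : Type} [Field K] [NumberField K] {d : ℤ} (e : 𝓞 K ≃+* QI ℤ d)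
  (B : Finset ℕ) [PB B] [IB d B]
  {ξ : (i : B) → MulChar (QI (ZMod (i : ℕ)) d) ℂ} {X0 : RG K B →* ℂˣ}
  {ψ : ClassGroup (𝓞 K) →* ℂˣ} {A : ValuationSubring ℂ} (h2 : (2 : ℂ) ∈ A.nonunits)
  {χ0 : RG K B →* ℂˣ} {r : ℕ}

/-- the theta element of a split prime -/
theorem thG_split {n : ℕ} (hn : n ≠ 0) (h : ∀ c, X0 c ^ n = 1)
    (h1 : ∀ i : B, ∀ a : ZMod (i : ℕ), a ≠ 0 → ξ i (algebraMap _ _ a) = 1)
    (hX0 : ∀ u, X0 (fromU (mB_ne_bot B) u) = xiBar e B ξ u) {l : ℕ} (hl : l.Prime)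
    (hunr : ¬ (l : ℤ) ∣ 2 * d) (hlf : ¬ l ∣ fB B) {P : Ideal (𝓞 K)} (hP : P.IsPrime)
    (hPN : Ideal.absNorm P = l) :
    thG A (clsB B) (XI B X0) l = tr (resA A (XI B X0 P)) (clsB B P) := by
  have hl0 : (l : 𝓞 K) ≠ 0 := Nat.cast_ne_zero.mpr hl.ne_zero
  have hs0 : Ideal.span {(l : 𝓞 K)} ≠ ⊥ := by rwa [Ne, Ideal.span_singleton_eq_bot]
  have hP0 : P ≠ ⊥ := by
    rintro rfl
    rw [Ideal.absNorm_bot] at hPN
    exact hl.ne_zero hPN.symm
  have hPl : P ∣ Ideal.span {(l : 𝓞 K)} := by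
    rw [Ideal.dvd_span_singleton, ← hPN]
    exact Ideal.absNorm_mem P
  obtain ⟨Q, hQ⟩ := hPl
  have hQN : Ideal.absNorm Q = l := by
    have h3 := absNorm_span_nat e l
    rw [hQ, map_mul, hPN, pow_two] at h3
    exact Nat.eq_of_mul_eq_mul_left hl.pos h3
  have hQp : Q.IsPrime := Ideal.isPrime_of_irreducible_absNorm (by rw [hQN]; exact hl)
  have hne : P ≠ Q := by
    rintro rfl
    exact ne_of_unram e hl hunr hQ.symm hPN
  have hΦ := PhiA_nat e B (A := A) hn h h1 hX0 hl hlf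
  have h3 := hecke_split e (PhiA B X0 hn h A) hl hΦ hP hQp hPN hQN hQ.symm hne 1
  rw [mul_one, if_neg (by rw [Nat.dvd_one]; exact hl.ne_one), add_zero, Ssum_one, mul_one,
    Ssum_PhiA, PhiA_apply, PhiA_apply] at h3
  rw [h3, tr]
  congr 1
  have hmem := span_nat_mem (K := K) B hl hlf
  rw [hQ, mul_mem_PI] at hmem
  have h4 : clsB B P * clsB B Q = 1 := by
    rw [← clsB_mul B hmem.1 hmem.2, ← hQ]
    exact clsB_nat e B hl hlf
  have h5 : XI B X0 P * XI B X0 Q = 1 := by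
    rw [← XI_mul, ← hQ]
    exact XI_nat e B h1 hX0 hl hlf
  have h6 : resA A (XI B X0 P) * resA A (XI B X0 Q) = 1 := by
    rw [← resA_mul (XI_mem B X0 hn h A P) (XI_mem B X0 hn h A Q), h5, resA_one]
  rw [eq_inv_of_mul_eq_one_right h4, eq_inv_of_mul_eq_one_right h6]

/-- the algebra generated by the theta elements of the primes -/
def RB (K : Type) [Field K] [NumberField K] (d : ℤ) (B : Finset ℕ) [PB B] (A : ValuationSubring ℂ)
    (X0 : RG K B →* ℂˣ) : Subalgebra (IsLocalRing.ResidueField A)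
      (MonoidAlgebra (IsLocalRing.ResidueField A) (GB K B)) :=
  Algebra.adjoin _ {x | ∃ l : ℕ, l.Prime ∧ ¬ (l : ℤ) ∣ 2 * d * (fB B : ℕ) ∧
    x = thG A (clsB B) (XI B X0) l}

/-- (CF5) -/
theorem RB_eq_top (hd : d ≠ 0) (h2 : (2 : ℂ) ∈ A.nonunits)
    (h1 : ∀ i : B, ∀ a : ZMod (i : ℕ), a ≠ 0 → ξ i (algebraMap _ _ a) = 1)
    (hX0 : X0 = ψ.comp (toCl (mB_ne_bot B)) * χ0) (hr : ∀ c, χ0 c ^ 2 ^ r = 1)
    (hψ : ∀ c, ψ c ^ 3 = 1) (hψ1 : ψ ≠ 1)
    (hX : ∀ u, X0 (fromU (mB_ne_bot B) u) = xiBar e B ξ u) : RB K d B A X0 = ⊤ := by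
  haveI := charP_res h2
  have hn : (3 * 2 ^ r) ≠ 0 := by positivity
  have hXn : ∀ c, X0 c ^ (3 * 2 ^ r) = 1 := by
    intro c
    rw [hX0, MonoidHom.mul_apply, mul_pow, mul_comm 3, pow_mul (χ0 c), hr, one_pow, mul_one,
      mul_comm (2 ^ r), pow_mul, MonoidHom.comp_apply, hψ, one_pow]
  refine eq_top_of_appr (isPGroup_GB B) _ ?_
  by_contra hne
  obtain ⟨x, hx⟩ : ∃ x, x ∉ appr (RB K d B A X0) := by
    by_contra hcon
    push Not at hcon
    exact hne (eq_top_iff.mpr fun x _ => hcon x)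
  -- a quadratic character
  have h3 := (CommGroup.forall_monoidHom_apply_eq_one_iff ℂ (appr (RB K d B A X0)) x).not.mpr hx
  push Not at h3
  obtain ⟨φ, hφ1, hφ2⟩ := h3
  let φ₂ : RG K B →* φ.range := φ.rangeRestrict.comp (QuotientGroup.mk' (NB K B))
  have hφ₂ : Function.Surjective φ₂ :=
    φ.rangeRestrict_surjective.comp (QuotientGroup.mk'_surjective _)
  haveI hfin2 : Finite φ.range := Set.finite_range φ
  haveI hfin1 : Finite ψ.range := Set.finite_range ψ
  have hc2 : 2 ≤ Nat.card φ.range := by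
    haveI : Nontrivial φ.range := by
      refine ⟨⟨φ x, x, rfl⟩, 1, fun h => hφ2 ?_⟩
      exact congrArg Subtype.val h
    exact Nat.succ_le_of_lt Finite.one_lt_card
  -- the cubic character
  let φ₁ : RG K B →* ψ.range := ψ.rangeRestrict.comp (toCl (mB_ne_bot B))
  have hφ₁ : Function.Surjective φ₁ := ψ.rangeRestrict_surjective.comp (toCl_surjective _)
  have hc1 : 3 ≤ Nat.card ψ.range := by
    haveI : Fact (Nat.Prime 3) := ⟨Nat.prime_three⟩
    obtain ⟨c, hc⟩ : ∃ c, ψ c ≠ 1 := by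
      by_contra hcon
      push Not at hcon
      exact hψ1 (MonoidHom.ext hcon)
    have ho : orderOf (⟨ψ c, c, rfl⟩ : ψ.range) = 3 := by
      refine orderOf_eq_prime (Subtype.ext (hψ c)) fun h => hc ?_
      exact congrArg Subtype.val h
    have h4 := orderOf_dvd_natCard (⟨ψ c, c, rfl⟩ : ψ.range)
    rw [ho] at h4
    exact Nat.le_of_dvd Nat.card_pos h4
  have hN : (2 * d * (fB B : ℕ)).natAbs ≠ 0 := by
    rw [Int.natAbs_ne_zero]
    refine mul_ne_zero (mul_ne_zero two_ne_zero hd) ?_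
    exact_mod_cast fB_ne_zero B
  obtain ⟨v, hv1, hv2, hv3, hv4, hv5⟩ := exists_good (mB_ne_bot B) φ₁ hφ₁ φ₂ hφ₂ hc1 hc2
    (bdd1_absNorm_dvd (K := K) hN)
  have hl : (Ideal.absNorm v.asIdeal).Prime := hv1
  have hnd : ¬ ((Ideal.absNorm v.asIdeal : ℕ) : ℤ) ∣ 2 * d * (fB B : ℕ) := by
    intro h
    exact hv2 ⟨_, hl, Int.natCast_dvd.mp h, rfl⟩
  have hnd1 : ¬ ((Ideal.absNorm v.asIdeal : ℕ) : ℤ) ∣ 2 * d := fun h => hnd (h.mul_right _)
  have hnd2 : ¬ Ideal.absNorm v.asIdeal ∣ fB B := fun h =>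
    hnd ((Int.natCast_dvd_natCast.mpr h).mul_left _)
  have hmem : v.asIdeal ∈ PI (mB K B) := ⟨v.ne_bot, hv3⟩
  have h5 := thG_split e B (A := A) hn hXn h1 hX hl hnd1 hnd2 v.isPrime rfl
  -- the residue of the cubic character
  set c := rcI (mB_ne_bot B) v.asIdeal with hcdef
  have hψv : ψ (toCl (mB_ne_bot B) c) ≠ 1 := fun h => hv4 (Subtype.ext h)
  have hX1 : XI B X0 v.asIdeal = ((ψ (toCl (mB_ne_bot B) c) : ℂˣ) : ℂ) * ((χ0 c : ℂˣ) : ℂ) := by
    rw [XI_of_mem B X0 hmem, hX0, MonoidHom.mul_apply, Units.val_mul]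
    rfl
  have hψ3 : ((ψ (toCl (mB_ne_bot B) c) : ℂˣ) : ℂ) ^ 3 = 1 := by
    rw [← Units.val_pow_eq_pow_val, hψ, Units.val_one]
  have hχ : ((χ0 c : ℂˣ) : ℂ) ^ 2 ^ r = 1 := by
    rw [← Units.val_pow_eq_pow_val, hr, Units.val_one]
  have hres : resA A (XI B X0 v.asIdeal) = resA A ((ψ (toCl (mB_ne_bot B) c) : ℂˣ) : ℂ) := by
    rw [hX1, resA_mul (mem_of_pow_eq_one (by norm_num) hψ3)
      (mem_of_pow_eq_one (by positivity) hχ), resA_eq_one h2 hχ, mul_one]
  have h6 : clsB B v.asIdeal ∈ appr (RB K d B A X0) := by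
    have h7 : resA A (XI B X0 v.asIdeal) ^ 3 = 1 := by
      rw [hres, ← resA_pow (mem_of_pow_eq_one (by norm_num) hψ3), hψ3, resA_one]
    have h8 : resA A (XI B X0 v.asIdeal) ≠ 1 := by
      rw [hres]
      exact resA_ne_one h2 hψ3 fun h => hψv (Units.ext h)
    have h9 : tr (resA A (XI B X0 v.asIdeal)) (clsB B v.asIdeal) ∈ RB K d B A X0 := by
      rw [← h5]
      exact Algebra.subset_adjoin ⟨_, hl, hnd, rfl⟩
    exact mem_appr_of_tr h7 h8 h9
  exact hv5 (Subtype.ext (hφ1 _ h6))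

/-- (CF5) the theta elements span -/
theorem th_span_aux (hd : d ≠ 0) (h2 : (2 : ℂ) ∈ A.nonunits)
    (h1 : ∀ i : B, ∀ a : ZMod (i : ℕ), a ≠ 0 → ξ i (algebraMap _ _ a) = 1)
    (hX0 : X0 = ψ.comp (toCl (mB_ne_bot B)) * χ0) (hr : ∀ c, χ0 c ^ 2 ^ r = 1)
    (hψ : ∀ c, ψ c ^ 3 = 1) (hψ1 : ψ ≠ 1)
    (hX : ∀ u, X0 (fromU (mB_ne_bot B) u) = xiBar e B ξ u)
    (hhecke : ∀ ℓ : ℕ, ℓ.Prime → ¬ (ℓ : ℤ) ∣ 2 * d * (fB B : ℕ) → ∀ n,
      thG A (clsB B) (XI B X0) (ℓ * n) + (if ℓ ∣ n then thG A (clsB B) (XI B X0) (n / ℓ) else 0) =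
      thG A (clsB B) (XI B X0) ℓ * thG A (clsB B) (XI B X0) n)
    (hone : thG A (clsB B) (XI B X0) 1 = 1) [Fintype (GB K B)]
    (c : GB K B → IsLocalRing.ResidueField A)
    (hc : ∀ n : ℕ, 0 < n → n.Coprime (fB B) →
      ∑ g, c g * (thG A (clsB B) (XI B X0) n).coeff g = 0) : c = 0 := by
  set T := thG A (clsB B) (XI B X0) with hT
  let V : Submodule (IsLocalRing.ResidueField A)
      (MonoidAlgebra (IsLocalRing.ResidueField A) (GB K B)) :=
    Submodule.span (IsLocalRing.ResidueField A) {x | ∃ n : ℕ, 0 < n ∧ n.Coprime (fB B) ∧ x = T n}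
  -- V is stable under the algebra
  have hstab : ∀ x ∈ RB K d B A X0, ∀ v ∈ V, x * v ∈ V := by
    intro x hx
    induction hx using Algebra.adjoin_induction with
    | mem x hx =>
      obtain ⟨l, hl, hnd, rfl⟩ := hx
      intro v hv
      induction hv using Submodule.span_induction with
      | mem y hy =>
        obtain ⟨n, hn, hnf, rfl⟩ := hy
        rw [← hT, ← hhecke l hl hnd n]
        have hlf : l.Coprime (fB B) := (Nat.Prime.coprime_iff_not_dvd hl).mpr fun h =>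
          hnd ((Int.natCast_dvd_natCast.mpr h).mul_left _)
        refine V.add_mem (Submodule.subset_span ⟨_, Nat.mul_pos hl.pos hn,
          Nat.Coprime.mul_left hlf hnf, rfl⟩) ?_
        split_ifs with hdiv
        · obtain ⟨m, rfl⟩ := hdiv
          rw [Nat.mul_div_cancel_left m hl.pos]
          exact Submodule.subset_span ⟨m, Nat.pos_of_mul_pos_left hn |> fun _ => by
            exact Nat.pos_of_ne_zero fun h => by rw [h, mul_zero] at hn; exact lt_irrefl _ hn,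
            Nat.Coprime.coprime_mul_left hnf, rfl⟩
        · exact V.zero_mem
      | zero => rw [mul_zero]; exact V.zero_mem
      | add y z _ _ hy hz => rw [mul_add]; exact V.add_mem hy hz
      | smul a y _ hy => rw [mul_smul_comm]; exact V.smul_mem a hy
    | algebraMap a => intro v hv; rw [← Algebra.smul_def]; exact V.smul_mem a hv
    | add x y _ _ hx hy => intro v hv; rw [add_mul]; exact V.add_mem (hx v hv) (hy v hv)
    | mul x y _ _ hx hy => intro v hv; rw [mul_assoc]; exact hx _ (hy v hv)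
  have hone' : (1 : MonoidAlgebra (IsLocalRing.ResidueField A) (GB K B)) ∈ V :=
    Submodule.subset_span ⟨1, one_pos, Nat.coprime_one_left _, hone.symm⟩
  have hVtop : ∀ x : MonoidAlgebra (IsLocalRing.ResidueField A) (GB K B), x ∈ V := by
    intro x
    have h3 := hstab x (by rw [RB_eq_top e B hd h2 h1 hX0 hr hψ hψ1 hX]; trivial) 1 hone'
    rwa [mul_one] at h3
  -- the functional
  have hfun : ∀ x ∈ V, ∑ g, c g * x.coeff g = 0 := by
    intro x hx
    induction hx using Submodule.span_induction with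
    | mem y hy =>
      obtain ⟨n, hn, hnf, rfl⟩ := hy
      exact hc n hn hnf
    | zero => simp
    | add y z _ _ hy hz =>
      have : ∑ g, c g * (y + z).coeff g = ∑ g, c g * y.coeff g + ∑ g, c g * z.coeff g := by
        rw [← Finset.sum_add_distrib]
        refine Finset.sum_congr rfl fun g _ => ?_
        rw [MonoidAlgebra.coeff_add, Finsupp.add_apply, mul_add]
      rw [this, hy, hz, add_zero]
    | smul a y _ hy =>
      have : ∑ g, c g * (a • y).coeff g = a * ∑ g, c g * y.coeff g := by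
        rw [Finset.mul_sum]
        refine Finset.sum_congr rfl fun g _ => ?_
        rw [MonoidAlgebra.coeff_smul, Finsupp.smul_apply, smul_eq_mul]
        ring
      rw [this, hy, mul_zero]
  funext g
  have h3 := hfun (MonoidAlgebra.single g 1) (hVtop _)
  rw [Finset.sum_eq_single g] at h3
  · rw [MonoidAlgebra.coeff_single, Finsupp.single_eq_same, mul_one] at h3
    exact h3
  · intro b _ hb
    rw [MonoidAlgebra.coeff_single, Finsupp.single_apply, if_neg (Ne.symm hb), mul_zero]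
  · intro h
    exact absurd (Finset.mem_univ _) h

end

end Fermat.Agent.ZC
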